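import Mathlib
import Fermat.Agent.QComp.OpsJ

set_option autoImplicit false

/-!
# The core statement of `S44`
-/

open WeierstrassCurve ModularFormClass CongruenceSubgroup ModularCurve

namespace Fermat.Agent.MazurS

/-- The core statement of `S44`. -/
def Core44 : Prop := ∀ (p M : ℕ) (_ : Fact p.Prime) (_ : NeZero M) (_ : NeZero (M * p))
    (W : WeierstrassCurve ℤ), 5 ≤ p → Squarefree M → ¬ p ∣ M → W.Δ ≠ 0 → W.IsSemistableModel →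
    (p : ℤ) ∣ W.Δ → ¬ (p : ℤ) ∣ W.c₄ → p ∣ padicValInt p W.Δ → W.ModRepIsIrreducible p →
    ∀ S : Finset ℕ, p ∈ S → (∀ q : ℕ, q.Prime → (q : ℤ) ∣ W.Δ → q ∈ S) →
    ∀ x : JZero (M * p), x ≠ 0 → p • x = 0 →
      (∀ (ℓ : ℕ) (hℓ : ℓ.Prime), ¬ ℓ ∣ M * p → ℓ ∉ S →
        heckeOperatorBar (M * p) ⟨ℓ, hℓ⟩ x = W.apOfModel ℓ • x) →
    ∃ (f : CuspForm (Gamma0 M) 2) (𝔪 : Ideal (integralClosure ℤ ℂ)),
      f.IsNormalizedEigenform ∧ 𝔪.IsMaximal ∧ (p : integralClosure ℤ ℂ) ∈ 𝔪 ∧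
      ∃ S' : Finset ℕ, ∀ ℓ : ℕ, ℓ.Prime → ℓ ∉ S' → ∃ a : integralClosure ℤ ℂ,
        (a : ℂ) = qCoeff f ℓ ∧ a - ((W.apOfModel ℓ : ℤ) : integralClosure ℤ ℂ) ∈ 𝔪

end Fermat.Agent.MazurS
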