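import Fermat.Agent.MazurS.Group
import Fermat.Agent.ECRep.ResEquiv

set_option autoImplicit false

/-!
# The index of the inertia group of the field of `W[p]` at a multiplicative prime `p`
-/

open Matrix WeierstrassCurve Fermat.Agent Fermat.Agent.ECRep Fermat.Agent.DefRing
open scoped WeierstrassCurve.Affine

namespace Fermat.Agent.MazurS

local notation "Γℚ" => (AlgebraicClosure ℚ ≃ₐ[ℚ] AlgebraicClosure ℚ)
local notation "Qb" => AlgebraicClosure ℚ

variable (W : WeierstrassCurve ℤ) (p : ℕ)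

/-- the elements of the inertia group at `A` acting trivially on `W[p]` -/
noncomputable def inertiaU (A : ValuationSubring Qb) : Subgroup Γℚ where
  carrier := {σ | σ ∈ A.inertiaSubgroupIn ℚ ∧ ∀ v : Ihara.TorV (toRat W) p, σ • v = v}
  one_mem' := ⟨Subgroup.one_mem _, fun v => one_smul _ v⟩
  mul_mem' := fun {σ τ} hσ hτ => ⟨Subgroup.mul_mem _ hσ.1 hτ.1, fun v => by
    rw [mul_smul, hτ.2, hσ.2]⟩
  inv_mem' := fun {σ} hσ => ⟨Subgroup.inv_mem _ hσ.1, fun v => by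
    rw [inv_smul_eq_iff, hσ.2]⟩

theorem mem_inertiaU {A : ValuationSubring Qb} {σ : Γℚ} : σ ∈ inertiaU W p A ↔
    σ ∈ A.inertiaSubgroupIn ℚ ∧ ∀ v : Ihara.TorV (toRat W) p, σ • v = v := Iff.rfl

variable {p} [Fact p.Prime]

/-- adapted matrices on `W[p]`, for the inertia group at a multiplicative prime `p` -/
theorem exists_adapted (hΔ : W.Δ ≠ 0) (hpΔ : (p : ℤ) ∣ W.Δ) (hc : ¬ (p : ℤ) ∣ W.c₄)
    {A : ValuationSubring Qb} (hA : A.LiesOverPrime p) :
    ∃ r : Γℚ → Matrix (Fin 2) (Fin 2) (ZMod p),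
      RealizesRes (resRep (toRat W) p (toRat_Δ_ne_zero hΔ)) r ∧
      (∀ σ ∈ A.decompositionSubgroup ℚ, r σ 1 0 = 0) ∧
      ∀ σ ∈ A.inertiaSubgroupIn ℚ, r σ 1 1 = 1 := by
  have hp := (Fact.out : p.Prime)
  obtain ⟨x₀, y₀, α, β, D, hM⟩ := exists_multData W hΔ hp hA hpΔ hc
  obtain ⟨b, -, -, h⟩ := hM.exists_basis hΔ hp hA p
  obtain ⟨b', hb⟩ := exists_basis_mod (toRat_Δ_ne_zero hΔ) (pow_one p).symm PadicInt.toZMod b
  refine ⟨fun σ => (LinearMap.toMatrix b b (tateGal (toRat W) p σ)).map PadicInt.toZMod,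
    ⟨b', fun σ => toMatrix_mod (pow_one p).symm PadicInt.toZMod b b' hb σ⟩, ?_, ?_⟩
  · intro σ hσ
    obtain ⟨χ, t, e0, e1, e2⟩ := h σ hσ
    change PadicInt.toZMod (LinearMap.toMatrix b b (tateGal (toRat W) p σ) 1 0) = 0
    rw [LinearMap.toMatrix_apply, e0, map_smul]
    simp
  · intro σ hσ
    have hσ' : σ ∈ A.decompositionSubgroup ℚ := by
      obtain ⟨τ, -, hτ⟩ := hσ
      rw [← hτ]
      exact τ.2
    obtain ⟨χ, t, e0, e1, e2⟩ := h σ hσ'
    have hs : brSign α σ = 1 := by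
      unfold brSign
      rw [if_pos (hM.gal_inertia hσ).1]
    rw [hs, Int.cast_one, one_smul] at e1
    change PadicInt.toZMod (LinearMap.toMatrix b b (tateGal (toRat W) p σ) 1 1) = 1
    rw [LinearMap.toMatrix_apply, e1, map_add, map_smul]
    simp

/-- **(P3a)** -/
theorem index_inertiaU (hΔ : W.Δ ≠ 0) (hpΔ : (p : ℤ) ∣ W.Δ) (hc : ¬ (p : ℤ) ∣ W.c₄)
    {A : ValuationSubring Qb} (hA : A.LiesOverPrime p) :
    ((inertiaU W p A).subgroupOf (A.inertiaSubgroupIn ℚ)).FiniteIndex ∧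
      ((inertiaU W p A).subgroupOf (A.inertiaSubgroupIn ℚ)).index ≤ p * (p - 1) := by
  have hp := (Fact.out : p.Prime)
  obtain ⟨r, hr, h0, h1⟩ := exists_adapted W hΔ hpΔ hc hA
  let RM : Γℚ →* Matrix (Fin 2) (Fin 2) (ZMod p) :=
    { toFun := r, map_one' := hr.map_one, map_mul' := hr.map_mul }
  let f : A.inertiaSubgroupIn ℚ →* GL (Fin 2) (ZMod p) :=
    RM.toHomUnits.comp (A.inertiaSubgroupIn ℚ).subtype
  have hf : ∀ σ, ((f σ : GL (Fin 2) (ZMod p)) : Matrix (Fin 2) (Fin 2) (ZMod p)) = r σ :=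
    fun σ => rfl
  have hker : (inertiaU W p A).subgroupOf (A.inertiaSubgroupIn ℚ) = f.ker := by
    ext σ
    rw [Subgroup.mem_subgroupOf, MonoidHom.mem_ker, ← Units.val_inj, hf, Units.val_one,
      mem_inertiaU]
    obtain ⟨b, hb⟩ := hr
    rw [← hb]
    constructor
    · rintro ⟨-, h⟩
      have h2 : (resRep (toRat W) p (toRat_Δ_ne_zero hΔ)).ρ (σ : Γℚ) = 1 :=
        LinearMap.ext fun v => h v
      rw [h2, LinearMap.toMatrix_one]
    · intro h
      refine ⟨σ.2, fun v => ?_⟩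
      have h2 : (resRep (toRat W) p (toRat_Δ_ne_zero hΔ)).ρ (σ : Γℚ) = 1 := by
        apply (LinearMap.toMatrix b b).injective
        rw [h, LinearMap.toMatrix_one]
      exact LinearMap.congr_fun h2 v
  let g : f.range → (ZMod p)ˣ × ZMod p := fun x =>
    (Matrix.GeneralLinearGroup.det (x : GL (Fin 2) (ZMod p)),
      (x : GL (Fin 2) (ZMod p)).1 0 1)
  have hg : Function.Injective g := by
    rintro ⟨x, σ, rfl⟩ ⟨y, τ, rfl⟩ hxy
    have e1 : (r σ).det = (r τ).det := by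
      have := congrArg (fun z : (ZMod p)ˣ × ZMod p => (z.1 : ZMod p)) hxy
      exact this
    have e2 : r σ 0 1 = r τ 0 1 := congrArg Prod.snd hxy
    have hd : ∀ σ : A.inertiaSubgroupIn ℚ, (r σ).det = r σ 0 0 := fun σ => by
      have hσ' : (σ : Γℚ) ∈ A.decompositionSubgroup ℚ := by
        obtain ⟨τ, -, hτ⟩ := σ.2
        rw [← hτ]
        exact τ.2
      rw [Matrix.det_fin_two, h0 σ hσ', h1 σ σ.2]
      ring
    rw [hd, hd] at e1
    apply Subtype.ext
    apply Units.ext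
    rw [hf, hf]
    have hdec : ∀ σ : A.inertiaSubgroupIn ℚ, (σ : Γℚ) ∈ A.decompositionSubgroup ℚ := fun σ => by
      obtain ⟨τ, -, hτ⟩ := σ.2
      rw [← hτ]
      exact τ.2
    ext i j
    fin_cases i <;> fin_cases j
    · exact e1
    · exact e2
    · exact (h0 σ (hdec σ)).trans (h0 τ (hdec τ)).symm
    · exact (h1 σ σ.2).trans (h1 τ τ.2).symm
  have hcard : Nat.card f.range ≤ p * (p - 1) := by
    refine (Nat.card_le_card_of_injective g hg).trans ?_
    rw [Nat.card_prod, Nat.card_zmod, Nat.card_eq_fintype_card, ZMod.card_units_eq_totient,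
      Nat.totient_prime hp, mul_comm]
  have hfin : Finite f.range := Finite.of_injective g hg
  rw [hker]
  refine ⟨⟨?_⟩, ?_⟩
  · rw [Subgroup.index_ker]
    exact Nat.card_pos.ne'
  · rw [Subgroup.index_ker]
    exact hcard

end Fermat.Agent.MazurS
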