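import Fermat.Agent.MazurS.PeuField
import Fermat.Agent.MazurS.Index

/-!
# `PEU` for the inertia group of the field of `W[p]`
-/

set_option autoImplicit false

namespace Fermat.Agent.MazurS

open WeierstrassCurve WeierstrassCurve.Affine Fermat.Agent.MazurP Fermat.Agent.Peu
open Fermat.Agent.ECRep Fermat.Agent.EC
open scoped WeierstrassCurve.Affine

local notation "Qb" => AlgebraicClosure ℚ
local notation "Γℚ" => (AlgebraicClosure ℚ ≃ₐ[ℚ] AlgebraicClosure ℚ)

theorem peu_inertiaU {p : ℕ} [hpF : Fact p.Prime] {W : WeierstrassCurve ℤ}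
    {A : ValuationSubring Qb} (hp3 : 3 ≤ p) (hΔ : W.Δ ≠ 0) (hpΔ : (p : ℤ) ∣ W.Δ)
    (hc : ¬ (p : ℤ) ∣ W.c₄) (hv : p ∣ padicValInt p W.Δ) (hA : A.LiesOverPrime p)
    {t : A} (ht0 : t ≠ 0) (htp : AU A ((t : Qb) ^ (p - 1) / (p : Qb))) :
    PEU A p (inertiaU W p A) t := by
  obtain ⟨hfin, hidx⟩ := index_inertiaU W hΔ hpΔ hc hA
  refine peu_of_mult hp3 hΔ hpΔ hc hv hA (fun σ => ?_) hfin hidx ht0 htp
  rw [mem_inertiaU]
  refine and_congr_right fun _ => ?_
  constructor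
  · intro h Q hQ
    have hQ' : Q ∈ Submodule.torsionBy ℤ ((toRat W)⁄Qb).Point (p : ℤ) := by
      rw [Submodule.mem_torsionBy_iff, natCast_zsmul]
      exact hQ
    exact congrArg Subtype.val (h ⟨Q, hQ'⟩)
  · intro h v
    apply Subtype.ext
    refine h v.1 ?_
    have := (Submodule.mem_torsionBy_iff _ _).1 v.2
    rwa [natCast_zsmul] at this

end Fermat.Agent.MazurS
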