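import Fermat.Agent.MazurQ.RedTor
import Fermat.Agent.JZ.OpenStab
import Fermat.Agent.Zeta.Fixed
import Fermat.Agent.Spc.Divis
import Fermat.Agent.QComp.OpsJ

/-!
# Endomorphisms killing the torsion of `J₀(N)` kill the reduction of `J₀(N)`
-/

set_option autoImplicit false
set_option linter.unusedSectionVars false
set_option linter.style.haveILetI false

noncomputable section

open AlgebraicCurve IntermediateField Module ModularCurve

namespace Fermat.Agent.MazurS

open Fermat.Agent.FF Fermat.Agent.Red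

local notation "Qb" => AlgebraicClosure ℚ
local notation "Γℚ" => (AlgebraicClosure ℚ ≃ₐ[ℚ] AlgebraicClosure ℚ)

variable {N : ℕ} [NeZero N] {ℓ : ℕ} [hℓ : Fact ℓ.Prime]
  {A : ValuationSubring (AlgebraicClosure ℚ)} {k : Type*} [Field k] {π : A →+* k}
  (hA : A.LiesOverPrime ℓ)
  (hπ : ∀ a : A, π a = 0 ↔ ¬ IsUnit a) (hs : Function.Surjective π) (hN : ¬ ℓ ∣ N)

/-- **(R1)** the reduction map is surjective -/
theorem redJ_surjective : Function.Surjective (redJ hA hπ hs hN) := by
  haveI hch := charP_of_liesOverPrime (k := k) hA hπ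
  haveI : IsAlgClosed k := isAlgClosed_of_surjective hs
  haveI := isFnField_bar N
  haveI := isFnField_fullC (k := k) N ℓ hN
  intro c
  obtain ⟨E, rfl⟩ := Pic0.mk_surjective c
  choose s hss using (specX hA hπ hs hN).surj
  set D : Divisor Qb (modularFunctionFieldBar N) := Finsupp.mapDomain s
    (E : Divisor k (modularFunctionFieldFullC k N)) with hD
  have h1 : Finsupp.mapDomain (specX hA hπ hs hN).r D = E := by
    rw [hD, ← Finsupp.mapDomain_comp]
    have : (specX hA hπ hs hN).r ∘ s = id := funext hss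
    rw [this, Finsupp.mapDomain_id]
  have h2 : Divisor.degree D = 0 := by
    rw [← ESh.degree_mapDomain (specX hA hπ hs hN), h1]
    exact Divisor.mem_degZero.1 E.2
  refine ⟨Pic0.mk ⟨D, Divisor.mem_degZero.2 h2⟩, ?_⟩
  rw [redJ_mk]
  congr 1
  apply Subtype.ext
  rw [coe_degZeroHom]
  exact h1

/-- every class is fixed by a positive power of a given automorphism -/
theorem exists_pow_smul_eq (φ : Γℚ) (Y : JZero N) : ∃ m : ℕ, m ≠ 0 ∧ φ ^ m • Y = Y := by
  haveI := isFnField_bar N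
  haveI : HasPrincipalDivisors Qb (modularFunctionFieldBar N) := RR.hasPrincipalDivisors _ _
  obtain ⟨E, hE, h⟩ := JZ.exists_level_pic0_of_hasPrincipalDivisors
    (F₀ := modularFunctionFieldFull N) Y
  haveI := hE
  -- finitely many embeddings of `E`
  let res : Γℚ → (E →ₐ[ℚ] Qb) := fun σ => (σ : Qb →ₐ[ℚ] Qb).comp E.val
  obtain ⟨a, b, hab, hres⟩ := Finite.exists_ne_map_eq_of_infinite (fun n : ℕ => res (φ ^ n))
  wlog hlt : a < b generalizing a b
  · exact this b a hab.symm hres.symm (lt_of_le_of_ne (not_lt.1 hlt) hab.symm)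
  refine ⟨b - a, by omega, h _ fun y hy => ?_⟩
  have h1 : (φ ^ a) y = (φ ^ b) y := DFunLike.congr_fun hres (⟨y, hy⟩ : E)
  have h2 : φ ^ b = φ ^ a * φ ^ (b - a) := by rw [← pow_add]; congr 1; omega
  rw [h2, AlgEquiv.mul_apply] at h1
  exact ((φ ^ a).injective h1).symm

/-- iterating the compatibility with Frobenius -/
theorem redJ_frob_pow_smul [CharP k ℓ] [PerfectRing k ℓ] {φ : Γℚ} (hφ : A.IsFrobeniusAt φ ℓ)
    (n : ℕ) (x : JZero N) : redJ hA hπ hs hN (φ ^ n • x) =
      (ESh.coeffSemi N (frobeniusEquiv k ℓ)) ^ n • redJ hA hπ hs hN x := by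
  induction n with
  | zero => rw [pow_zero, pow_zero, one_smul]; exact (one_smul _ _).symm
  | succ n ih =>
    rw [pow_succ', mul_smul, redJ_frob_smul hA hπ hs hN hφ, ih, pow_succ']
    exact (mul_smul _ _ _).symm

/-- **(R2)** endomorphisms killing the torsion map everything to the kernel of the reduction -/
theorem redJ_kill (θ : JZero N →+ JZero N) (hθ : ∀ (σ : Γℚ) (x : JZero N), θ (σ • x) = σ • θ x)
    (hk : ∀ (x : JZero N) (n : ℕ), n ≠ 0 → n • x = 0 → θ x = 0) (Y : JZero N) :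
    redJ hA hπ hs hN (θ Y) = 0 := by
  haveI hch := charP_of_liesOverPrime (k := k) hA hπ
  haveI : IsAlgClosed k := isAlgClosed_of_surjective hs
  haveI : PerfectRing k ℓ := PerfectField.toPerfectRing ℓ
  haveI := isFnField_bar N
  haveI := isFnField_fullC (k := k) N ℓ hN
  haveI := RRC.ff_of_isFnField k (modularFunctionFieldFullC k N)
  have hkk := mem_perSub_of_residue (ℓ := ℓ) hA hπ hs
  obtain ⟨φ, hφ⟩ := Frob.exists_isFrobeniusAt A hℓ.out hA
  obtain ⟨m, hm, hmY⟩ := exists_pow_smul_eq φ Y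
  have hfr := (frob_coeffSemi (M := N) hkk).pow hm
  have hP0 : (ESh.coeffSemi N (frobeniusEquiv k ℓ)) ^ m •
      Cusp.placeInf _ (exists_order_neg_one_full k N) =
        Cusp.placeInf _ (exists_order_neg_one_full k N) :=
    Zeta.pow_smul_eq_of_dvd (by
      rw [pow_one]; exact coeffSemi_smul_placeInf (M := N) (frobeniusEquiv k ℓ)) (one_dvd m)
  haveI hfin := Zeta.finite_fixedPic hfr hP0
  set G := Zeta.fixedPic ((ESh.coeffSemi N (frobeniusEquiv k ℓ)) ^ m) with hG
  have hn : Nat.card G ≠ 0 := Nat.card_pos.ne'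
  obtain ⟨y, hy⟩ := Spc.divisible Qb (modularFunctionFieldBar N) hn Y
  have hy' : Nat.card G • (y : JZero N) = Y := hy
  have h1 : θ (φ ^ m • y - y) = 0 := by
    refine hk _ _ hn ?_
    have e : Nat.card G • (φ ^ m • y) = φ ^ m • (Nat.card G • (y : JZero N)) :=
      (map_nsmul (DistribSMul.toAddMonoidHom (JZero N) (φ ^ m)) _ _).symm
    rw [nsmul_sub, e, hy', hmY, sub_self]
  rw [map_sub, hθ, sub_eq_zero] at h1
  have h2 : redJ hA hπ hs hN (θ y) ∈ G := by
    rw [hG, Zeta.mem_fixedPic]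
    have h3 := redJ_frob_pow_smul hA hπ hs hN hφ m (θ y)
    rw [h1] at h3
    exact h3.symm
  have h3 : Nat.card G • (⟨_, h2⟩ : G) = 0 := card_nsmul_eq_zero'
  rw [← hy', map_nsmul, map_nsmul]
  exact congrArg Subtype.val h3

/-- **(R3)** abstract form -/
theorem kill_C (θ : JZero N →+ JZero N) (hθ : ∀ (σ : Γℚ) (x : JZero N), θ (σ • x) = σ • θ x)
    (hk : ∀ (x : JZero N) (n : ℕ), n ≠ 0 → n • x = 0 → θ x = 0) (θ' : JZeroC k N →+ JZeroC k N)
    (hc : ∀ x, redJ hA hπ hs hN (θ x) = θ' (redJ hA hπ hs hN x)) (y : JZeroC k N) : θ' y = 0 := by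
  obtain ⟨x, rfl⟩ := redJ_surjective hA hπ hs hN y
  rw [← hc, redJ_kill hA hπ hs hN θ hθ hk]

end Fermat.Agent.MazurS
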