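import Fermat.Agent.MazurS.Slope0
import Fermat.Agent.MazurS.RedKill
import Fermat.Agent.MazurQ.SysForm

set_option autoImplicit false
set_option linter.unusedSectionVars false
set_option linter.style.haveILetI false
set_option linter.unusedVariables false

/-!
# Toric classes from vanishing slopes
-/

noncomputable section

open AlgebraicCurve IntermediateField Module ModularCurve

namespace Fermat.Agent.MazurS

open Fermat.Agent.FF Fermat.Agent.Red Fermat.Agent.QVal Fermat.Agent.QComp Fermat.Agent.JZ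
  Fermat.Agent.MazurP Fermat.Agent.MazurQ Fermat.Agent.Node Fermat.Agent.ESh

local notation "Qb" => AlgebraicClosure ℚ
local notation "Γℚ" => (AlgebraicClosure ℚ ≃ₐ[ℚ] AlgebraicClosure ℚ)

theorem cls_zsmul {K F : Type*} [Field K] [Field F] [Algebra K F] {n : ℕ} {c : Pic0 K F} {y : F}
    (h : Cls n c y) (a : ℤ) : Cls n (a • c) (y ^ a) := by
  cases a with
  | ofNat m => rw [Int.ofNat_eq_natCast, natCast_zsmul, zpow_natCast]; exact h.nsmul m
  | negSucc m =>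
    rw [negSucc_zsmul, zpow_negSucc]
    exact (h.nsmul (m + 1)).inv

theorem evJ_gal {B N : ℕ} [NeZero N] (P : GPoly B) (σ : Γℚ) :
    ∀ x : JZero N, evJ B N P (σ • x) = σ • evJ B N P x := by
  induction P using MvPolynomial.induction_on with
  | C b =>
    intro x
    rw [evJ_C, evJ_C]
    exact (map_zsmul (DistribSMul.toAddMonoidHom (JZero N) σ) b x).symm
  | add p p' hp hp' =>
    intro x
    rw [map_add, LinearMap.add_apply, LinearMap.add_apply, hp, hp', smul_add]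
  | mul_X p l hp =>
    intro x
    rw [map_mul, Module.End.mul_apply, Module.End.mul_apply, evJ_X, JZ.heckeOperatorBar_smul, hp]

section Level

variable {k : Type*} [Field k] {A : ValuationSubring Qb} {π : A →+* k} {M q : ℕ}
  [NeZero M] [NeZero q] [hqf : Fact q.Prime] {hA : A.LiesOverPrime q}
  {hπ : ∀ a : A, π a = 0 ↔ ¬ IsUnit a}
  {hs : Function.Surjective π} {hM : ¬ q ∣ M}

/-- the reduction of a class with a given system of eigenvalues -/
theorem redJ_evJ {B : ℕ} (a : Nat.Primes → ℤ) (P : GPoly B) (Y : JZero M)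
    (hZ : ∀ (Z : JZero M), (∃ m : ℤ, redJ hA hπ hs hM Z = m • redJ hA hπ hs hM Y) →
        ∀ l : Nat.Primes, ¬ (l : ℕ) ∣ B →
        redJ hA hπ hs hM (heckeOperatorBar M l Z) = a l • redJ hA hπ hs hM Z) :
      redJ hA hπ hs hM (evJ B M P Y) =
        (MvPolynomial.aeval (fun l : {ℓ : Nat.Primes // ¬ (ℓ : ℕ) ∣ B} => a l.1) P : ℤ) •
          redJ hA hπ hs hM Y := by
  have key : ∀ Z : JZero M, (∃ m : ℤ, redJ hA hπ hs hM Z = m • redJ hA hπ hs hM Y) →
      redJ hA hπ hs hM (evJ B M P Z) =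
        (MvPolynomial.aeval (fun l : {ℓ : Nat.Primes // ¬ (ℓ : ℕ) ∣ B} => a l.1) P : ℤ) •
          redJ hA hπ hs hM Z := by
    induction P using MvPolynomial.induction_on with
    | C b =>
      intro Z _
      rw [evJ_C, map_zsmul, MvPolynomial.aeval_C]
      rfl
    | add p p' hp hp' =>
      intro Z hZm
      rw [map_add, LinearMap.add_apply, map_add, hp Z hZm, hp' Z hZm, map_add]
      exact (add_zsmul _ _ _).symm
    | mul_X p l hp =>
      intro Z hZm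
      rw [map_mul, Module.End.mul_apply, evJ_X, map_mul, MvPolynomial.aeval_X, mul_smul]
      have h1 := hZ Z hZm l.1 l.2
      rw [hp _ ?_, h1]
      obtain ⟨m, hm⟩ := hZm
      exact ⟨a l.1 * m, by rw [h1, hm, mul_smul]⟩
  exact key Y ⟨1, (one_smul _ _).symm⟩

/-- vanishing of the class of the reduction -/
theorem cls_eq_zero (hA : A.LiesOverPrime q) (hπ : ∀ a : A, π a = 0 ↔ ¬ IsUnit a)
    (hs : Function.Surjective π) (hM : ¬ q ∣ M)
    {B : ℕ} (hMB : M ∣ B) (hqB : q ∣ B) (a : Nat.Primes → ℤ) {P : GPoly B}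
    (hP : evS B M P = 0)
    (hPa : ¬ (q : ℤ) ∣ (MvPolynomial.aeval
      (fun l : {ℓ : Nat.Primes // ¬ (ℓ : ℕ) ∣ B} => a l.1) P : ℤ))
    {r : JZeroC k M} (hqr : q • r = 0)
    (hr : ∀ (l : Nat.Primes) (hl : ¬ (l : ℕ) ∣ B) (Z : JZero M), redJ hA hπ hs hM Z = r →
      redJ hA hπ hs hM (heckeOperatorBar M l Z) = a l • r) : r = 0 := by
  obtain ⟨Y, rfl⟩ := redJ_surjective hA hπ hs hM r
  have h1 := redJ_kill hA hπ hs hM (evJ B M P).toAddMonoidHom (fun σ x => evJ_gal P σ x)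
    (fun x n hn hx => evJ_eq_zero hMB (by
      apply Subtype.ext
      exact hP) hn hx) Y
  have hall : ∀ (Z : JZero M), (∃ m : ℤ, redJ hA hπ hs hM Z = m • redJ hA hπ hs hM Y) →
        ∀ l : Nat.Primes, ¬ (l : ℕ) ∣ B →
        redJ hA hπ hs hM (heckeOperatorBar M l Z) = a l • redJ hA hπ hs hM Z := by
    intro Z hZ l hl
    haveI : NeZero (l : ℕ) := ⟨l.2.ne_zero⟩
    haveI : Fact (l : ℕ).Prime := ⟨l.2⟩
    obtain ⟨m, hm⟩ := hZ
    have h2 := hr l hl Y rfl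
    have h3 : redJ hA hπ hs hM (Z - m • Y) = 0 := by
      rw [map_sub, map_zsmul, hm, sub_self]
    have hMl : ¬ q ∣ M * l := by
      intro hd
      rcases hqf.out.dvd_mul.1 hd with h2 | h2
      · exact hM h2
      · rw [Nat.prime_dvd_prime_iff_eq hqf.out l.2] at h2
        exact hl (h2 ▸ hqB)
    have h4 := redJ_hecke_eq_zero hA hπ hs hM (l : ℕ) hMl (Z - m • Y) h3
    have h5 : redJ hA hπ hs hM (heckeOperatorBar M l (Z - m • Y)) = 0 := h4
    rw [map_sub, map_zsmul, map_sub, map_zsmul, sub_eq_zero, h2] at h5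
    rw [h5, hm, smul_comm]
  have h2 := redJ_evJ a P Y hall
  have h3 : (MvPolynomial.aeval (fun l : {ℓ : Nat.Primes // ¬ (ℓ : ℕ) ∣ B} => a l.1) P : ℤ) •
      redJ hA hπ hs hM Y = 0 := by
    rw [← h2]; exact h1
  have h4 : IsCoprime (MvPolynomial.aeval
      (fun l : {ℓ : Nat.Primes // ¬ (ℓ : ℕ) ∣ B} => a l.1) P : ℤ) (q : ℤ) :=
    ((Prime.coprime_iff_not_dvd (Nat.prime_iff_prime_int.1 hqf.out)).2 hPa).symm
  generalize (MvPolynomial.aeval
      (fun l : {ℓ : Nat.Primes // ¬ (ℓ : ℕ) ∣ B} => a l.1) P : ℤ) = m at h3 h4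
  obtain ⟨u, v, huv⟩ := h4
  have h5 : (1 : ℤ) • redJ hA hπ hs hM Y = 0 := by
    rw [← huv, add_zsmul, mul_zsmul, mul_zsmul, h3, smul_zero, natCast_zsmul, hqr, smul_zero,
      add_zero]
  rwa [one_smul] at h5

/-- a function whose orders are divisible by `q`, with the Hecke system, is a `q`-th power -/
theorem exists_root (hA : A.LiesOverPrime q) (hπ : ∀ a : A, π a = 0 ↔ ¬ IsUnit a)
    (hs : Function.Surjective π) (hM : ¬ q ∣ M)
    {B : ℕ} (hMB : M ∣ B) (hqB : q ∣ B) (a : Nat.Primes → ℤ) {P : GPoly B}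
    (hP : evS B M P = 0)
    (hPa : ¬ (q : ℤ) ∣ (MvPolynomial.aeval
      (fun l : {ℓ : Nat.Primes // ¬ (ℓ : ℕ) ∣ B} => a l.1) P : ℤ))
    {b : modularFunctionFieldFullC k M} (hb : b ≠ 0)
    (hdvd : ∀ Q : Place k (modularFunctionFieldFullC k M), (q : ℤ) ∣ Q.ord b)
    (hT : ∀ (l : ℕ) [NeZero l] (hl : l.Prime), ¬ l ∣ B →
      ∃ e, e ≠ 0 ∧ b ^ (a ⟨l, hl⟩) = TlC k M l b * e ^ q) :
    ∃ z, z ^ q = b := by
  haveI := charP_of_liesOverPrime (k := k) hA hπ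
  haveI : IsAlgClosed k := isAlgClosed_of_surjective hs
  haveI := isFnField_bar M
  haveI := isFnField_fullC (k := k) M q hM
  obtain ⟨r, hr⟩ := exists_cls_of_dvd (K := k) hqf.out.ne_zero hb hdvd
  have hr0 : r = 0 := by
    refine cls_eq_zero hA hπ hs hM hMB hqB a hP hPa hr.nsmul_eq_zero fun l hl Z hZ => ?_
    haveI : NeZero (l : ℕ) := ⟨l.2.ne_zero⟩
    haveI : Fact (l : ℕ).Prime := ⟨l.2⟩
    have hMl : ¬ q ∣ M * l := by
      intro hd
      rcases hqf.out.dvd_mul.1 hd with h2 | h2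
      · exact hM h2
      · rw [Nat.prime_dvd_prime_iff_eq hqf.out l.2] at h2
        exact hl (h2 ▸ hqB)
    haveI := isFnField_fullC (k := k) (M * l) q hMl
    haveI : HasPrincipalDivisors k (modularFunctionFieldFullC k (M * l)) :=
      RR.hasPrincipalDivisors k _
    rw [heckeOperatorBar_apply, redJ_hecke hA hπ hs hM (l : ℕ) hMl, hZ]
    obtain ⟨e, he, hbe⟩ := hT l l.2 hl
    have h1 : Cls q (heckeC k M l hMl r) (TlC k M l b) := hr.correspondence _ _ _ _ _ _ _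
    have h2 := h1.mul_pow he
    rw [← hbe] at h2
    exact (h2.unique_cls hqf.out.ne_zero (cls_zsmul hr (a l)))
  subst hr0
  obtain ⟨e, he, h⟩ := hr.exists_pow hqf.out.ne_zero
  exact ⟨e, h.symm⟩

/-- **Toric classes.** -/
theorem toric_of_sys (hA : A.LiesOverPrime q) (hπ : ∀ a : A, π a = 0 ↔ ¬ IsUnit a)
    (hs : Function.Surjective π) (hM : ¬ q ∣ M) (hq5 : 5 ≤ q) {U : Subgroup Γℚ}
    (hUI : U ≤ A.inertiaSubgroupIn ℚ)
    (hfin : (U.subgroupOf (A.inertiaSubgroupIn ℚ)).FiniteIndex)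
    (hidx : (U.subgroupOf (A.inertiaSubgroupIn ℚ)).index ≤ q * (q - 1))
    (hPEU : ∀ t : A, t ≠ 0 → MazurP.AU A ((t : Qb) ^ (q - 1) / q) → MazurP.PEU A q U t)
    {x : JZero (M * q)} (hx : q • x = 0) (hxU : ∀ σ ∈ U, σ • x = x)
    (hα : trA M q x = 0) (hβ : trB M q x = 0) {B : ℕ} (hB : M * q ∣ B) (a : Nat.Primes → ℤ)
    (hT : ∀ l : Nat.Primes, ¬ (l : ℕ) ∣ B → heckeOperatorBar (M * q) l x = a l • x)
    {l₀ : Nat.Primes} (hl₀ : ¬ (l₀ : ℕ) ∣ B) (hl₀a : ¬ (q : ℤ) ∣ a l₀ - (l₀ + 1))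
    {P : MazurQ.GPoly B} (hP : MazurQ.evS B M P = 0)
    (hPa : ¬ (q : ℤ) ∣ (MvPolynomial.aeval
      (fun l : {ℓ : Nat.Primes // ¬ (ℓ : ℕ) ∣ B} => a l.1) P : ℤ)) :
    IsToric hA hπ hs hM q x := by
  haveI := charP_of_liesOverPrime (k := k) hA hπ
  haveI : IsAlgClosed k := isAlgClosed_of_surjective hs
  haveI : PerfectRing k q := PerfectField.toPerfectRing q
  have hMB : M ∣ B := (dvd_mul_right M q).trans hB
  have hqB : q ∣ B := (dvd_mul_left q M).trans hB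
  -- the rigid level
  obtain ⟨r, hrgt, hr, hr12⟩ : ∃ r : ℕ, q < r ∧ r.Prime ∧ r % 12 = 11 := by
    obtain ⟨r, hr1, hr2, hr3⟩ := Nat.forall_exists_prime_gt_and_eq_mod
      (q := 12) (a := (11 : ZMod 12)) (by decide) q
    refine ⟨r, hr1, hr2, ?_⟩
    have h4 : ((r : ℕ) : ZMod 12) = ((11 : ℕ) : ZMod 12) := by rw [hr3]; rfl
    rw [ZMod.natCast_eq_natCast_iff'] at h4
    simpa using h4
  haveI : NeZero r := ⟨hr.ne_zero⟩
  haveI : NeZero (M * r) := ⟨mul_ne_zero (NeZero.ne M) hr.ne_zero⟩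
  have hMr : ¬ q ∣ M * r := by
    intro hd
    rcases hqf.out.dvd_mul.1 hd with h1 | h1
    · exact hM h1
    · rw [Nat.prime_dvd_prime_iff_eq hqf.out hr] at h1
      omega
  haveI := isFnField_fullC (k := k) (M * r) q hMr
  haveI := (isCoord' hA hπ hs hMr).finiteDimensionalk
  haveI := RedQ.isSeparable_charP (M * r) k q hMr
  obtain ⟨t, ht0, hπt, htq, htd, htu⟩ := MazurP.exists_t hA hπ
  obtain ⟨b₁, b₂, hred, hadd, hc⟩ := slopes_const (M₀ := M) (M := M * r) (hA := hA) (hπ := hπ)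
    (hs := hs) (hM₀ := hM) (hM := hMr) (dvd_mul_right M r) ⟨r, hr, dvd_mul_left r M, hr12⟩ ht0 hπt
    htq htd htu hUI hfin hidx (hPEU t ht0 htu) hx hxU hα hβ
  haveI : NeZero (l₀ : ℕ) := ⟨l₀.2.ne_zero⟩
  haveI : Fact (l₀ : ℕ).Prime := ⟨l₀.2⟩
  have hdvd := dvd_ord_hasRed (hM := hMr) hq5 ⟨r, hr, dvd_mul_left r M, hr12⟩ (dvd_mul_right M r)
    hred hadd hc (ℓ := (l₀ : ℕ)) (fun h => hl₀ (h.trans hB)) hl₀a (hT l₀ hl₀)
  have hTl : ∀ (l : ℕ) [NeZero l] (hl : l.Prime), ¬ l ∣ B →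
      (∃ e, e ≠ 0 ∧ b₁ ^ (a ⟨l, hl⟩) = TlC k M l b₁ * e ^ q) ∧
      ∃ e, e ≠ 0 ∧ b₂ ^ (a ⟨l, hl⟩) = TlC k M l b₂ * e ^ q := by
    intro l _ hl hlB
    haveI : Fact l.Prime := ⟨hl⟩
    have hMl : ¬ q ∣ M * l := by
      intro hd
      rcases hqf.out.dvd_mul.1 hd with h2 | h2
      · exact hM h2
      · rw [Nat.prime_dvd_prime_iff_eq hqf.out hl] at h2
        exact hlB (h2 ▸ hqB)
    have h1 := hred.hecke hMl
    have h2 : heckeOperatorAlong Qb (M * q) l x = a ⟨l, hl⟩ • x := hT ⟨l, hl⟩ hlB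
    rw [h2] at h1
    exact h1.unique hqf.out.ne_zero (HasRed.zsmul hred (a ⟨l, hl⟩))
  obtain ⟨z₁, hz₁⟩ := exists_root hA hπ hs hM hMB hqB a hP hPa hred.ne1
    (fun Q => (hdvd Q).1) (fun l _ hl hlB => (hTl l hl hlB).1)
  obtain ⟨z₂, hz₂⟩ := exists_root hA hπ hs hM hMB hqB a hP hPa hred.ne2
    (fun Q => (hdvd Q).2) (fun l _ hl hlB => (hTl l hl hlB).2)
  exact hred.isToric hz₁ hz₂

end Level

end Fermat.Agent.MazurS
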