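import Mathlib
import Fermat.Agent.QComp.OpsJ
import Fermat.Agent.Mazur.HeckePoly
import Fermat.Agent.Eigenform.Lifting
import Fermat.Agent.IntStr.Main
import Fermat.Agent.RepTwo.JZeroES

/-!
# Systems of eigenvalues: Hecke polynomials, eigenforms and torsion points
-/

set_option autoImplicit false
set_option linter.unusedSectionVars false
set_option linter.style.haveILetI false

namespace Fermat.Agent.MazurS

open CongruenceSubgroup ModularCurve ModularCurve.Period Module TensorProduct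
open Fermat.Agent.Period Fermat.Agent.Top CuspForm ModularFormClass
open Fermat.Agent.RepTwo Fermat.Agent.QComp

local notation "conjA" => ((starRingEnd ℂ : ℂ →+* ℂ) : ℂ →+ ℂ)

/-- a Hecke polynomial killing the cusp forms kills the parabolic cohomology -/
theorem evalPar_eq_zero {M : ℕ} [NeZero M] {t : HeckeAlg}
    (h : CuspForm.heckeEvalForms M 2 t = 0) : evalPar M ℤ t = 0 := by
  refine LinearMap.ext fun φ => Subtype.ext ?_
  rw [coe_evalPar]
  have hpar : IsParabolicHom (Gamma0 M) ((Int.castAddHom ℂ).comp φ.1) := by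
    intro γ hγ
    change (((φ.1 (Additive.ofMul γ) : ℤ)) : ℂ) = 0
    rw [φ.2 γ hγ, Int.cast_zero]
  obtain ⟨F, G, hFG⟩ := exists_period_conj_period hpar
  have h1 : ∀ F : CuspForm (Gamma0 M) 2, evalHom M ℂ t (periodLin M F) = 0 := by
    intro F
    rw [← periodLin_heckeEvalForms, h]
    exact map_zero (periodLin M)
  have h2 : (Int.castAddHom ℂ).comp (evalHom M ℤ t φ.1) = 0 := by
    rw [← evalHom_comp_left, hFG, map_add, h1, zero_add, evalHom_comp_left, h1,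
      AddMonoidHom.comp_zero]
  refine AddMonoidHom.ext fun γ => ?_
  have h3 := DFunLike.congr_fun h2 γ
  change ((evalHom M ℤ t φ.1 γ : ℤ) : ℂ) = 0 at h3
  exact_mod_cast h3

/-- a Hecke polynomial killing the parabolic cohomology kills the torsion of `J₀(M)`; the
polynomial may be in the operators `T_ℓ`, `ℓ ∤ M'`, for a multiple `M'` of `M` -/
theorem ev_eq_zero_of_torsion {M M' : ℕ} [NeZero M] {S : Set ℕ}
    (hgood : ∀ i : GoodPrime M' S, ¬ (i : ℕ) ∣ M) {t : HeckePoly M' S}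
    (h : evalPar M ℤ (polyIncl M' S t) = 0) {x : JZero M} {n : ℕ} (hn : n ≠ 0)
    (hx : n • x = 0) : (opsJ M M' S).ev t x = 0 := by
  obtain ⟨c, hc, H⟩ := exists_bound_of_evalPar M
  have : FF.IsFnField (AlgebraicClosure ℚ) (JZ.FN (AlgebraicClosure ℚ) M) :=
    JZ.modularFieldInputsBar.fnField M
  obtain ⟨y, hy⟩ := Spc.divisible (AlgebraicClosure ℚ) (JZ.FN (AlgebraicClosure ℚ) M) hc x
  have hy2 : c • y = x := hy
  have hy' : (n * c) • y = 0 := by
    rw [mul_smul, hy2, hx]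
  have h1 := H M' S hgood t h (n * c) (mul_ne_zero hn hc) y hy'
  rw [← map_nsmul, hy2] at h1
  exact h1

theorem jOps_ev_eq_zero_of_torsion {M : ℕ} [NeZero M] {S : Set ℕ} {t : HeckePoly M S}
    (h : evalPar M ℤ (polyIncl M S t) = 0) {x : JZero M} {n : ℕ} (hn : n ≠ 0)
    (hx : n • x = 0) : (jOps (heckeOperatorsCommuteBar M) S).ev t x = 0 :=
  ev_eq_zero_of_torsion (M' := M) (fun i => i.2.2.1) h hn hx

/-- Either the system `b mod p` comes from an eigenform of level `M`, or it is separated from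
level `M` by a Hecke polynomial. -/
theorem exists_eigenform_or_killing {M M' : ℕ} [NeZero M] (hM : M ∣ M') (S : Set ℕ)
    (p : ℕ) [Fact p.Prime] (b : ℕ → ℤ) :
    (∃ (f : CuspForm (Gamma0 M) 2) (𝔪 : Ideal (integralClosure ℤ ℂ)),
      f.IsNormalizedEigenform ∧ 𝔪.IsMaximal ∧ ((p : ℕ) : integralClosure ℤ ℂ) ∈ 𝔪 ∧
      ∀ ℓ : ℕ, ℓ.Prime → ¬ ℓ ∣ M' → ℓ ∉ S → ∃ a : integralClosure ℤ ℂ,
        (a : ℂ) = qCoeff f ℓ ∧ a - ((b ℓ : ℤ) : integralClosure ℤ ℂ) ∈ 𝔪) ∨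
    ∃ t : HeckePoly M' S, evalPar M ℤ (polyIncl M' S t) = 0 ∧
      ¬ (p : ℤ) ∣ MvPolynomial.aeval (fun i : GoodPrime M' S => b i) t := by
  classical
  let β₀ : HeckePoly M' S →+* ℤ :=
    (MvPolynomial.aeval (fun i : GoodPrime M' S => b i) : HeckePoly M' S →ₐ[ℤ] ℤ).toRingHom
  let β : HeckePoly M' S →+* ZMod p := (Int.castRingHom (ZMod p)).comp β₀
  let θ : HeckePoly M' S →+* CuspForm.heckeAlgebra M 2 ∅ :=
    (CuspForm.heckeEvalForms M 2).comp (polyIncl M' S).toRingHom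
  have hβ : ∀ t, β t = 0 ↔ (p : ℤ) ∣ MvPolynomial.aeval (fun i : GoodPrime M' S => b i) t :=
    fun t => ZMod.intCast_zmod_eq_zero_iff_dvd (β₀ t) p
  by_cases hker : RingHom.ker θ ≤ RingHom.ker β
  · left
    have hint := IntStr.hasIntegralStructure M 2
    have hβs : Function.Surjective β := by
      intro z
      obtain ⟨n, rfl⟩ := ZMod.natCast_zmod_surjective z
      exact ⟨n, map_natCast β n⟩
    have hmax : (RingHom.ker β).IsMaximal := RingHom.ker_isMaximal_of_surjective β hβs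
    have hfin := Eigenform.moduleFinite_heckeAlgebra M ∅ hint
    have hintZ : Algebra.IsIntegral ℤ (CuspForm.heckeAlgebra M 2 (∅ : Set ℕ)) :=
      Algebra.IsIntegral.of_finite _ _
    letI : Algebra (HeckePoly M' S) (CuspForm.heckeAlgebra M 2 (∅ : Set ℕ)) := θ.toAlgebra
    have hintP : Algebra.IsIntegral (HeckePoly M' S) (CuspForm.heckeAlgebra M 2 (∅ : Set ℕ)) := by
      refine ⟨fun x => ?_⟩
      obtain ⟨q, hq, hqx⟩ := hintZ.isIntegral x
      refine ⟨q.map (algebraMap ℤ (HeckePoly M' S)), hq.map _, ?_⟩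
      rw [Polynomial.eval₂_map]
      have e : (algebraMap (HeckePoly M' S) (CuspForm.heckeAlgebra M 2 (∅ : Set ℕ))).comp
          (algebraMap ℤ (HeckePoly M' S)) =
          algebraMap ℤ (CuspForm.heckeAlgebra M 2 (∅ : Set ℕ)) := RingHom.ext_int _ _
      rw [e]
      exact hqx
    obtain ⟨Q, hQ, hQc⟩ := Ideal.exists_ideal_over_maximal_of_isIntegral
      (S := CuspForm.heckeAlgebra M 2 (∅ : Set ℕ)) (RingHom.ker β) hker
    obtain ⟨f, χ, 𝔪, hf, -, hT, -, h𝔪, hc⟩ := Eigenform.exists_eigenform_of_isMaximal hint Q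
    have hmem : ∀ t : HeckePoly M' S, β t = 0 → χ (θ t) ∈ 𝔪 := by
      intro t ht
      have h1 : t ∈ Q.comap (algebraMap (HeckePoly M' S)
          (CuspForm.heckeAlgebra M 2 (∅ : Set ℕ))) := by
        rw [hQc]; exact ht
      have h2 : θ t ∈ 𝔪.comap χ := by rw [hc]; exact h1
      exact h2
    refine ⟨f, 𝔪, hf, h𝔪, ?_, fun ℓ hℓ hℓM hℓS => ?_⟩
    · have h1 := hmem ((p : ℕ) : HeckePoly M' S) (by rw [map_natCast, ZMod.natCast_self])
      rwa [map_natCast, map_natCast] at h1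
    · have hℓM' : ¬ ℓ ∣ M := fun h => hℓM (h.trans hM)
      refine ⟨χ (heckeAlgebra.T hℓ hℓM' (Set.notMem_empty _)), hT ℓ hℓ hℓM', ?_⟩
      have h1 := hmem (MvPolynomial.X ⟨ℓ, hℓ, hℓM, hℓS⟩ - ((b ℓ : ℤ) : HeckePoly M' S)) (by
        rw [map_sub, map_intCast]
        have : β (MvPolynomial.X ⟨ℓ, hℓ, hℓM, hℓS⟩) = ((b ℓ : ℤ) : ZMod p) := by
          change ((MvPolynomial.aeval (fun i : GoodPrime M' S => b i)
            (MvPolynomial.X (⟨ℓ, hℓ, hℓM, hℓS⟩ : GoodPrime M' S)) : ℤ) : ZMod p) = _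
          rw [MvPolynomial.aeval_X]
        rw [this, sub_self])
      rw [map_sub, map_sub, map_intCast, map_intCast] at h1
      have h2 : θ (MvPolynomial.X ⟨ℓ, hℓ, hℓM, hℓS⟩) =
          heckeAlgebra.T hℓ hℓM' (Set.notMem_empty _) := by
        change CuspForm.heckeEvalForms M 2 (polyIncl M' S (MvPolynomial.X _)) = _
        rw [polyIncl_X]
        exact CuspForm.heckeEvalForms_heckeGen_of_not_dvd (ℓ := ⟨ℓ, hℓ⟩) hℓM'
      rwa [h2] at h1
  · right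
    rw [SetLike.not_le_iff_exists] at hker
    obtain ⟨t, ht, ht'⟩ := hker
    exact ⟨t, evalPar_eq_zero (RingHom.mem_ker.1 ht), fun h => ht' ((hβ t).2 h)⟩

theorem exists_coord {k K V : Type*} [Field k] [Field K] [Algebra k K] [AddCommGroup V]
    [Module k V] (x : K ⊗[k] V) (hx : x ≠ 0) :
    ∃ g : K ⊗[k] V →ₗ[k] V, g x ≠ 0 ∧ ∀ (T : Module.End k V) (z : K ⊗[k] V),
      g (T.baseChange K z) = T (g z) := by
  classical
  let ℬ := Module.Basis.ofVectorSpace k K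
  obtain ⟨c, rfl⟩ := TensorProduct.eq_repr_basis_left ℬ x
  have hc0 : c ≠ 0 := by
    rintro rfl
    exact hx (by simp)
  obtain ⟨i, hi⟩ := Finsupp.ne_iff.1 hc0
  refine ⟨(TensorProduct.lid k V).toLinearMap ∘ₗ (ℬ.coord i).rTensor V, ?_, fun T z => ?_⟩
  · have h1 : ((TensorProduct.lid k V).toLinearMap ∘ₗ (ℬ.coord i).rTensor V)
        (c.sum fun i n => ℬ i ⊗ₜ[k] n) = c i := by
      rw [Finsupp.sum, map_sum]
      simp only [LinearMap.comp_apply, LinearMap.rTensor_tmul, LinearEquiv.coe_coe,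
        TensorProduct.lid_tmul, Basis.coord_apply, Basis.repr_self]
      rw [Finset.sum_eq_single i]
      · simp
      · intro j _ hj
        rw [Finsupp.single_eq_of_ne (Ne.symm hj), zero_smul]
      · intro h
        rw [Finsupp.notMem_support_iff.1 h, smul_zero]
    rw [h1]
    exact hi
  · induction z using TensorProduct.induction_on with
    | zero => simp
    | tmul a v =>
      simp only [LinearMap.comp_apply, LinearMap.baseChange_tmul, LinearMap.rTensor_tmul,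
        LinearEquiv.coe_coe, TensorProduct.lid_tmul, map_smul]
    | add x y hx hy => rw [map_add, map_add, map_add, map_add, hx, hy]

theorem exists_point_aux {N p : ℕ} [NeZero N] [Fact p.Prime] {S : Set ℕ} (hpS : p ∈ S)
    {f : CuspForm (Gamma0 N) 2} (hf : f.IsNormalizedEigenform) (K : Type) [Field K]
    [Algebra (ZMod p) K] (ψ : integralClosure ℤ ℂ →+* K) (b : ℕ → ℤ)
    (hb : ∀ ℓ : ℕ, ℓ.Prime → ¬ ℓ ∣ N → ℓ ∉ S → ∃ a : integralClosure ℤ ℂ,
      (a : ℂ) = qCoeff f ℓ ∧ ψ a = ((b ℓ : ℤ) : K)) :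
    ∃ x : JZero N, x ≠ 0 ∧ p • x = 0 ∧ ∀ (ℓ : ℕ) (hℓ : ℓ.Prime), ¬ ℓ ∣ N → ℓ ∉ S →
      heckeOperatorBar N ⟨ℓ, hℓ⟩ x = b ℓ • x := by
  haveI : NeZero p := ⟨(Fact.out : p.Prime).ne_zero⟩
  haveI := Top.finite_pTor N p
  obtain ⟨ι, hι1, hι2, hι3⟩ := Top.supportMap N p
  obtain ⟨x, hx0, hx⟩ := exists_eigenvector_pTor (J := JZero N) (p := p) (N := N)
    (fun ℓ => (heckeOperatorBar N ℓ).toAddMonoidHom)
    (fun ℓ ℓ' x => DFunLike.congr_fun (heckeOperatorsCommuteBar N ℓ ℓ') x) ι hι1 hι2 hι3 hf K ψ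
  obtain ⟨g, hg0, hg⟩ := exists_coord x hx0
  refine ⟨(g x : pTor (JZero N) p), fun h => hg0 (Subtype.ext h), (g x).2,
    fun ℓ hℓ hℓN hℓS => ?_⟩
  have hℓp : ¬ ℓ ∣ N * p := by
    intro h
    rcases hℓ.dvd_mul.1 h with h | h
    · exact hℓN h
    · exact hℓS (((Nat.prime_dvd_prime_iff_eq hℓ Fact.out).1 h).symm ▸ hpS)
  obtain ⟨a, ha, hab⟩ := hb ℓ hℓ hℓN hℓS
  have h1 := hx ⟨ℓ, hℓ⟩ hℓp a ha
  rw [hab] at h1
  have h4 : (((b ℓ : ℤ) : K) • x) = (b ℓ : ℤ) • x := Int.cast_smul_eq_zsmul K (b ℓ) x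
  have h3 := ((hg _ x).symm.trans (congrArg g (h1.trans h4))).trans (map_zsmul g (b ℓ) x)
  exact congrArg Subtype.val h3

/-- a congruence with a rational system gives a `p`-torsion point of `J₀(N)` with this system -/
theorem exists_point {N p : ℕ} [NeZero N] [Fact p.Prime] {S : Set ℕ} (hpS : p ∈ S)
    {f : CuspForm (Gamma0 N) 2} (hf : f.IsNormalizedEigenform)
    {𝔪 : Ideal (integralClosure ℤ ℂ)} (h𝔪 : 𝔪.IsMaximal)
    (hp𝔪 : ((p : ℕ) : integralClosure ℤ ℂ) ∈ 𝔪) (b : ℕ → ℤ)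
    (hb : ∀ ℓ : ℕ, ℓ.Prime → ¬ ℓ ∣ N → ℓ ∉ S → ∃ a : integralClosure ℤ ℂ,
      (a : ℂ) = qCoeff f ℓ ∧ a - ((b ℓ : ℤ) : integralClosure ℤ ℂ) ∈ 𝔪) :
    ∃ x : JZero N, x ≠ 0 ∧ p • x = 0 ∧ ∀ (ℓ : ℕ) (hℓ : ℓ.Prime), ¬ ℓ ∣ N → ℓ ∉ S →
      heckeOperatorBar N ⟨ℓ, hℓ⟩ x = b ℓ • x := by
  haveI := h𝔪
  letI : Field (integralClosure ℤ ℂ ⧸ 𝔪) := Ideal.Quotient.field 𝔪
  have hchar : ((p : ℕ) : integralClosure ℤ ℂ ⧸ 𝔪) = 0 := by
    rw [← map_natCast (Ideal.Quotient.mk 𝔪)]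
    exact Ideal.Quotient.eq_zero_iff_mem.2 hp𝔪
  haveI : CharP (integralClosure ℤ ℂ ⧸ 𝔪) p :=
    (CharP.charP_iff_prime_eq_zero Fact.out).2 hchar
  letI : Algebra (ZMod p) (integralClosure ℤ ℂ ⧸ 𝔪) := ZMod.algebra _ p
  refine exists_point_aux hpS hf (integralClosure ℤ ℂ ⧸ 𝔪) (Ideal.Quotient.mk 𝔪) b
    fun ℓ hℓ hℓN hℓS => ?_
  obtain ⟨a, ha, hab⟩ := hb ℓ hℓ hℓN hℓS
  refine ⟨a, ha, ?_⟩
  rw [← map_intCast (Ideal.Quotient.mk 𝔪)]
  exact Ideal.Quotient.eq.2 hab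

end Fermat.Agent.MazurS
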