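import Fermat.Agent.LL.FreyRes
import Fermat.Agent.MazurS.System
import Fermat.Agent.ChebFull.Places
import Fermat.Agent.Wiring.Top
import Fermat.Agent.Wire.CongrAll
import Fermat.Agent.KummerSmall.Frey
import Fermat.Agent.S29
import Fermat.Agent.MazurS.CoreDef

set_option autoImplicit false

/-!
# `S44`: unpacking of the statement, hypotheses on the Frey curve
-/

open Polynomial WeierstrassCurve ModularFormClass CongruenceSubgroup ModularCurve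

namespace Fermat.Agent.MazurS

open Fermat.Agent.ECRep

local notation "Γℚ" => (AlgebraicClosure ℚ ≃ₐ[ℚ] AlgebraicClosure ℚ)
local notation "Qb" => AlgebraicClosure ℚ

/-- integral quadratic polynomials split in `𝒪/𝔪` -/
theorem split_quot (𝔪 : Ideal (integralClosure ℤ ℂ)) (a b : ℤ) :
    ∃ α β : integralClosure ℤ ℂ ⧸ 𝔪,
      (X ^ 2 - C (a : integralClosure ℤ ℂ ⧸ 𝔪) * X + C (b : integralClosure ℤ ℂ ⧸ 𝔪) :
        Polynomial (integralClosure ℤ ℂ ⧸ 𝔪)) = (X - C α) * (X - C β) := by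
  obtain ⟨z, hz⟩ := IsAlgClosed.exists_root (X ^ 2 - C (a : ℂ) * X + C (b : ℂ) : ℂ[X])
    (by
      have h : (X ^ 2 - C (a : ℂ) * X + C (b : ℂ) : ℂ[X]).degree = 2 := by compute_degree!
      rw [h]; norm_num)
  have hz' : z ^ 2 - a * z + b = 0 := by simpa using hz
  have hint : IsIntegral ℤ z := by
    refine ⟨X ^ 2 - C a * X + C b, by monicity!, ?_⟩
    rw [eval₂_add, eval₂_sub, eval₂_mul, eval₂_pow, eval₂_X, eval₂_C, eval₂_C]
    exact hz'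
  have hint' : IsIntegral ℤ ((a : ℂ) - z) := (isIntegral_algebraMap (x := a)).sub hint
  refine ⟨Ideal.Quotient.mk 𝔪 ⟨z, hint⟩, Ideal.Quotient.mk 𝔪 ⟨(a : ℂ) - z, hint'⟩, ?_⟩
  have e1 : (⟨z, hint⟩ : integralClosure ℤ ℂ) + ⟨(a : ℂ) - z, hint'⟩ = ((a : ℤ) : _) := by
    apply Subtype.ext
    change z + ((a : ℂ) - z) = (a : ℂ)
    ring
  have e2 : (⟨z, hint⟩ : integralClosure ℤ ℂ) * ⟨(a : ℂ) - z, hint'⟩ = ((b : ℤ) : _) := by
    apply Subtype.ext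
    change z * ((a : ℂ) - z) = (b : ℂ)
    linear_combination -hz'
  have e1' := congrArg (Ideal.Quotient.mk 𝔪) e1
  have e2' := congrArg (Ideal.Quotient.mk 𝔪) e2
  rw [map_add, map_intCast] at e1'
  rw [map_mul, map_intCast] at e2'
  rw [← e1', ← e2', C_add, C_mul]
  ring

section

variable (P : FreyPackage)

/-- Two integral models of the Frey curve have congruent Frobenius traces. -/
theorem ap_congr (h17 : 17 ≤ P.p)
    (hirr : WeierstrassCurve.Affine.Point.GaloisRepIsIrreducible (K := AlgebraicClosure ℚ) ℚ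
      P.freyCurve P.p) {W W' : WeierstrassCurve ℤ} (hW : W.IsIntegralModelOf P.freyCurve)
    (hW' : W'.IsIntegralModelOf P.freyCurve) {𝔪 : Ideal (integralClosure ℤ ℂ)}
    (h𝔪 : 𝔪.IsMaximal) (hp𝔪 : (P.p : integralClosure ℤ ℂ) ∈ 𝔪) {ℓ : ℕ} (hℓ : ℓ.Prime)
    (hg : W.IsGoodPrimeFor ℓ) (hg' : W'.IsGoodPrimeFor ℓ) (hℓp : ℓ ≠ P.p) :
    ((W.apOfModel ℓ : ℤ) : integralClosure ℤ ℂ) - ((W'.apOfModel ℓ : ℤ) : integralClosure ℤ ℂ) ∈ 𝔪 := by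
  have : Fact P.p.Prime := ⟨P.pp⟩
  let _ : Field (integralClosure ℤ ℂ ⧸ 𝔪) := Ideal.Quotient.field 𝔪
  have hchar : ((P.p : ℕ) : integralClosure ℤ ℂ ⧸ 𝔪) = 0 := by
    rw [← map_natCast (Ideal.Quotient.mk 𝔪)]
    exact Ideal.Quotient.eq_zero_iff_mem.2 hp𝔪
  have : CharP (integralClosure ℤ ℂ ⧸ 𝔪) P.p :=
    (CharP.charP_iff_prime_eq_zero Fact.out).2 hchar
  obtain ⟨ρ, -, -, -, -, -, -, hρ⟩ := LL.freyRes P h17 hirr (integralClosure ℤ ℂ ⧸ 𝔪)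
    (split_quot 𝔪)
  obtain ⟨A, hA⟩ := Frob.exists_liesOverPrime Qb hℓ
  obtain ⟨σ, hσ⟩ := Frob.exists_isFrobeniusAt A hℓ hA
  have h1 := (hρ W hW ℓ hℓ hg hℓp A hA σ hσ).symm.trans (hρ W' hW' ℓ hℓ hg' hℓp A hA σ hσ)
  have h2 := congrArg (fun f => Polynomial.coeff f 1) h1
  have h3 : ((W.apOfModel ℓ : ℤ) : integralClosure ℤ ℂ ⧸ 𝔪) = ((W'.apOfModel ℓ : ℤ) : _) := by
    simpa [Polynomial.coeff_X, Polynomial.coeff_one, Polynomial.coeff_C] using h2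
  rw [← Ideal.Quotient.eq_zero_iff_mem, map_sub, map_intCast, map_intCast, h3, sub_self]

/-- `ModularRepOfLevel` in terms of the standard model, away from a finite set of primes -/
theorem exists_congr_of_modularRep (h17 : 17 ≤ P.p)
    (hirr : WeierstrassCurve.Affine.Point.GaloisRepIsIrreducible (K := AlgebraicClosure ℚ) ℚ
      P.freyCurve P.p) {N : ℕ} (hmod : P.ModularRepOfLevel N) :
    ∃ (f : CuspForm (Gamma0 N) 2) (𝔪 : Ideal (integralClosure ℤ ℂ)) (s : Finset ℕ),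
      f.IsNormalizedEigenform ∧ 𝔪.IsMaximal ∧ (P.p : integralClosure ℤ ℂ) ∈ 𝔪 ∧ P.p ∈ s ∧
      (∀ q : ℕ, q.Prime → (q : ℤ) ∣ P.freyCurveInt.Δ → q ∈ s) ∧
      ∀ ℓ : ℕ, ℓ.Prime → ¬ ℓ ∣ N → ℓ ∉ s → ∃ a : integralClosure ℤ ℂ,
        (a : ℂ) = qCoeff f ℓ ∧
        a - ((P.freyCurveInt.apOfModel ℓ : ℤ) : integralClosure ℤ ℂ) ∈ 𝔪 := by
  classical
  obtain ⟨f, W, 𝔪, hf, hW, h𝔪, hp𝔪, h⟩ := hmod
  have hΔ' : W.Δ ≠ 0 := by
    intro h0
    obtain ⟨C, hC⟩ := hW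
    have h1 : (W.map (Int.castRingHom ℚ)).Δ = 0 := by
      rw [WeierstrassCurve.map_Δ, h0, map_zero]
    rw [← hC, WeierstrassCurve.variableChange_Δ] at h1
    have h2 : P.freyCurve.Δ ≠ 0 := by
      rw [← Wiring.freyCurveInt_map P, WeierstrassCurve.map_Δ]
      intro h3
      exact Wiring.freyCurveInt_Δ_ne_zero P ((RingHom.injective_int (Int.castRingHom ℚ))
        (h3.trans (map_zero _).symm))
    exact (mul_ne_zero (pow_ne_zero _ (Units.ne_zero _)) h2) h1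
  refine ⟨f, 𝔪, {P.p} ∪ W.Δ.natAbs.primeFactors ∪ P.freyCurveInt.Δ.natAbs.primeFactors, hf, h𝔪,
    hp𝔪, by simp, ?_, ?_⟩
  · intro q hq hd
    simp only [Finset.mem_union]
    exact Or.inr (Nat.mem_primeFactors.mpr ⟨hq, Int.natCast_dvd.mp hd,
      Int.natAbs_ne_zero.mpr (Wiring.freyCurveInt_Δ_ne_zero P)⟩)
  · intro ℓ hℓ hℓN hℓs
    simp only [Finset.mem_union, Finset.mem_singleton, not_or] at hℓs
    obtain ⟨⟨h1, h2⟩, h3⟩ := hℓs
    have g1 : W.IsGoodPrimeFor ℓ := fun hd => h2 (Nat.mem_primeFactors.mpr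
      ⟨hℓ, Int.natCast_dvd.mp hd, Int.natAbs_ne_zero.mpr hΔ'⟩)
    have g2 : P.freyCurveInt.IsGoodPrimeFor ℓ := fun hd => h3 (Nat.mem_primeFactors.mpr
      ⟨hℓ, Int.natCast_dvd.mp hd, Int.natAbs_ne_zero.mpr (Wiring.freyCurveInt_Δ_ne_zero P)⟩)
    obtain ⟨a, ha, ha'⟩ := h ℓ hℓ g1 hℓN h1
    refine ⟨a, ha, ?_⟩
    have h4 := ap_congr P h17 hirr hW (Wiring.freyCurveInt_isIntegralModelOf P) h𝔪 hp𝔪 hℓ g1 g2 h1
    have h5 := 𝔪.add_mem ha' h4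
    rwa [sub_add_sub_cancel] at h5

/-- Conversely, a congruence for almost all primes gives `ModularRepOfLevel`. -/
theorem modularRep_of_ae (h17 : 17 ≤ P.p)
    (hirr : WeierstrassCurve.Affine.Point.GaloisRepIsIrreducible (K := AlgebraicClosure ℚ) ℚ
      P.freyCurve P.p) {M : ℕ} {f : CuspForm (Gamma0 M) 2} (hf : f.IsNormalizedEigenform)
    {𝔪 : Ideal (integralClosure ℤ ℂ)} (h𝔪 : 𝔪.IsMaximal)
    (hp𝔪 : (P.p : integralClosure ℤ ℂ) ∈ 𝔪) (hM : M ≠ 0) (s : Finset ℕ)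
    (h : ∀ ℓ : ℕ, ℓ.Prime → ℓ ∉ s → ∃ a : integralClosure ℤ ℂ, (a : ℂ) = qCoeff f ℓ ∧
      a - ((P.freyCurveInt.apOfModel ℓ : ℤ) : integralClosure ℤ ℂ) ∈ 𝔪) :
    P.ModularRepOfLevel M := by
  classical
  have : Fact P.p.Prime := ⟨P.pp⟩
  let _ : Field (integralClosure ℤ ℂ ⧸ 𝔪) := Ideal.Quotient.field 𝔪
  have hchar : ((P.p : ℕ) : integralClosure ℤ ℂ ⧸ 𝔪) = 0 := by
    rw [← map_natCast (Ideal.Quotient.mk 𝔪)]
    exact Ideal.Quotient.eq_zero_iff_mem.2 hp𝔪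
  have : CharP (integralClosure ℤ ℂ ⧸ 𝔪) P.p :=
    (CharP.charP_iff_prime_eq_zero Fact.out).2 hchar
  obtain ⟨ρ, -, -, -, -, -, -, hρ⟩ := LL.freyRes P h17 hirr (integralClosure ℤ ℂ ⧸ 𝔪)
    (split_quot 𝔪)
  obtain ⟨ρ', hρ', -⟩ := Fermat.Agent.S29.result hf P.pp (k := integralClosure ℤ ℂ ⧸ 𝔪)
    (Ideal.Quotient.mk 𝔪)
  refine ⟨f, P.freyCurveInt, 𝔪, hf, Wiring.freyCurveInt_isIntegralModelOf P, h𝔪, hp𝔪,
    fun ℓ hℓ hg hℓM hℓp => ?_⟩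
  obtain ⟨A, hA⟩ := Frob.exists_liesOverPrime Qb hℓ
  obtain ⟨σ, hσ⟩ := Frob.exists_isFrobeniusAt A hℓ hA
  obtain ⟨L, hL, hLρ⟩ := ρ.factorsThroughFiniteLevel
  obtain ⟨L', hL', hLρ'⟩ := ρ'.factorsThroughFiniteLevel
  obtain ⟨q, hq, hqS, -, B, hB, φ, hφ, he⟩ := ChebFull.exists_frobenius_eq_of_factors
    (ρ.ρ.prod ρ'.ρ) ⟨L ⊔ L', IntermediateField.finiteDimensional_sup _ _, fun τ hτ => by
      refine Prod.ext (hLρ τ fun x hx => hτ x (le_sup_left (a := L) hx))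
        (hLρ' τ fun x hx => hτ x (le_sup_right (a := L) hx))⟩ σ
      (s ∪ {P.p} ∪ P.freyCurveInt.Δ.natAbs.primeFactors ∪ M.primeFactors)
  simp only [Finset.mem_union, Finset.mem_singleton, not_or] at hqS
  obtain ⟨⟨⟨hqs, hqp⟩, hqW⟩, hqM⟩ := hqS
  have hΔ := Wiring.freyCurveInt_Δ_ne_zero P
  have gq : P.freyCurveInt.IsGoodPrimeFor q := fun hd => hqW (Nat.mem_primeFactors.mpr
    ⟨hq, Int.natCast_dvd.mp hd, Int.natAbs_ne_zero.mpr hΔ⟩)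
  have hqM' : ¬ q ∣ M := fun hd => hqM (Nat.mem_primeFactors.mpr ⟨hq, hd, hM⟩)
  have e1 : ρ.ρ φ = ρ.ρ σ := congrArg Prod.fst he
  have e2 : ρ'.ρ φ = ρ'.ρ σ := congrArg Prod.snd he
  have hW0 := Wiring.freyCurveInt_isIntegralModelOf P
  have t1 := Wire.trace_of_charpoly ρ.finrank_eq (hρ _ hW0 ℓ hℓ hg hℓp A hA σ hσ)
  have t2 := Wire.trace_of_charpoly ρ.finrank_eq (hρ _ hW0 q hq gq hqp B hB φ hφ)
  have hne : ∀ r : ℕ, r.Prime → r ≠ P.p → ((r : ℕ) : integralClosure ℤ ℂ ⧸ 𝔪) ≠ 0 := by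
    intro r hr hrp h0
    exact hrp ((Nat.prime_dvd_prime_iff_eq P.pp hr).1
      ((CharP.cast_eq_zero_iff (integralClosure ℤ ℂ ⧸ 𝔪) P.p r).1 h0)).symm
  obtain ⟨al, hal, hcl⟩ := hρ' ℓ hℓ hℓM (hne ℓ hℓ hℓp) A hA σ hσ
  obtain ⟨aq, haq, hcq⟩ := hρ' q hq hqM' (hne q hq hqp) B hB φ hφ
  have t3 := Wire.trace_of_charpoly ρ'.finrank_eq hcl
  have t4 := Wire.trace_of_charpoly ρ'.finrank_eq hcq
  obtain ⟨a, ha, ha'⟩ := h q hq hqs
  have e3 : a = aq := Subtype.ext (ha.trans haq.symm)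
  subst e3
  refine ⟨al, hal, ?_⟩
  rw [← Ideal.Quotient.eq_zero_iff_mem, map_sub, map_intCast] at ha' ⊢
  rw [e1, t1] at t2
  rw [e2, t3] at t4
  rw [t4, t2]
  exact ha'

theorem dvd_padicValInt :
    P.p ∣ padicValInt P.p P.freyCurveInt.Δ := by
  have : Fact P.p.Prime := ⟨P.pp⟩
  have h := Wiring.freyCurveInt_Δ P
  have hΔ := Wiring.freyCurveInt_Δ_ne_zero P
  have h1 := congrArg (fun z : ℤ => padicValNat P.p z.natAbs) h
  simp only [Int.natAbs_mul, Int.natAbs_pow] at h1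
  have h2 : ((2 : ℤ).natAbs) ^ 8 ≠ 0 := by norm_num
  have habc : (P.a.natAbs * P.b.natAbs * P.c.natAbs) ≠ 0 := by
    rw [← Int.natAbs_mul, ← Int.natAbs_mul]
    exact Int.natAbs_ne_zero.mpr P.habc0
  have h4 : padicValNat P.p ((2 : ℤ).natAbs ^ 8) = 8 * padicValNat P.p (2 : ℤ).natAbs :=
    padicValNat.pow ..
  have h5 : padicValNat P.p ((P.a.natAbs * P.b.natAbs * P.c.natAbs) ^ (2 * P.p)) =
      2 * P.p * padicValNat P.p (P.a.natAbs * P.b.natAbs * P.c.natAbs) := padicValNat.pow ..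
  rw [padicValNat.mul h2 (Int.natAbs_ne_zero.mpr hΔ), h4, h5] at h1
  have h3 : padicValNat P.p (2 : ℤ).natAbs = 0 := by
    rw [padicValNat.eq_zero_iff]
    right; right
    intro hd
    have := (Nat.prime_dvd_prime_iff_eq P.pp Nat.prime_two).1 hd
    have := P.hp5
    omega
  rw [h3, mul_zero, zero_add] at h1
  change P.p ∣ padicValNat P.p P.freyCurveInt.Δ.natAbs
  rw [h1, mul_comm 2 P.p, mul_assoc]
  exact dvd_mul_right _ _

theorem frey_ge_17 : 17 ≤ P.p := by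
  by_contra hlt
  have h5 := P.hp5
  have pp := P.pp
  have hlt : P.p < 17 := not_le.1 hlt
  have : P.p = 5 ∨ P.p = 7 ∨ P.p = 11 ∨ P.p = 13 := by
    interval_cases h : P.p <;> simp_all (decide := true)
  exact Fermat.Agent.KummerSmall.frey_false_of_small P this

end

/-- **`S44` from the core statement** -/
theorem s44_of_core (h : Core44) : Wiring.Stmt44 := by
  intro P N hcond hpN hirr hmod
  have : Fact P.p.Prime := ⟨P.pp⟩
  have h17 := frey_ge_17 P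
  obtain ⟨f, 𝔪, s, hf, h𝔪, hp𝔪, hps, hs, hcong⟩ := exists_congr_of_modularRep P h17 hirr hmod
  obtain ⟨M, hM⟩ := hpN
  rw [mul_comm] at hM
  subst hM
  have hN0 : M * P.p ≠ 0 := hcond.pos.ne'
  have hM0 : M ≠ 0 := fun h0 => hN0 (by rw [h0, zero_mul])
  have i1 : NeZero M := ⟨hM0⟩
  have i2 : NeZero (M * P.p) := ⟨hN0⟩
  have hpM : ¬ P.p ∣ M := fun hd => by
    have h1 := Nat.squarefree_iff_prime_squarefree.mp hcond.squarefree P.p P.pp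
    exact h1 (mul_dvd_mul_right hd _)
  have hpΔ : (P.p : ℤ) ∣ P.freyCurveInt.Δ :=
    (Wiring.dvd_Δ_iff P P.pp).2 (hcond.p_dvd_abc (dvd_mul_left _ _))
  obtain ⟨x, hx0, hpx, hx⟩ := exists_point (N := M * P.p) (p := P.p) (S := (s : Set ℕ))
    (by exact_mod_cast hps) hf h𝔪 hp𝔪 (fun ℓ => P.freyCurveInt.apOfModel ℓ)
    (fun ℓ hℓ hℓN hℓs => hcong ℓ hℓ hℓN (by exact_mod_cast hℓs))
  have hirr' : P.freyCurveInt.ModRepIsIrreducible P.p := by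
    unfold WeierstrassCurve.ModRepIsIrreducible
    rw [Wiring.freyCurveInt_map]
    exact hirr
  obtain ⟨f', 𝔪', hf', h𝔪', hp𝔪', S', hS'⟩ := h P.p M inferInstance i1 i2 P.freyCurveInt
    (by omega) (hcond.squarefree.squarefree_of_dvd (dvd_mul_right _ _)) hpM
    (Wiring.freyCurveInt_Δ_ne_zero P) (Wiring.freyCurveInt_isSemistableModel P) hpΔ
    (Wiring.freyCurveInt_isSemistableModel P P.p P.pp hpΔ) (dvd_padicValInt P) hirr' s hps hs x hx0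
    hpx (fun ℓ hℓ hℓN hℓs => hx ℓ hℓ hℓN (by exact_mod_cast hℓs))
  exact ⟨M, dvd_mul_right _ _, hpM, modularRep_of_ae P h17 hirr hf' h𝔪' hp𝔪' hM0 S' hS'⟩

end Fermat.Agent.MazurS
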