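import Fermat.Agent.MazurQ.HeckeRed

set_option autoImplicit false
set_option linter.unusedSectionVars false
set_option linter.style.haveILetI false
set_option linter.unusedVariables false

/-!
# Weighted slopes and Hecke operators in characteristic `q`
-/

noncomputable section

open AlgebraicCurve IntermediateField Module ModularCurve

namespace Fermat.Agent.MazurS

open Fermat.Agent.FF Fermat.Agent.Red Fermat.Agent.QVal Fermat.Agent.QComp Fermat.Agent.JZ
  Fermat.Agent.MazurP Fermat.Agent.MazurQ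

local notation "Qb" => AlgebraicClosure ℚ

section Abs

variable {K F F' : Type*} [Field K] [Field F] [Field F'] [Algebra K F] [Algebra K F']
  [HasPrincipalDivisors K F']

/-- The norm preserves congruences of orders. -/
theorem dvd_ord_normAlong_sub' (al : F →ₐ[K] F') (hal : al.toRingHom.IsIntegral)
    (hfin : FiniteAlong K al) (hN : NormFormulaAlong K al hfin)
    {u v : F'} (hu : u ≠ 0) (hv : v ≠ 0) (n : ℤ) (Q : Place K F)
    (hQ : ∀ w : Place K F', w.restrictAlong al hal = Q → n ∣ w.ord u - w.ord v) :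
    n ∣ Q.ord (normAlong al u) - Q.ord (normAlong al v) := by
  classical
  obtain ⟨D1, hD1, -⟩ := HasPrincipalDivisors.exists_divisor (K := K) u hu
  obtain ⟨D2, hD2, -⟩ := HasPrincipalDivisors.exists_divisor (K := K) v hv
  set E : Divisor K F' := Finsupp.mapRange (fun x : ℤ => x / n) (Int.zero_ediv n) (D1 - D2) with hE
  have h1 : ∀ w : Place K F', w.restrictAlong al hal = Q → D1 w = (D2 + n • E) w := by
    intro w hw
    have h2 := hQ w hw
    rw [← hD1, ← hD2] at h2
    have e4 : (n • E) w = n * ((D1 w - D2 w) / n) := rfl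
    rw [Finsupp.add_apply, e4, Int.mul_ediv_cancel' h2]
    ring
  have h2 := pushforwardAlong_apply_congr al hal Q h1
  rw [map_add, map_zsmul, Finsupp.add_apply, Finsupp.smul_apply, smul_eq_mul,
    pushforwardAlong_apply_of_ord al hal hfin hN hu hD1 Q,
    pushforwardAlong_apply_of_ord al hal hfin hN hv hD2 Q] at h2
  rw [h2, add_sub_cancel_left]
  exact dvd_mul_right _ _

theorem normAlong_self (al : F →ₐ[K] F') (v : F) :
    normAlong al (al v) = v ^ finrankAlong K al := by
  let _ := algebraAlong al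
  have := isScalarTower_along al
  change Algebra.norm F (algebraMap F F' v) = _
  rw [Algebra.norm_algebraMap]
  rfl

end Abs

section Level

variable {k : Type*} [Field k] {A : ValuationSubring Qb} {π : A →+* k} {M q ℓ : ℕ} [NeZero M]
  [NeZero q] [NeZero ℓ] [hqf : Fact q.Prime] [hlf : Fact ℓ.Prime]
  (hA : A.LiesOverPrime q) (hπ : ∀ a : A, π a = 0 ↔ ¬ IsUnit a)
  (hs : Function.Surjective π)

include hA hπ hs in
/-- **weighted slopes and Hecke operators** -/
theorem dvd_ord_TlC (hM : ¬ q ∣ M) (hMℓ : ¬ q ∣ M * ℓ) (hℓM : ¬ ℓ ∣ M)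
    {η : modularFunctionFieldFullC k M}
    (hh : (η : LaurentSeries k) * (Igusa.deltaC k) ^ (q - 1) = 1)
    {b : modularFunctionFieldFullC k M} (hb : b ≠ 0) (n c : ℤ) (m : ℕ)
    (hc : ∀ Q : Place k (modularFunctionFieldFullC k M), 0 ≤ Q.ord (RedQ.xj k M) →
      n ∣ m * Q.ord b - c * Q.ord η)
    (Q : Place k (modularFunctionFieldFullC k M)) (hQ : 0 ≤ Q.ord (RedQ.xj k M)) :
    n ∣ m * Q.ord (TlC k M ℓ b) - (ℓ + 1) * c * Q.ord η := by
  haveI := charP_of_liesOverPrime (k := k) hA hπ
  haveI : IsAlgClosed k := isAlgClosed_of_surjective hs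
  haveI := isFnField_fullC (k := k) M q hM
  haveI := isFnField_fullC (k := k) (M * ℓ) q hMℓ
  haveI : HasPrincipalDivisors k (modularFunctionFieldFullC k M) := RR.hasPrincipalDivisors k _
  haveI : HasPrincipalDivisors k (modularFunctionFieldFullC k (M * ℓ)) :=
    RR.hasPrincipalDivisors k _
  have hα : (alphaC k M ℓ).toRingHom.IsIntegral := JZ.isIntegralAlong _
  have hβ : (betaC k M ℓ).toRingHom.IsIntegral := JZ.isIntegralAlong _
  have hη : η ≠ 0 := by
    rintro rfl
    simp at hh
  have key : ∀ w : Place k (modularFunctionFieldFullC k (M * ℓ)),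
      w.restrictAlong (alphaC k M ℓ) hα = Q →
      n ∣ w.ord (betaC k M ℓ b ^ m) - w.ord (alphaC k M ℓ (η ^ c)) := by
    intro w hw
    have hpα : (0 : ℤ) < w.ramificationIndexAlong (alphaC k M ℓ) := by
      exact_mod_cast ramPos _ hα w
    have hpβ : (0 : ℤ) < w.ramificationIndexAlong (betaC k M ℓ) := by
      exact_mod_cast ramPos _ hβ w
    have e1 : alphaC k M ℓ (RedQ.xj k M) = RedQ.xj k (M * ℓ) := Subtype.ext (coe_alphaC _ _ _ _)
    have h1 : 0 ≤ w.ord (RedQ.xj k (M * ℓ)) := by
      rw [← e1, Place.ord_restrictAlong _ hα, hw]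
      exact mul_nonneg hpα.le hQ
    have h2 : 0 ≤ w.ord (betaC k M ℓ (RedQ.xj k M)) :=
      ord_nonneg_of_mem _ (mem_of_isIntegral w h1 (isIntegral_betaC_xj hA hπ hs hM hMℓ))
    have h3 : 0 ≤ (w.restrictAlong (betaC k M ℓ) hβ).ord (RedQ.xj k M) := by
      rw [Place.ord_restrictAlong _ hβ] at h2
      exact nonneg_of_mul_nonneg_right h2 hpβ
    have h4 := ord_alpha_hasse hA hπ hs hMℓ hh w h1
    have h5 := hc _ h3
    have h6 : w.ord (betaC k M ℓ b ^ m) - w.ord (alphaC k M ℓ (η ^ c)) =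
        w.ramificationIndexAlong (betaC k M ℓ) * (m * (w.restrictAlong (betaC k M ℓ) hβ).ord b -
          c * (w.restrictAlong (betaC k M ℓ) hβ).ord η) := by
      rw [map_zpow₀, ord_pow, Place.ord_zpow, h4, Place.ord_restrictAlong _ hβ,
        Place.ord_restrictAlong _ hβ]
      ring
    rw [h6]
    exact h5.mul_left _
  have h7 := dvd_ord_normAlong_sub' (alphaC k M ℓ) hα (JZ.finiteAlong _)
    (normFormulaAlong (alphaC k M ℓ) (JZ.finiteAlong _) (isSeparable_alphaC k M ℓ hMℓ))
    (pow_ne_zero m ((map_ne_zero (betaC k M ℓ)).2 hb))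
    ((map_ne_zero (alphaC k M ℓ)).2 (zpow_ne_zero c hη)) n Q key
  rw [normAlong_self, finrank_alphaC hA hπ hs hM hMℓ hℓM, ord_pow, Place.ord_zpow, map_pow,
    ord_pow] at h7
  push_cast at h7
  have h8 : (m : ℤ) * Q.ord (TlC k M ℓ b) - (ℓ + 1) * c * Q.ord η =
      (m : ℤ) * Q.ord (normAlong (alphaC k M ℓ) (betaC k M ℓ b)) -
        ((ℓ : ℤ) + 1) * (c * Q.ord η) := by
    rw [TlC]; ring
  rw [h8]
  exact h7

end Level

end Fermat.Agent.MazurS
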