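import Fermat.Agent.MazurS.HeckeW
import Fermat.Agent.MazurQ.Slope
import Fermat.Agent.MazurP.Slopes

set_option autoImplicit false
set_option linter.unusedSectionVars false
set_option linter.style.haveILetI false
set_option linter.unusedVariables false

/-!
# Vanishing of the slopes
-/

noncomputable section

open AlgebraicCurve IntermediateField Module ModularCurve

namespace Fermat.Agent.MazurS

open Fermat.Agent.FF Fermat.Agent.Red Fermat.Agent.QVal Fermat.Agent.QComp Fermat.Agent.JZ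
  Fermat.Agent.MazurP Fermat.Agent.MazurQ Fermat.Agent.Node Fermat.Agent.ESh

local notation "Qb" => AlgebraicClosure ℚ

theorem exists_restrictAlong {K F F' : Type*} [Field K] [Field F] [Field F'] [Algebra K F]
    [Algebra K F'] [IsAlgClosed K] [IsFnField K F] [IsFnField K F'] (φ : F →ₐ[K] F')
    (hφ : φ.toRingHom.IsIntegral) (Q : Place K F) : ∃ w : Place K F', w.restrictAlong φ hφ = Q := by
  haveI : HasPrincipalDivisors K F' := RR.hasPrincipalDivisors K F'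
  have h1 := fundamentalIdentityAlong_fn φ hφ
  letI := algebraAlong φ
  haveI := isScalarTower_along φ
  haveI := isIntegral_along φ hφ
  haveI : Module.Finite F F' := JZ.finiteAlong φ
  have h2 : FundamentalIdentity K F F' := h1
  by_contra hcon
  push Not at hcon
  have h3 := h2.sum_ramificationIndex_mul_deg Q
  have h4 : Q.fiber F' = ∅ := by
    rw [Finset.eq_empty_iff_forall_notMem]
    intro w hw
    exact hcon w (Place.mem_fiber.1 hw)
  rw [h4, Finset.sum_empty] at h3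
  have h5 : 0 < Module.finrank F F' := finrank_pos
  rw [RR.deg_eq_one Q, Nat.cast_one, mul_one] at h3
  omega

section Level

variable {k : Type*} [Field k] {A : ValuationSubring Qb} {π : A →+* k} {M₀ M q : ℕ} [NeZero M₀]
  [NeZero M] [NeZero q] [hqf : Fact q.Prime] {hA : A.LiesOverPrime q}
  {hπ : ∀ a : A, π a = 0 ↔ ¬ IsUnit a}
  {hs : Function.Surjective π} {hM₀ : ¬ q ∣ M₀} {hM : ¬ q ∣ M}

theorem inclK_hasse (h : M₀ ∣ M) {η₀ : modularFunctionFieldFullC k M₀}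
    (hη₀ : (η₀ : LaurentSeries k) * (Igusa.deltaC k) ^ (q - 1) = 1) :
    ((inclK k h η₀ : modularFunctionFieldFullC k M) : LaurentSeries k) *
      (Igusa.deltaC k) ^ (q - 1) = 1 := by
  rw [coe_inclK]; exact hη₀

theorem inclK_xj (h : M₀ ∣ M) : inclK k h (RedQ.xj k M₀) = RedQ.xj k M := by
  apply Subtype.ext
  rw [coe_inclK]
  rfl

/-- from the slopes at the nodes of the rigid level to weighted slopes at level `M₀` -/
theorem weighted_of_node (hA : A.LiesOverPrime q) (hπ : ∀ a : A, π a = 0 ↔ ¬ IsUnit a)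
    (hs : Function.Surjective π) (hM₀ : ¬ q ∣ M₀) (hM : ¬ q ∣ M) (hq5 : 5 ≤ q)
    (hr : ∃ r : ℕ, r.Prime ∧ r ∣ M ∧ r % 12 = 11) (h : M₀ ∣ M)
    {η₀ : modularFunctionFieldFullC k M₀}
    (hη₀ : (η₀ : LaurentSeries k) * (Igusa.deltaC k) ^ (q - 1) = 1)
    {b : modularFunctionFieldFullC k M₀} (c : ℤ)
    (hnode : ∀ Q' : Place k (modularFunctionFieldFullC k M), IsSS q Q' →
      (q : ℤ) ∣ Q'.ord (inclK k h b) - c)
    (hsm : ∀ Q : Place k (modularFunctionFieldFullC k M₀), ¬ IsSS q Q → (q : ℤ) ∣ Q.ord b)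
    (Q : Place k (modularFunctionFieldFullC k M₀)) (hQ : 0 ≤ Q.ord (RedQ.xj k M₀)) :
    (q : ℤ) ∣ (12 : ℕ) * Q.ord b - c * Q.ord η₀ := by
  haveI := charP_of_liesOverPrime (k := k) hA hπ
  haveI : IsAlgClosed k := isAlgClosed_of_surjective hs
  haveI : PerfectRing k q := PerfectField.toPerfectRing q
  haveI := isFnField_fullC (k := k) M q hM
  haveI := isFnField_fullC (k := k) M₀ q hM₀
  haveI := (isCoord' hA hπ hs hM).finiteDimensionalk
  haveI := RedQ.isSeparable_charP M k q hM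
  by_cases hss : IsSS q Q
  · have hi : (inclK k h).toRingHom.IsIntegral := JZ.isIntegralAlong _
    obtain ⟨w, hw⟩ := exists_restrictAlong (inclK k h) hi Q
    have hpos : (0 : ℤ) < w.ramificationIndexAlong (inclK k h) := by
      exact_mod_cast ramPos _ hi w
    set e : ℤ := ((w.ramificationIndexAlong (inclK k h) : ℕ) : ℤ) with he
    have h1 : ∀ f, w.ord (inclK k h f) = e * Q.ord f := by
      intro f
      rw [Place.ord_restrictAlong _ hi, hw]
    rw [isSS_iff hη₀] at hss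
    have h2 : 0 ≤ w.ord (RedQ.xj k M) := by
      rw [← inclK_xj h, h1]
      exact mul_nonneg hpos.le hss.1
    have h3 : 0 < w.ord (inclK k h η₀) := by
      rw [h1]
      exact mul_pos hpos hss.2
    have h4 : w.ord (inclK k h η₀) = 12 :=
      Node.ord_hasse_eq hr hA hπ hs hM h2 (inclK_hasse h hη₀) h3
    have h5 := hnode w ((isSS_iff (inclK_hasse h hη₀)).2 ⟨h2, h3⟩)
    rw [h1] at h4 h5
    have h6 : e ∣ 12 := ⟨_, h4.symm⟩
    have h7 : IsCoprime (q : ℤ) e := by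
      rw [Int.isCoprime_iff_gcd_eq_one]
      have h8 : Int.gcd (q : ℤ) e ∣ Int.gcd (q : ℤ) 12 := Int.gcd_dvd_gcd_of_dvd_right _ h6
      have h9 : Int.gcd (q : ℤ) 12 = 1 := by
        change Nat.gcd q 12 = 1
        rw [← Nat.coprime_iff_gcd_eq_one, Nat.Prime.coprime_iff_not_dvd hqf.out]
        intro h12
        have := (Nat.Prime.dvd_mul hqf.out (m := 4) (n := 3)).1 h12
        rcases this with h4' | h3'
        · have := Nat.le_of_dvd (by norm_num) h4'; omega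
        · have := Nat.le_of_dvd (by norm_num) h3'; omega
      rw [h9] at h8
      exact Nat.dvd_one.1 h8
    refine h7.dvd_of_dvd_mul_left ?_
    have h10 : e * ((12 : ℕ) * Q.ord b - c * Q.ord η₀) = 12 * (e * Q.ord b - c) := by
      push_cast
      linear_combination (-c) * h4
    rw [h10]
    exact h5.mul_left _
  · have h1 := hsm Q hss
    have h2 : Q.ord η₀ = 0 := by
      rw [isSS_iff hη₀] at hss
      have := hasse_ord_nonneg hA hπ hs hM₀ hη₀ Q hQ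
      by_contra h0
      exact hss ⟨hQ, lt_of_le_of_ne this (Ne.symm h0)⟩
    rw [h2, mul_zero, sub_zero]
    exact h1.mul_left _

theorem HasRed.zsmul {n : ℕ} {x : JZero (M₀ * q)} {b₁ b₂ : modularFunctionFieldFullC k M₀}
    (h : HasRed hA hπ hs hM₀ n x b₁ b₂) (a : ℤ) :
    HasRed hA hπ hs hM₀ n (a • x) (b₁ ^ a) (b₂ ^ a) := by
  have hn : ∀ m : ℕ, HasRed hA hπ hs hM₀ n (m • x) (b₁ ^ m) (b₂ ^ m) := by
    intro m
    induction m with
    | zero => rw [zero_nsmul, pow_zero, pow_zero]; exact HasRed.zero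
    | succ m ih => rw [succ_nsmul, pow_succ, pow_succ]; exact ih.add h
  cases a with
  | ofNat m => rw [Int.ofNat_eq_natCast, natCast_zsmul, zpow_natCast, zpow_natCast]; exact hn m
  | negSucc m =>
    rw [negSucc_zsmul, zpow_negSucc, zpow_negSucc]
    exact (hn (m + 1)).neg

/-- orders of `TlC b` when `TlC b = b ^ a` up to `q`-th powers -/
theorem dvd_ord_of_eigen (hA : A.LiesOverPrime q) (hπ : ∀ a : A, π a = 0 ↔ ¬ IsUnit a)
    (hs : Function.Surjective π) (hM₀ : ¬ q ∣ M₀) (hM : ¬ q ∣ M) (hq5 : 5 ≤ q)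
    (hr : ∃ r : ℕ, r.Prime ∧ r ∣ M ∧ r % 12 = 11) (h : M₀ ∣ M)
    {b : modularFunctionFieldFullC k M₀} (hb : b ≠ 0) (c : ℤ)
    (hnode : ∀ Q' : Place k (modularFunctionFieldFullC k M), IsSS q Q' →
      (q : ℤ) ∣ Q'.ord (inclK k h b) - c)
    (hsm : ∀ Q : Place k (modularFunctionFieldFullC k M₀), ¬ IsSS q Q → (q : ℤ) ∣ Q.ord b)
    {ℓ : ℕ} [NeZero ℓ] [Fact ℓ.Prime] (hℓ : ¬ ℓ ∣ M₀ * q) {a : ℤ}
    (ha : ¬ (q : ℤ) ∣ a - (ℓ + 1)) {e : modularFunctionFieldFullC k M₀} (he : e ≠ 0)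
    (hT : b ^ a = TlC k M₀ ℓ b * e ^ q)
    (Q : Place k (modularFunctionFieldFullC k M₀)) : (q : ℤ) ∣ Q.ord b := by
  haveI := charP_of_liesOverPrime (k := k) hA hπ
  haveI : IsAlgClosed k := isAlgClosed_of_surjective hs
  haveI := isFnField_fullC (k := k) M₀ q hM₀
  by_cases hss : IsSS q Q
  swap
  · exact hsm Q hss
  obtain ⟨η₀, hη₀, -⟩ := exists_hasse M₀ hA hπ hs hM₀
  have hw := weighted_of_node hA hπ hs hM₀ hM hq5 hr h hη₀ c hnode hsm
  have hℓM : ¬ ℓ ∣ M₀ := fun hd => hℓ (hd.mul_right q)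
  have hMℓ : ¬ q ∣ M₀ * ℓ := by
    intro hd
    rcases hqf.out.dvd_mul.1 hd with h1 | h1
    · exact hM₀ h1
    · rw [Nat.prime_dvd_prime_iff_eq hqf.out (Fact.out : ℓ.Prime)] at h1
      exact hℓ (h1 ▸ dvd_mul_left _ _)
  have hT0 : TlC k M₀ ℓ b ≠ 0 := by
    intro h0
    rw [h0, zero_mul] at hT
    exact zpow_ne_zero _ hb hT
  have h1 := dvd_ord_TlC hA hπ hs hM₀ hMℓ hℓM hη₀ hb (q : ℤ) c 12 hw Q
  rw [isSS_iff hη₀] at hss
  have h2 := h1 hss.1
  have h3 := hw Q hss.1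
  have h4 : a * Q.ord b = Q.ord (TlC k M₀ ℓ b) + q * Q.ord e := by
    have := congrArg Q.ord hT
    rwa [Place.ord_zpow, Q.ord_mul hT0 (pow_ne_zero _ he), ord_pow] at this
  -- `12 ord b ≡ c ord η`
  have h5 : (q : ℤ) ∣ (a - (ℓ + 1)) * (c * Q.ord η₀) := by
    have e1 : (a - (ℓ + 1)) * (c * Q.ord η₀) =
        ((12 : ℕ) * Q.ord (TlC k M₀ ℓ b) - (ℓ + 1) * c * Q.ord η₀) -
        a * ((12 : ℕ) * Q.ord b - c * Q.ord η₀) + q * (12 * Q.ord e) := by
      push_cast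
      linear_combination (12 : ℤ) * h4
    rw [e1]
    exact dvd_add (dvd_sub h2 (h3.mul_left _)) (dvd_mul_right _ _)
  have hqp : Prime (q : ℤ) := Nat.prime_iff_prime_int.1 hqf.out
  have h6 : (q : ℤ) ∣ c * Q.ord η₀ := (hqp.dvd_or_dvd h5).resolve_left ha
  have h7 : (q : ℤ) ∣ (12 : ℕ) * Q.ord b := by
    have := dvd_add h3 h6
    rwa [sub_add_cancel] at this
  refine (hqp.dvd_or_dvd h7).resolve_left ?_
  intro h12
  have h12' : q ∣ 12 := by exact_mod_cast h12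
  rcases (Nat.Prime.dvd_mul hqf.out (m := 4) (n := 3)).1 h12' with h4' | h3'
  · have := Nat.le_of_dvd (by norm_num) h4'; omega
  · have := Nat.le_of_dvd (by norm_num) h3'; omega

end Level

section Main

variable {k : Type*} [Field k] {A : ValuationSubring Qb} {π : A →+* k} {M₀ M q : ℕ} [NeZero M₀]
  [NeZero M] [NeZero q] [hqf : Fact q.Prime] {hA : A.LiesOverPrime q}
  {hπ : ∀ a : A, π a = 0 ↔ ¬ IsUnit a}
  {hs : Function.Surjective π} {hM₀ : ¬ q ∣ M₀} {hM : ¬ q ∣ M}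
  [CharP k q] [PerfectRing k q] [IsAlgClosed k] [IsFnField k (modularFunctionFieldFullC k M)]
  [FiniteDimensional k⟮RedQ.xj k M⟯ (modularFunctionFieldFullC k M)]
  [Algebra.IsSeparable k⟮RedQ.xj k M⟯ (modularFunctionFieldFullC k M)]

local notation "𝓗" => twoLevel hA hπ hs hM

/-- **Vanishing of the slopes.** -/
theorem dvd_ord_hasRed (hq5 : 5 ≤ q)
    (hr : ∃ r : ℕ, r.Prime ∧ r ∣ M ∧ r % 12 = 11) (h : M₀ ∣ M) {x : JZero (M₀ * q)}
    {b₁ b₂ : modularFunctionFieldFullC k M₀} (hred : HasRed hA hπ hs hM₀ q x b₁ b₂)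
    (hadd : ∀ s, (q : ℤ) ∣ (place1 𝓗 s).ord (inclK k h b₁) + (place2 𝓗 s).ord (inclK k h b₂))
    (hc : ∃ c : ℤ, ∀ s, (q : ℤ) ∣ (place2 𝓗 s).ord (inclK k h b₂) - c)
    {ℓ : ℕ} [NeZero ℓ] [Fact ℓ.Prime] (hℓ : ¬ ℓ ∣ M₀ * q) {a : ℤ}
    (ha : ¬ (q : ℤ) ∣ a - (ℓ + 1)) (hTx : heckeOperatorAlong Qb (M₀ * q) ℓ x = a • x)
    (Q : Place k (modularFunctionFieldFullC k M₀)) : (q : ℤ) ∣ Q.ord b₁ ∧ (q : ℤ) ∣ Q.ord b₂ := by
  haveI := isFnField_fullC (k := k) M₀ q hM₀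
  haveI := (isCoord' hA hπ hs hM₀).finiteDimensionalk
  haveI := RedQ.isSeparable_charP M₀ k q hM₀
  obtain ⟨c, hc⟩ := hc
  have hMℓ : ¬ q ∣ M₀ * ℓ := by
    intro hd
    rcases hqf.out.dvd_mul.1 hd with h1 | h1
    · exact hM₀ h1
    · rw [Nat.prime_dvd_prime_iff_eq hqf.out (Fact.out : ℓ.Prime)] at h1
      exact hℓ (h1 ▸ dvd_mul_left _ _)
  have h1 := hred.hecke hMℓ
  rw [hTx] at h1
  obtain ⟨⟨e₁, he₁, h2⟩, e₂, he₂, h3⟩ := h1.unique hqf.out.ne_zero (HasRed.zsmul hred a)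
  obtain ⟨η, hη, -⟩ := exists_hasse M hA hπ hs hM
  obtain ⟨η₀, hη₀, -⟩ := exists_hasse M₀ hA hπ hs hM₀
  have hns : ∀ Q : Place k (modularFunctionFieldFullC k M₀), ¬ IsSS q Q →
      (q : ℤ) ∣ Q.ord b₁ ∧ (q : ℤ) ∣ Q.ord b₂ := by
    intro Q hQ
    rw [isSS_iff hη₀] at hQ
    refine ⟨Node.hasRed_dvd1 (fun s hs' => hQ ?_) hred, Node.hasRed_dvd2 (fun s hs' => hQ ?_) hred⟩
    · exact (Node.node1_iff (hA := hA) (hπ := hπ) (hs := hs) (hM := hM₀) hη₀).1 ⟨s, hs'⟩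
    · exact (Node.node2_iff (hA := hA) (hπ := hπ) (hs := hs) (hM := hM₀) hη₀).1 ⟨s, hs'⟩
  refine ⟨dvd_ord_of_eigen hA hπ hs hM₀ hM hq5 hr h hred.ne1 (-c) (fun Q' hQ' => ?_)
    (fun Q hQ => (hns Q hQ).1) hℓ ha he₁ h2 Q,
    dvd_ord_of_eigen hA hπ hs hM₀ hM hq5 hr h hred.ne2 c (fun Q' hQ' => ?_)
    (fun Q hQ => (hns Q hQ).2) hℓ ha he₂ h3 Q⟩
  · rw [isSS_iff hη, ← Node.node1_iff (hA := hA) (hπ := hπ) (hs := hs) (hM := hM) hη] at hQ'
    obtain ⟨s, rfl⟩ := hQ'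
    have h4 := dvd_sub (hadd s) (hc s)
    have e4 : (place1 𝓗 s).ord (inclK k h b₁) - -c =
      (place1 𝓗 s).ord (inclK k h b₁) + (place2 𝓗 s).ord (inclK k h b₂) -
        ((place2 𝓗 s).ord (inclK k h b₂) - c) := by ring
    rw [e4]
    exact h4
  · rw [isSS_iff hη, ← Node.node2_iff (hA := hA) (hπ := hπ) (hs := hs) (hM := hM) hη] at hQ'
    obtain ⟨s, rfl⟩ := hQ'
    exact hc s

end Main

end Fermat.Agent.MazurS
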