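import Fermat.Agent.MazurS.Group
import Fermat.Agent.QComp.Geom

set_option autoImplicit false

/-!
# The block GROUP on `J₀(N)`
-/

open WeierstrassCurve Fermat.Agent Fermat.Agent.ECRep Fermat.Agent.RepTwo ModularCurve
open AlgebraicCurve
open scoped WeierstrassCurve.Affine

namespace Fermat.Agent.MazurS

local notation "Γℚ" => (AlgebraicClosure ℚ ≃ₐ[ℚ] AlgebraicClosure ℚ)
local notation "Qb" => AlgebraicClosure ℚ

/-- `x` has the eigenvalues of `W`. -/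
def SysT (W : WeierstrassCurve ℤ) (p N : ℕ) [NeZero N] (x : JZero N) : Prop :=
  ∀ (ℓ : ℕ) (hℓ : ℓ.Prime), ¬ ℓ ∣ N → ℓ ≠ p → W.IsGoodPrimeFor ℓ →
    heckeOperatorBar N ⟨ℓ, hℓ⟩ x = W.apOfModel ℓ • x

/-- The Hecke operators as additive maps. -/
noncomputable def tJ (N : ℕ) [NeZero N] (ℓ : Nat.Primes) : JZero N →+ JZero N :=
  (heckeOperatorBar N ℓ).toAddMonoidHom

theorem jData (N p : ℕ) [NeZero N] [Fact p.Prime] : JData N p (tJ N) where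
  finite := by
    have : NeZero p := ⟨(Fact.out : p.Prime).ne_zero⟩
    exact Top.finite_pTor N p
  level := torsionLevel N p
  gal ℓ σ x := JZ.heckeOperatorBar_smul ℓ σ x
  frob ℓ hℓ hd A hA σ hσ x hx :=
    (QComp.jZeroES N p).frob ℓ hℓ hd A hA σ hσ x ⟨1, by rw [pow_one]; exact hx⟩

variable (W : WeierstrassCurve ℤ) {p : ℕ} [Fact p.Prime] {N : ℕ} [NeZero N]

/-- **(G1)** -/
theorem g1 (hΔ : W.Δ ≠ 0) (σ : Γℚ) {t d : ℤ}
    (ht : (t : ZMod p) =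
      LinearMap.trace _ _ ((resRep (toRat W) p (toRat_Δ_ne_zero hΔ)).ρ σ))
    (hd : (d : ZMod p) = LinearMap.det ((resRep (toRat W) p (toRat_Δ_ne_zero hΔ)).ρ σ))
    {x : JZero N} (hpx : p • x = 0) (hs : SysT W p N x) :
    σ • σ • x - t • σ • x + d • x = 0 :=
  rel W hΔ (jData N p) σ ht hd hpx hs

/-- **(G1)**, with existence -/
theorem g1' (hΔ : W.Δ ≠ 0) (σ : Γℚ) :
    ∃ t d : ℤ, (t : ZMod p) =
        LinearMap.trace _ _ ((resRep (toRat W) p (toRat_Δ_ne_zero hΔ)).ρ σ) ∧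
      (d : ZMod p) = LinearMap.det ((resRep (toRat W) p (toRat_Δ_ne_zero hΔ)).ρ σ) ∧
      (∀ v : Ihara.TorV (toRat W) p, σ • σ • v - t • σ • v + d • v = 0) ∧
      ∀ x : JZero N, p • x = 0 → SysT W p N x → σ • σ • x - t • σ • x + d • x = 0 :=
  exists_rel W hΔ (jData N p) σ

/-- **(G3)** -/
theorem g3 (hΔ : W.Δ ≠ 0) {x0 : JZero N} (h0 : x0 ≠ 0) (hp0 : p • x0 = 0)
    (hs0 : SysT W p N x0) :
    ∃ x : JZero N, x ≠ 0 ∧ p • x = 0 ∧ SysT W p N x ∧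
      ∀ σ : Γℚ, (∀ v : Ihara.TorV (toRat W) p, σ • v = v) → σ • x = x :=
  exists_fixed_vector W hΔ (jData N p) h0 hp0 hs0

/-- **(G4)** -/
theorem g4 (hΔ : W.Δ ≠ 0) (hp2 : p ≠ 2)
    (hirr : (resRep (toRat W) p (toRat_Δ_ne_zero hΔ)).IsIrreducible)
    (hpΔ : (p : ℤ) ∣ W.Δ) (hc : ¬ (p : ℤ) ∣ W.c₄) {A : ValuationSubring Qb}
    (hA : A.LiesOverPrime p) (V : AddSubgroup (JZero N)) (hV : V ≠ ⊥)
    (hstab : ∀ σ : Γℚ, ∀ x ∈ V, σ • x ∈ V) (hs : ∀ x ∈ V, p • x = 0 ∧ SysT W p N x)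
    (hI : ∀ σ ∈ A.inertiaSubgroupIn ℚ, ∀ a : ℕ, (∀ z : Qb, z ^ p = 1 → σ z = z ^ a) →
      ∀ x ∈ V, σ • x = a • x) : False :=
  false_of_inertia W hΔ hp2 (jData N p) hirr hpΔ hc hA V hV hstab hs hI

end Fermat.Agent.MazurS
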