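import Fermat.Agent.MazurQ.SysForm
import Fermat.Agent.MazurS.GroupJ

/-!
# Systems of eigenvalues of an elliptic curve and killing polynomials
-/

set_option autoImplicit false
set_option linter.style.haveILetI false

noncomputable section

open AlgebraicCurve ModularCurve CuspForm ModularFormClass
open Fermat.Agent.MazurQ Fermat.Agent.QComp

namespace Fermat.Agent.MazurS

local notation "ℤbar" => integralClosure ℤ ℂ

/-- evaluation of a Hecke polynomial at a system of integers -/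
def evB (B : ℕ) (b : ℕ → ℤ) : GPoly B →ₐ[ℤ] ℤ := MvPolynomial.aeval fun ℓ => b ((ℓ.1 : Nat.Primes) : ℕ)

theorem evB_X (B : ℕ) (b : ℕ → ℤ) (ℓ : {ℓ : Nat.Primes // ¬ (ℓ : ℕ) ∣ B}) :
    evB B b (MvPolynomial.X ℓ) = b ((ℓ.1 : Nat.Primes) : ℕ) := MvPolynomial.aeval_X _ _

theorem evB_C (B : ℕ) (b : ℕ → ℤ) (a : ℤ) : evB B b (MvPolynomial.C a) = a :=
  MvPolynomial.aeval_C _ _

/-- the residual system -/
def resB (B : ℕ) (b : ℕ → ℤ) (K : Type*) [Field K] : GPoly B →+* K :=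
  (Int.castRingHom K).comp (evB B b).toRingHom

theorem resB_apply (B : ℕ) (b : ℕ → ℤ) (K : Type*) [Field K] (P : GPoly B) :
    resB B b K P = ((evB B b P : ℤ) : K) := rfl

/-- an eigenvector is an eigenvector of all the Hecke polynomials -/
theorem evJ_apply {B N : ℕ} [NeZero N] {b : ℕ → ℤ} {y : JZero N}
    (hy : ∀ ℓ : {ℓ : Nat.Primes // ¬ (ℓ : ℕ) ∣ B}, heckeOperatorBar N ℓ.1 y =
      b ((ℓ.1 : Nat.Primes) : ℕ) • y) (P : GPoly B) : evJ B N P y = evB B b P • y := by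
  induction P using MvPolynomial.induction_on with
  | C a => rw [evJ_C, evB_C]
  | add P Q hP hQ =>
    rw [map_add, LinearMap.add_apply, hP, hQ, map_add]
    exact (add_zsmul y _ _).symm
  | mul_X P i hP =>
    rw [map_mul, Module.End.mul_apply, evJ_X, hy i, map_zsmul, hP, map_mul, evB_X, mul_comm]
    exact (mul_zsmul y _ _).symm

section Res

variable {B p : ℕ} [hpF : Fact p.Prime] {b : ℕ → ℤ} {K : Type} [Field K] [CharP K p]

/-- the residual system of an eigenform occurs in the torsion -/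
theorem exists_sys {N : ℕ} [NeZero N] (hNB : N ∣ B) (ψ : ℤbar →+* K)
    {f : CuspForm (CongruenceSubgroup.Gamma0 N) 2} (hf : f.IsNormalizedEigenform)
    (h : ∀ (l : {l : Nat.Primes // ¬ (l : ℕ) ∣ B}) (a : ℤbar), (a : ℂ) = qCoeff f l →
      ψ a = ((b ((l.1 : Nat.Primes) : ℕ) : ℤ) : K)) :
    ∃ x : JZero N, x ≠ 0 ∧ p • x = 0 ∧ ∀ l : {l : Nat.Primes // ¬ (l : ℕ) ∣ B},
      heckeOperatorBar N l.1 x = b ((l.1 : Nat.Primes) : ℕ) • x := by
  obtain ⟨x, hx, hx0⟩ := exists_mem_XJ (N := N) hNB hpF.out ψ hf (resB B b K) (fun l a ha => by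
    rw [resB_apply, evB_X, h l a ha])
  refine ⟨x, hx0, ?_, fun l => ?_⟩
  · have h1 := hx (MvPolynomial.C (p : ℤ)) (by
      rw [resB_apply]
      rw [evB_C]
      push_cast
      exact CharP.cast_eq_zero K p)
    rw [evJ_C, natCast_zsmul] at h1
    exact h1
  · have h1 := hx (MvPolynomial.X l - MvPolynomial.C (b ((l.1 : Nat.Primes) : ℕ))) (by
      rw [resB_apply, map_sub, evB_X]
      rw [evB_C, sub_self, Int.cast_zero])
    rw [map_sub, LinearMap.sub_apply, evJ_X, evJ_C, sub_eq_zero] at h1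
    exact h1

variable (b) in
/-- a form of level `M` with the residual system `b`, or a killing polynomial -/
theorem exists_form_or_kill {M : ℕ} [NeZero M] :
    (∃ (g : CuspForm (CongruenceSubgroup.Gamma0 M) 2) (𝔪 : Ideal ℤbar), g.IsNormalizedEigenform ∧
      𝔪.IsMaximal ∧ (p : ℤbar) ∈ 𝔪 ∧ ∀ l : {l : Nat.Primes // ¬ (l : ℕ) ∣ B},
        ∃ a : ℤbar, (a : ℂ) = qCoeff g l ∧ a - ((b ((l.1 : Nat.Primes) : ℕ) : ℤ) : ℤbar) ∈ 𝔪) ∨
    ∃ Q : GPoly B, evS B M Q = 0 ∧ ¬ (p : ℤ) ∣ evB B b Q := by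
  by_cases hker : ∀ P, evS B M P = 0 → resB B b (ZMod p) P = 0
  · left
    have hmax : (RingHom.ker (resB B b (ZMod p))).IsMaximal :=
      Ihara.isMaximal_ker (CharP.cast_eq_zero (ZMod p) p) _ (isIntegral_gpoly _ fun l => by
        rw [resB_apply]
        exact isIntegral_algebraMap (R := ℤ) (A := ZMod p) (x := evB B b (MvPolynomial.X l)))
    obtain ⟨g, θ', 𝔪, hg, hθ', h𝔪, hcomap⟩ := exists_eigenform_of_ker (resB B b (ZMod p)) hmax hker
    refine ⟨g, 𝔪, hg, h𝔪, ?_, fun l => ⟨θ' (MvPolynomial.X l), hθ' l, ?_⟩⟩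
    · have h1 : (MvPolynomial.C (p : ℤ) : GPoly B) ∈ RingHom.ker (resB B b (ZMod p)) := by
        rw [RingHom.mem_ker, resB_apply]
        rw [evB_C]
        push_cast
        exact CharP.cast_eq_zero _ p
      rw [← hcomap, Ideal.mem_comap] at h1
      have h2 : θ' (MvPolynomial.C (p : ℤ)) = (p : ℤbar) := by
        rw [eq_intCast (MvPolynomial.C : ℤ →+* GPoly B), map_intCast]
        push_cast
        rfl
      rwa [h2] at h1
    · have h1 : (MvPolynomial.X l - MvPolynomial.C (b ((l.1 : Nat.Primes) : ℕ)) : GPoly B) ∈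
          RingHom.ker (resB B b (ZMod p)) := by
        rw [RingHom.mem_ker, resB_apply, map_sub, evB_X]
        rw [evB_C, sub_self, Int.cast_zero]
      rw [← hcomap, Ideal.mem_comap, map_sub] at h1
      have h2 : θ' (MvPolynomial.C (b ((l.1 : Nat.Primes) : ℕ))) =
          ((b ((l.1 : Nat.Primes) : ℕ) : ℤ) : ℤbar) := by
        rw [eq_intCast (MvPolynomial.C : ℤ →+* GPoly B), map_intCast]
      rwa [h2] at h1
  · right
    push Not at hker
    obtain ⟨Q, hQ, hQ'⟩ := hker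
    refine ⟨Q, hQ, fun hd => hQ' ?_⟩
    rw [resB_apply]
    exact (ZMod.intCast_zmod_eq_zero_iff_dvd _ p).2 hd

/-- a killing polynomial kills all the torsion -/
theorem evJ_kill {M : ℕ} [NeZero M] (hMB : M ∣ B) {Q : GPoly B} (hQ : evS B M Q = 0) {n : ℕ}
    (hn : n ≠ 0) {x : JZero M} (hx : n • x = 0) : evJ B M Q x = 0 :=
  evJ_eq_zero hMB (Subtype.ext hQ) hn hx

theorem eq_zero_of_zsmul {G : Type*} [AddCommGroup G] {y : G} (hp : p • y = 0) {c : ℤ}
    (hc : ¬ (p : ℤ) ∣ c) (h : c • y = 0) : y = 0 := by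
  have h1 : IsCoprime (p : ℤ) c :=
    ((Nat.prime_iff_prime_int.1 hpF.out).coprime_iff_not_dvd).2 hc
  obtain ⟨u, v, huv⟩ := h1
  have h2 : y = (u * (p : ℤ) + v * c) • y := by rw [huv, one_zsmul]
  rw [h2, add_smul, mul_smul, mul_smul, h, natCast_zsmul, hp]
  rw [zsmul_zero, zsmul_zero, add_zero]

/-- no eigenvector in the presence of a killing polynomial -/
theorem eq_zero_of_kill {M : ℕ} [NeZero M] (hMB : M ∣ B) {Q : GPoly B} (hQ : evS B M Q = 0)
    (hQb : ¬ (p : ℤ) ∣ evB B b Q) {y : JZero M} (hp : p • y = 0)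
    (hy : ∀ ℓ : {ℓ : Nat.Primes // ¬ (ℓ : ℕ) ∣ B}, heckeOperatorBar M ℓ.1 y =
      b ((ℓ.1 : Nat.Primes) : ℕ) • y) : y = 0 := by
  have h1 := evJ_kill hMB hQ hpF.out.ne_zero hp
  rw [evJ_apply hy] at h1
  exact eq_zero_of_zsmul hp hQb h1

end Res

end Fermat.Agent.MazurS
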