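import Fermat.Agent.MazurS.GroupAlg
import Fermat.Agent.ECRep.FrobAll
import Fermat.Agent.ECRep.MultLine
import Fermat.Agent.ECRep.Odd
import Fermat.Agent.Ihara.NonEis
import Fermat.Agent.LL.FreyRes
import Fermat.Agent.CycChar.Basic
import Fermat.Agent.Frob.Minkowski

set_option autoImplicit false

/-!
# The block GROUP

`W[p]` and the `W`-isotypic part of a Galois module with Hecke operators satisfying the
Eichler–Shimura relation (abstract version of `J₀(N)[p]`).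
-/

open Polynomial Matrix WeierstrassCurve Fermat.Agent Fermat.Agent.LL Fermat.Agent.ECRep
open scoped WeierstrassCurve.Affine TensorProduct

namespace Fermat.Agent.MazurS

local notation "Γℚ" => (AlgebraicClosure ℚ ≃ₐ[ℚ] AlgebraicClosure ℚ)
local notation "Qb" => AlgebraicClosure ℚ

section Cyclo

open CycChar

variable (p : ℕ) [Fact p.Prime]

theorem cycloChar_conj : ((ExtCitation.cycloChar p complexConjugation : (ZMod p)ˣ) : ZMod p) =
    -1 := by
  have hp := (Fact.out : p.Prime)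
  rw [cycloChar_eq_of_forall p (a := p - 1) fun ζ hζ => ?_]
  · rw [Nat.cast_sub hp.one_le, CharP.cast_eq_zero]; simp
  · have h1 := Ihara.conj_root hp.ne_zero hζ
    have h2 : ζ ^ (p - 1) * ζ = 1 := by
      rw [← pow_succ, Nat.sub_add_cancel hp.one_le, hζ]
    have h0 : ζ ≠ 0 := by
      rintro rfl
      rw [mul_zero] at h1
      exact zero_ne_one h1
    exact mul_right_cancel₀ h0 (h1.trans h2.symm)

/-- The cyclotomic character is ramified at `p`. -/
theorem exists_inertia_cycloChar (hp2 : p ≠ 2) {A : ValuationSubring Qb}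
    (hA : A.LiesOverPrime p) :
    ∃ τ ∈ A.inertiaSubgroupIn ℚ, ExtCitation.cycloChar p τ ≠ 1 := by
  by_contra hcon
  push Not at hcon
  have hopen : IsOpen ((ExtCitation.cycloChar p).ker : Set Γℚ) := by
    obtain ⟨F, hF, hF'⟩ := exists_finite_level_cycloChar p
    have := hF
    refine Subgroup.isOpen_mono (H₁ := F.fixingSubgroup) ?_ F.fixingSubgroup_isOpen
    intro σ hσ
    rw [IntermediateField.mem_fixingSubgroup_iff] at hσ
    exact hF' σ hσ
  have htop : (ExtCitation.cycloChar p).ker = ⊤ := by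
    refine Frob.subgroup_eq_top_of_normal _ hopen fun q hq => ?_
    by_cases hqp : q = p
    · subst hqp
      exact ⟨A, hA, fun σ hσ => hcon σ hσ⟩
    · obtain ⟨B, hB⟩ := Frob.exists_liesOverPrime Qb hq
      exact ⟨B, hB, fun σ hσ => cycloChar_inertia p hq hqp hB hσ⟩
  have h1 : complexConjugation ∈ (ExtCitation.cycloChar p).ker := htop ▸ Subgroup.mem_top _
  rw [MonoidHom.mem_ker] at h1
  have h2 := cycloChar_conj p
  rw [h1, Units.val_one] at h2
  have h3 : ((2 : ℕ) : ZMod p) = 0 := by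
    push_cast
    linear_combination h2
  rw [ZMod.natCast_eq_zero_iff] at h3
  exact hp2 ((Nat.prime_dvd_prime_iff_eq Fact.out Nat.prime_two).mp h3)

end Cyclo

/-- The geometric input: a Galois module `J` with commuting Galois and Hecke actions, finite
`p`-torsion with open stabilisers, satisfying the Eichler-Shimura relation outside `N p`. -/
structure JData (N p : ℕ) {J : Type} [AddCommGroup J] [DistribMulAction Γℚ J]
    (T : Nat.Primes → J →+ J) : Prop where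
  finite : Finite {x : J // p • x = 0}
  level : ∀ x : J, p • x = 0 → ∃ E : IntermediateField ℚ Qb, FiniteDimensional ℚ E ∧
    ∀ σ : Γℚ, (∀ y ∈ E, σ y = y) → σ • x = x
  gal : ∀ (ℓ : Nat.Primes) (σ : Γℚ) (x : J), T ℓ (σ • x) = σ • T ℓ x
  frob : ∀ (ℓ : ℕ) (hℓ : ℓ.Prime), ¬ ℓ ∣ N * p → ∀ A : ValuationSubring Qb,
    A.LiesOverPrime ℓ → ∀ σ : Γℚ, A.IsFrobeniusAt σ ℓ → ∀ x : J, p • x = 0 →
      σ • σ • x - T ⟨ℓ, hℓ⟩ (σ • x) + ℓ • x = 0

/-- `x` is an eigenvector with the eigenvalues of `W`. -/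
def IsSys (W : WeierstrassCurve ℤ) (p N : ℕ) {J : Type} [AddCommGroup J]
    (T : Nat.Primes → J →+ J) (x : J) : Prop :=
  ∀ (ℓ : ℕ) (hℓ : ℓ.Prime), ¬ ℓ ∣ N → ℓ ≠ p → W.IsGoodPrimeFor ℓ →
    T ⟨ℓ, hℓ⟩ x = W.apOfModel ℓ • x

section Curve

variable (W : WeierstrassCurve ℤ) {p : ℕ} [Fact p.Prime]

/-- At a prime `p` of multiplicative reduction, inertia has trace `det + 1`. -/
theorem trace_inertia (hΔ : W.Δ ≠ 0) (hpΔ : (p : ℤ) ∣ W.Δ) (hc : ¬ (p : ℤ) ∣ W.c₄)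
    {A : ValuationSubring Qb} (hA : A.LiesOverPrime p) {σ : Γℚ}
    (hσ : σ ∈ A.inertiaSubgroupIn ℚ) :
    LinearMap.trace _ _ ((resRep (toRat W) p (toRat_Δ_ne_zero hΔ)).ρ σ) =
      LinearMap.det ((resRep (toRat W) p (toRat_Δ_ne_zero hΔ)).ρ σ) + 1 := by
  have hp := (Fact.out : p.Prime)
  obtain ⟨x₀, y₀, α, β, D, hM⟩ := exists_multData W hΔ hp hA hpΔ hc
  obtain ⟨b, -, -, h⟩ := hM.exists_basis hΔ hp hA p
  have hσ' : σ ∈ A.decompositionSubgroup ℚ := by
    obtain ⟨τ, -, hτ⟩ := hσ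
    rw [← hτ]
    exact τ.2
  obtain ⟨χ, t, e0, e1, e2⟩ := h σ hσ'
  have hs : brSign α σ = 1 := by
    unfold brSign
    rw [if_pos (hM.gal_inertia hσ).1]
  rw [hs, Int.cast_one, mul_one] at e2
  rw [hs, Int.cast_one, one_smul] at e1
  have htr : LinearMap.trace ℤ_[p] _ (tateGal (toRat W) p σ) = χ + 1 := by
    rw [LinearMap.trace_eq_matrix_trace ℤ_[p] b, Matrix.trace_fin_two, LinearMap.toMatrix_apply,
      LinearMap.toMatrix_apply, e0, e1, map_smul, map_add, map_smul]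
    simp
  rw [trace_resRep W p hΔ, det_resRep W p hΔ]
  have h1 : LinearMap.trace ℤ_[p] _ ((tateRep (toRat W) p (toRat_Δ_ne_zero hΔ)).ρ σ) =
      LinearMap.det ((tateRep (toRat W) p (toRat_Δ_ne_zero hΔ)).ρ σ) + 1 := by
    change LinearMap.trace ℤ_[p] _ (tateGal (toRat W) p σ) =
      LinearMap.det (tateGal (toRat W) p σ) + 1
    rw [htr, e2]
  rw [h1, map_add, map_one]

theorem isIrreducible_of_irrAdd (hΔ : W.Δ ≠ 0) (h : Ihara.IrrAdd (toRat W) p) :
    (resRep (toRat W) p (toRat_Δ_ne_zero hΔ)).IsIrreducible := by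
  intro V hV
  rcases h V.toAddSubgroup (fun σ v hv => hV σ v hv) with h1 | h1
  · left
    exact Submodule.toAddSubgroup_injective h1
  · right
    exact Submodule.toAddSubgroup_injective h1

theorem isIrreducible_of_modRep (hΔ : W.Δ ≠ 0) (h : W.ModRepIsIrreducible p) :
    (resRep (toRat W) p (toRat_Δ_ne_zero hΔ)).IsIrreducible := by
  intro V hV
  exact h.2 V (fun σ x hx => hV σ x hx)

/-- the relation on the torsion of the curve itself -/
theorem rel_curve (hΔ : W.Δ ≠ 0) (σ : Γℚ) {t d : ℤ}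
    (ht : (t : ZMod p) =
      LinearMap.trace _ _ ((resRep (toRat W) p (toRat_Δ_ne_zero hΔ)).ρ σ))
    (hd : (d : ZMod p) = LinearMap.det ((resRep (toRat W) p (toRat_Δ_ne_zero hΔ)).ρ σ))
    (v : Ihara.TorV (toRat W) p) : σ • σ • v - t • σ • v + d • v = 0 := by
  have h : ∀ w : (resRep (toRat W) p (toRat_Δ_ne_zero hΔ)).V,
      (resRep (toRat W) p (toRat_Δ_ne_zero hΔ)).ρ σ
        ((resRep (toRat W) p (toRat_Δ_ne_zero hΔ)).ρ σ w) -
        t • (resRep (toRat W) p (toRat_Δ_ne_zero hΔ)).ρ σ w + d • w = 0 := by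
    intro w
    have h1 := cayley_two (resRep (toRat W) p (toRat_Δ_ne_zero hΔ)).finrank_eq
      ((resRep (toRat W) p (toRat_Δ_ne_zero hΔ)).ρ σ) w
    rw [← ht, ← hd, Int.cast_smul_eq_zsmul, Int.cast_smul_eq_zsmul] at h1
    exact h1
  exact h v

variable {N : ℕ} [NeZero N] {J : Type} [AddCommGroup J] [DistribMulAction Γℚ J]
  {T : Nat.Primes → J →+ J}

variable {W} in
omit [Fact p.Prime] [NeZero N] in
theorem IsSys.smul (hJ : JData N p T) {x : J} (hx : IsSys W p N T x) (σ : Γℚ) :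
    IsSys W p N T (σ • x) := by
  intro ℓ hℓ h1 h2 h3
  exact (hJ.gal ⟨ℓ, hℓ⟩ σ x).trans ((congrArg (fun y => σ • y) (hx ℓ hℓ h1 h2 h3)).trans
    (map_zsmul (DistribSMul.toAddMonoidHom J σ) _ x))

omit [Fact p.Prime] in
theorem torsion_smul {x : J} (hx : p • x = 0) (σ : Γℚ) : p • (σ • x) = 0 := by
  have : p • (σ • x) = σ • (p • x) := (map_nsmul (DistribSMul.toAddMonoidHom J σ) p x).symm
  rw [this, hx, smul_zero]

/-- Chebotarev applied to `W[p]` and `J[p]`. -/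
theorem exists_frob (hΔ : W.Δ ≠ 0) (hJ : JData N p T) (σ : Γℚ) :
    ∃ ℓ : ℕ, ℓ.Prime ∧
      (ℓ : ZMod p) = LinearMap.det ((resRep (toRat W) p (toRat_Δ_ne_zero hΔ)).ρ σ) ∧
      ((W.apOfModel ℓ : ℤ) : ZMod p) =
        LinearMap.trace _ _ ((resRep (toRat W) p (toRat_Δ_ne_zero hΔ)).ρ σ) ∧
      ∀ x : J, p • x = 0 → IsSys W p N T x →
        σ • σ • x - W.apOfModel ℓ • σ • x + ℓ • x = 0 := by
  have hp := (Fact.out : p.Prime)
  obtain ⟨L, hL, hLρ⟩ := (resRep (toRat W) p (toRat_Δ_ne_zero hΔ)).factorsThroughFiniteLevel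
  have := hJ.finite
  choose E hE hEx using fun x : {x : J // p • x = 0} => hJ.level x x.2
  let F : IntermediateField ℚ Qb := L ⊔ ⨆ x, E x
  have hfin1 : FiniteDimensional ℚ (⨆ x, E x : IntermediateField ℚ Qb) :=
    IntermediateField.finiteDimensional_iSup_of_finite
  have hF : FiniteDimensional ℚ F := IntermediateField.finiteDimensional_sup L _
  obtain ⟨ℓ, hℓ, hℓS, -, A, hA, φ, hφ, hφσ⟩ := ChebFull.exists_frobenius_eq F σ
    (insert p N.primeFactors ∪ W.Δ.natAbs.primeFactors)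
  simp only [Finset.mem_union, Finset.mem_insert, not_or] at hℓS
  obtain ⟨⟨hℓp, h3⟩, h4⟩ := hℓS
  have hg : W.IsGoodPrimeFor ℓ := by
    intro hdvd
    apply h4
    rw [Nat.mem_primeFactors]
    exact ⟨hℓ, Int.natCast_dvd.mp hdvd, Int.natAbs_ne_zero.mpr hΔ⟩
  have hℓN : ¬ ℓ ∣ N := fun h => h3 (Nat.mem_primeFactors.mpr ⟨hℓ, h, NeZero.ne N⟩)
  have hℓNp : ¬ ℓ ∣ N * p := fun h => by
    rcases hℓ.dvd_mul.mp h with h | h
    · exact hℓN h
    · exact hℓp ((Nat.prime_dvd_prime_iff_eq hℓ hp).mp h)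
  have hρ : (resRep (toRat W) p (toRat_Δ_ne_zero hΔ)).ρ φ =
      (resRep (toRat W) p (toRat_Δ_ne_zero hΔ)).ρ σ := by
    have e1 : ∀ x ∈ L, (σ⁻¹ * φ) x = x := by
      intro x hx
      have := hφσ x ((le_sup_left : L ≤ F) hx)
      change σ⁻¹ (φ x) = x
      rw [this]
      exact inv_smul_smul σ x
    have e2 := hLρ _ e1
    have e3 : φ = σ * (σ⁻¹ * φ) := by group
    rw [e3, map_mul, e2, mul_one]
  have hchar := charpoly_frob_res (l := p) W hΔ hℓ hℓp hA hg hφ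
  rw [hρ, Cheb.charpoly_eq (resRep (toRat W) p (toRat_Δ_ne_zero hΔ)).finrank_eq] at hchar
  have hx : ∀ x : J, p • x = 0 → φ • x = σ • x := by
    intro x hx
    have e1 : ∀ y ∈ E ⟨x, hx⟩, (σ⁻¹ * φ) y = y := by
      intro y hy
      have := hφσ y ((le_trans (le_iSup E ⟨x, hx⟩) le_sup_right : E ⟨x, hx⟩ ≤ F) hy)
      change σ⁻¹ (φ y) = y
      rw [this]
      exact inv_smul_smul σ y
    have e2 := hEx ⟨x, hx⟩ _ e1
    have e3 : (σ⁻¹ * φ) • x = x := e2
    rw [mul_smul, inv_smul_eq_iff] at e3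
    exact e3
  refine ⟨ℓ, hℓ, ?_, ?_, fun x hpx hs => ?_⟩
  · have h0 := congrArg (fun f => Polynomial.coeff f 0) hchar
    simpa using h0.symm
  · have h0 := congrArg (fun f => Polynomial.coeff f 1) hchar
    simpa [Polynomial.coeff_X, Polynomial.coeff_one, Polynomial.coeff_C] using h0.symm
  · have h1 := hJ.frob ℓ hℓ hℓNp A hA φ hφ x hpx
    rw [hx x hpx, hx _ (torsion_smul hpx σ), (hs.smul hJ σ) ℓ hℓ hℓN hℓp hg] at h1
    exact h1

/-- **(G1)** the relation of an element of the Galois group on the isotypic part. -/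
theorem rel (hΔ : W.Δ ≠ 0) (hJ : JData N p T) (σ : Γℚ) {t d : ℤ}
    (ht : (t : ZMod p) =
      LinearMap.trace _ _ ((resRep (toRat W) p (toRat_Δ_ne_zero hΔ)).ρ σ))
    (hd : (d : ZMod p) = LinearMap.det ((resRep (toRat W) p (toRat_Δ_ne_zero hΔ)).ρ σ))
    {x : J} (hpx : p • x = 0) (hs : IsSys W p N T x) :
    σ • σ • x - t • σ • x + d • x = 0 := by
  obtain ⟨ℓ, hℓ, h1, h2, h3⟩ := exists_frob W hΔ hJ σ
  have hz : ∀ (y : J), p • y = 0 → ∀ a b : ℤ, (a : ZMod p) = (b : ZMod p) →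
      a • y = b • y := by
    intro y hy a b hab
    obtain ⟨c, hc⟩ := (ZMod.intCast_eq_intCast_iff_dvd_sub a b p).mp hab
    have : b • y - a • y = 0 := by
      rw [← sub_smul, hc, mul_comm, mul_smul, natCast_zsmul, hy, smul_zero]
    exact (sub_eq_zero.mp this).symm
  rw [hz _ (torsion_smul hpx σ) t (W.apOfModel ℓ) (ht.trans h2.symm), hz _ hpx d ℓ (by
    rw [hd, ← h1, Int.cast_natCast]), natCast_zsmul]
  exact h3 x hpx hs

/-- **(G1)**, in the form with existence. -/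
theorem exists_rel (hΔ : W.Δ ≠ 0) (hJ : JData N p T) (σ : Γℚ) :
    ∃ t d : ℤ, (t : ZMod p) =
        LinearMap.trace _ _ ((resRep (toRat W) p (toRat_Δ_ne_zero hΔ)).ρ σ) ∧
      (d : ZMod p) = LinearMap.det ((resRep (toRat W) p (toRat_Δ_ne_zero hΔ)).ρ σ) ∧
      (∀ v : Ihara.TorV (toRat W) p, σ • σ • v - t • σ • v + d • v = 0) ∧
      ∀ x : J, p • x = 0 → IsSys W p N T x → σ • σ • x - t • σ • x + d • x = 0 := by
  obtain ⟨t, ht⟩ := ZMod.intCast_surjective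
    (LinearMap.trace _ _ ((resRep (toRat W) p (toRat_Δ_ne_zero hΔ)).ρ σ))
  obtain ⟨d, hd⟩ := ZMod.intCast_surjective
    (LinearMap.det ((resRep (toRat W) p (toRat_Δ_ne_zero hΔ)).ρ σ))
  exact ⟨t, d, ht, hd, rel_curve W hΔ σ ht hd, fun x hx hs => rel W hΔ hJ σ ht hd hx hs⟩

/-- **(G3)** a vector of the isotypic part fixed by the kernel of `W[p]`. -/
theorem exists_fixed_vector (hΔ : W.Δ ≠ 0) (hJ : JData N p T) {x0 : J} (h0 : x0 ≠ 0)
    (hp0 : p • x0 = 0) (hs0 : IsSys W p N T x0) :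
    ∃ x : J, x ≠ 0 ∧ p • x = 0 ∧ IsSys W p N T x ∧
      ∀ σ : Γℚ, (∀ v : Ihara.TorV (toRat W) p, σ • v = v) → σ • x = x := by
  let V : AddSubgroup J :=
    { carrier := {x | p • x = 0 ∧ IsSys W p N T x}
      zero_mem' := ⟨smul_zero p, fun ℓ hℓ _ _ _ => by rw [map_zero, smul_zero]⟩
      add_mem' := fun {x y} hx hy => ⟨by rw [smul_add, hx.1, hy.1, add_zero],
        fun ℓ hℓ h1 h2 h3 => by rw [map_add, hx.2 ℓ hℓ h1 h2 h3, hy.2 ℓ hℓ h1 h2 h3, smul_add]⟩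
      neg_mem' := fun {x} hx => ⟨by rw [smul_neg, hx.1, neg_zero],
        fun ℓ hℓ h1 h2 h3 => by rw [map_neg, hx.2 ℓ hℓ h1 h2 h3, smul_neg]⟩ }
  have hfin : Finite V := by
    have := hJ.finite
    exact Finite.of_injective (fun x : V => (⟨x.1, x.2.1⟩ : {x : J // p • x = 0}))
      (fun x y h => Subtype.ext (congrArg (fun z : {x : J // p • x = 0} => (z : J)) h))
  have hstab : ∀ σ : Γℚ, ∀ x ∈ V, σ • x ∈ V := fun σ x hx =>
    ⟨torsion_smul hx.1 σ, hx.2.smul hJ σ⟩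
  obtain ⟨x, hx, hx0, hfix⟩ := exists_fixed (p := p) V (fun x hx => hx.1)
    (resRep (toRat W) p (toRat_Δ_ne_zero hΔ)).ρ.ker (fun σ _ x hx => hstab σ x hx)
    (fun σ hσ x hx => by
      rw [MonoidHom.mem_ker] at hσ
      have h1 := rel W hΔ hJ σ (t := 2) (d := 1) (by
        rw [hσ, LinearMap.trace_one, (resRep (toRat W) p (toRat_Δ_ne_zero hΔ)).finrank_eq]
        norm_num) (by rw [hσ, map_one]; norm_num) hx.1 hx.2
      rw [one_smul] at h1
      exact h1)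
    (x0 := x0) ⟨hp0, hs0⟩ h0
  exact ⟨x, hx0, hx.1, hx.2, fun σ hσ => hfix σ (by
    rw [MonoidHom.mem_ker]
    exact LinearMap.ext fun v => hσ v)⟩

/-- **(G4)** the final contradiction. -/
theorem false_of_inertia (hΔ : W.Δ ≠ 0) (hp2 : p ≠ 2) (hJ : JData N p T)
    (hirr : (resRep (toRat W) p (toRat_Δ_ne_zero hΔ)).IsIrreducible)
    (hpΔ : (p : ℤ) ∣ W.Δ) (hc : ¬ (p : ℤ) ∣ W.c₄) {A : ValuationSubring Qb}
    (hA : A.LiesOverPrime p) (V : AddSubgroup J) (hV : V ≠ ⊥)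
    (hstab : ∀ σ : Γℚ, ∀ x ∈ V, σ • x ∈ V) (hs : ∀ x ∈ V, p • x = 0 ∧ IsSys W p N T x)
    (hI : ∀ σ ∈ A.inertiaSubgroupIn ℚ, ∀ a : ℕ, (∀ z : Qb, z ^ p = 1 → σ z = z ^ a) →
      ∀ x ∈ V, σ • x = a • x) : False := by
  have hp := (Fact.out : p.Prime)
  obtain ⟨x, hx, hx0⟩ : ∃ x ∈ V, x ≠ 0 := by
    by_contra hcon
    push Not at hcon
    exact hV ((AddSubgroup.eq_bot_iff_forall V).mpr hcon)
  obtain ⟨τ, hτ, hτ1⟩ := exists_inertia_cycloChar p hp2 hA
  set ρ := resRep (toRat W) p (toRat_Δ_ne_zero hΔ) with hρ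
  set a : ZMod p := ((ExtCitation.cycloChar p τ : (ZMod p)ˣ) : ZMod p) with ha
  have ha1 : a ≠ 1 := fun h => hτ1 (Units.ext h)
  have hroot : ∀ z : Qb, z ^ p = 1 → τ z = z ^ a.val := fun z hz =>
    CycChar.apply_eq_pow_cycloChar p τ hz
  have hdet : LinearMap.det (ρ.ρ τ) = a := by
    rw [hρ, det_resRep_eq W p hΔ τ a.val hroot, ZMod.natCast_zmod_val]
  have htr : LinearMap.trace _ _ (ρ.ρ τ) = a + 1 := by
    rw [hρ, trace_inertia W hΔ hpΔ hc hA hτ, ← hρ, hdet]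
  have hmdet : ∀ σ, (rm ρ σ).det = LinearMap.det (ρ.ρ σ) := fun σ => by
    rw [rm_apply, LinearMap.det_toMatrix]
  have hmtr : ∀ σ, (rm ρ σ).trace = LinearMap.trace _ _ (ρ.ρ σ) := fun σ => by
    rw [rm_apply, LinearMap.trace_eq_matrix_trace (ZMod p) (rb ρ)]
  obtain ⟨v, hv, hstable⟩ := exists_stable_of_trace_two (rm ρ) (τ := τ) ha1
    (by rw [hmtr, htr]) (by rw [hmdet, hdet]) (fun g => by
      rw [hmtr]
      have hfix : (g * τ * g⁻¹ * τ⁻¹) • x = x := by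
        set y := τ⁻¹ • x with hy
        have hyV : y ∈ V := hstab _ x hx
        have h1 : τ • (g⁻¹ • y) = a.val • (g⁻¹ • y) := hI τ hτ a.val hroot _ (hstab _ y hyV)
        have h2 : τ • y = a.val • y := hI τ hτ a.val hroot _ hyV
        have h3 : g⁻¹ • (a.val • y) = a.val • (g⁻¹ • y) :=
          map_nsmul (DistribSMul.toAddMonoidHom J g⁻¹) a.val y
        rw [mul_smul, ← hy, mul_smul, mul_smul, h1, ← h3, smul_inv_smul, ← h2, hy, smul_inv_smul]
      have hdc : LinearMap.det (ρ.ρ (g * τ * g⁻¹ * τ⁻¹)) = 1 := by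
        have h1 : ∀ σ : Γℚ, LinearMap.det (ρ.ρ σ) * LinearMap.det (ρ.ρ σ⁻¹) = 1 := fun σ => by
          rw [← map_mul, ← map_mul, mul_inv_cancel, map_one, map_one]
        rw [map_mul, map_mul, map_mul, map_mul, map_mul, map_mul]
        linear_combination (LinearMap.det (ρ.ρ τ) * LinearMap.det (ρ.ρ τ⁻¹)) * h1 g + h1 τ
      obtain ⟨t, ht⟩ := ZMod.intCast_surjective
        (LinearMap.trace _ _ (ρ.ρ (g * τ * g⁻¹ * τ⁻¹)))
      have h1 := rel W hΔ hJ (g * τ * g⁻¹ * τ⁻¹) (t := t) (d := 1) ht (by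
        rw [← hρ, hdc]; norm_num) (hs x hx).1 (hs x hx).2
      rw [hfix, hfix, one_smul] at h1
      have h2 : (2 - t) • x = 0 := by
        rw [sub_smul, two_smul, ← h1]; abel
      have h3 : addOrderOf x = p := addOrderOf_eq_prime (hs x hx).1 hx0
      have h4 := addOrderOf_dvd_iff_zsmul_eq_zero.mpr h2
      rw [h3, ← ZMod.intCast_zmod_eq_zero_iff_dvd] at h4
      rw [← ht]
      push_cast at h4
      linear_combination -h4)
  obtain ⟨γ, hγ⟩ := rm_irr ρ hirr v hv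
  obtain ⟨c, hc'⟩ := hstable γ
  exact hγ c hc'

end Curve

end Fermat.Agent.MazurS
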