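import Fermat.Agent.LL.Unip

set_option autoImplicit false

/-!
# Group theory for the block GROUP
-/

open Matrix

namespace Fermat.Agent.MazurS

open Fermat.Agent.LL

section Trace

variable {F : Type*} [Field F] {Γ : Type*} [Group Γ]

/-- a group of `2 × 2` matrices, all of which are upper or lower triangular, is contained in one
of the two triangular groups. -/
theorem upper_or_lower (R : Γ →* Matrix (Fin 2) (Fin 2) F) (h : ∀ g, R g 0 1 * R g 1 0 = 0) :
    (∀ g, R g 1 0 = 0) ∨ (∀ g, R g 0 1 = 0) := by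
  by_contra hcon
  push Not at hcon
  obtain ⟨⟨g, hg⟩, ⟨k, hk⟩⟩ := hcon
  have hg' : R g 0 1 = 0 := (mul_eq_zero.mp (h g)).resolve_right hg
  have hk' : R k 1 0 = 0 := (mul_eq_zero.mp (h k)).resolve_left hk
  have hdet : ∀ g, (R g).det ≠ 0 := fun g h0 => by
    have h1 : (R g).det * (R g⁻¹).det = 1 := by
      rw [← Matrix.det_mul, ← map_mul, mul_inv_cancel, map_one, Matrix.det_one]
    rw [h0, zero_mul] at h1
    exact zero_ne_one h1
  have hdg := hdet g
  have hdk := hdet k
  rw [Matrix.det_fin_two, hg', zero_mul, sub_zero] at hdg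
  rw [Matrix.det_fin_two, hk', mul_zero, sub_zero] at hdk
  have h1 := h (g * k)
  rw [map_mul, Matrix.mul_apply, Matrix.mul_apply, Fin.sum_univ_two, Fin.sum_univ_two, hg', hk',
    zero_mul, mul_zero, add_zero, add_zero] at h1
  rcases mul_eq_zero.mp h1 with h2 | h2
  · rcases mul_eq_zero.mp h2 with h3 | h3
    · exact hdg (by rw [h3, zero_mul])
    · exact hk h3
  · rcases mul_eq_zero.mp h2 with h3 | h3
    · exact hg h3
    · exact hdk (by rw [h3, zero_mul])

theorem exists_col_ne_zero {N : Matrix (Fin 2) (Fin 2) F} (hN : N ≠ 0) : ∃ j, N.col j ≠ 0 := by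
  by_contra hcon
  push Not at hcon
  apply hN
  ext i j
  exact congrFun (hcon j) i

/-- Common eigenvector from commutator traces. -/
theorem exists_stable_of_trace_two (R : Γ →* Matrix (Fin 2) (Fin 2) F) {τ : Γ} {a : F}
    (ha : a ≠ 1) (htr : (R τ).trace = a + 1) (hdet : (R τ).det = a)
    (h : ∀ g, (R (g * τ * g⁻¹ * τ⁻¹)).trace = 2) :
    ∃ v : Fin 2 → F, v ≠ 0 ∧ ∀ γ, ∃ c : F, R γ *ᵥ v = c • v := by
  set T := R τ with hT
  have hCH : (T - a • 1) * (T - 1) = 0 := by
    have e : T = !![T 0 0, T 0 1; T 1 0, T 1 1] := Matrix.eta_fin_two T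
    rw [Matrix.trace_fin_two] at htr
    rw [Matrix.det_fin_two] at hdet
    ext i j
    rw [Matrix.mul_apply, Fin.sum_univ_two]
    fin_cases i <;> fin_cases j <;>
      simp [Matrix.sub_apply, Matrix.smul_apply, Matrix.one_apply] <;>
      first
        | linear_combination (T 0 0) * htr - hdet
        | linear_combination (T 0 1) * htr
        | linear_combination (T 1 0) * htr
        | linear_combination (T 1 1) * htr - hdet
  have hCH' : (T - 1) * (T - a • 1) = 0 := by
    rw [← hCH]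
    simp only [sub_mul, mul_sub, mul_one, one_mul, smul_mul_assoc, mul_smul_comm, smul_sub]
    abel
  have hne1 : T - 1 ≠ 0 := by
    intro h0
    rw [sub_eq_zero] at h0
    rw [h0, Matrix.det_one] at hdet
    exact ha hdet.symm
  have hnea : T - a • 1 ≠ 0 := by
    intro h0
    rw [sub_eq_zero] at h0
    rw [h0, Matrix.trace_smul, Matrix.trace_one, Fintype.card_fin, smul_eq_mul] at htr
    apply ha
    push_cast at htr
    linear_combination htr
  have hcol : ∀ (M N : Matrix (Fin 2) (Fin 2) F) (j : Fin 2), M * N = 0 → M *ᵥ N.col j = 0 := by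
    intro M N j h0
    have : M *ᵥ N.col j = (M * N).col j := by
      ext i
      simp [Matrix.mulVec, dotProduct, Matrix.mul_apply, Matrix.col_apply]
    rw [this, h0]
    rfl
  obtain ⟨j₁, hj₁⟩ := exists_col_ne_zero hne1
  obtain ⟨j₂, hj₂⟩ := exists_col_ne_zero hnea
  set u := (T - 1).col j₁ with hu
  set v := (T - a • 1).col j₂ with hv
  have hTu : T *ᵥ u = a • u := by
    have := hcol _ _ j₁ hCH
    rw [Matrix.sub_mulVec, Matrix.smul_mulVec, Matrix.one_mulVec, sub_eq_zero] at this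
    exact this
  have hTv : T *ᵥ v = v := by
    have := hcol _ _ j₂ hCH'
    rw [Matrix.sub_mulVec, Matrix.one_mulVec, sub_eq_zero] at this
    exact this
  have hind : u 0 * v 1 - u 1 * v 0 ≠ 0 := by
    intro h0
    obtain ⟨c, hc⟩ := exists_smul_of_det hj₂ (sub_eq_zero.mp h0)
    have h1 : T *ᵥ u = u := by rw [hc, Matrix.mulVec_smul, hTv]
    rw [hTu] at h1
    have h2 : (a - 1) • u = 0 := by rw [sub_smul, h1, one_smul, sub_self]
    exact hj₁ ((smul_eq_zero.mp h2).resolve_left (sub_ne_zero.mpr ha))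
  let P : Matrix (Fin 2) (Fin 2) F := !![u 0, v 0; u 1, v 1]
  have hPdet : P.det ≠ 0 := by
    rw [Matrix.det_fin_two_of]
    intro h0; apply hind; linear_combination h0
  have hPu : IsUnit P.det := isUnit_iff_ne_zero.mpr hPdet
  let D : Matrix (Fin 2) (Fin 2) F := !![a, 0; 0, 1]
  have hTP : T * P = P * D := by
    have hu0 := congrFun hTu 0
    have hu1 := congrFun hTu 1
    have hv0 := congrFun hTv 0
    have hv1 := congrFun hTv 1
    simp only [Matrix.mulVec, dotProduct, Fin.sum_univ_two, Pi.smul_apply, smul_eq_mul] at hu0 hu1 hv0 hv1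
    ext i j
    fin_cases i <;> fin_cases j <;>
      simp [P, D, Matrix.mul_apply, Fin.sum_univ_two]
    · rw [hu0]; ring
    · exact hv0
    · rw [hu1]; ring
    · exact hv1
  let R' : Γ →* Matrix (Fin 2) (Fin 2) F :=
    { toFun := fun g => P⁻¹ * R g * P
      map_one' := by rw [map_one, mul_one, Matrix.nonsing_inv_mul _ hPu]
      map_mul' := fun g k => by
        rw [map_mul]
        have : P⁻¹ * R g * P * (P⁻¹ * R k * P) = P⁻¹ * R g * (P * P⁻¹) * R k * P := by
          simp only [mul_assoc]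
        rw [this, Matrix.mul_nonsing_inv _ hPu, mul_one]
        simp only [mul_assoc] }
  have hR' : ∀ g, R' g = P⁻¹ * R g * P := fun g => rfl
  have hR'τ : R' τ = D := by
    rw [hR', mul_assoc, ← hT, hTP, ← mul_assoc, Matrix.nonsing_inv_mul _ hPu, one_mul]
  have htr' : ∀ g, (R' g).trace = (R g).trace := fun g => by
    rw [hR', Matrix.trace_mul_comm, ← mul_assoc, Matrix.mul_nonsing_inv _ hPu, one_mul]
  have hyz : ∀ g, R' g 0 1 * R' g 1 0 = 0 := by
    intro g
    have h1 : R' (g * τ * g⁻¹ * τ⁻¹) * R' τ * R' g = R' g * R' τ := by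
      rw [← map_mul, ← map_mul, ← map_mul]
      congr 1
      group
    have h2 := htr' (g * τ * g⁻¹ * τ⁻¹)
    rw [h g, Matrix.trace_fin_two] at h2
    rw [hR'τ] at h1
    set C := R' (g * τ * g⁻¹ * τ⁻¹)
    set M := R' g
    have e00 := congrFun (congrFun h1 0) 0
    have e01 := congrFun (congrFun h1 0) 1
    have e10 := congrFun (congrFun h1 1) 0
    have e11 := congrFun (congrFun h1 1) 1
    simp [D, Matrix.mul_apply, Fin.sum_univ_two] at e00 e01 e10 e11
    have hc1 : a * C 0 0 * (M 0 0 * M 1 1 - M 0 1 * M 1 0) = a * M 0 0 * M 1 1 - M 0 1 * M 1 0 := by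
      linear_combination M 1 1 * e00 - M 1 0 * e01
    have hc4 : C 1 1 * (M 0 0 * M 1 1 - M 0 1 * M 1 0) = M 0 0 * M 1 1 - a * M 0 1 * M 1 0 := by
      linear_combination M 0 0 * e11 - M 0 1 * e10
    have key : (a - 1) ^ 2 * (M 0 1 * M 1 0) = 0 := by
      linear_combination hc1 + a * hc4 - a * (M 0 0 * M 1 1 - M 0 1 * M 1 0) * h2
    exact (mul_eq_zero.mp key).resolve_left (pow_ne_zero 2 (sub_ne_zero.mpr ha))
  have hRP : ∀ g, R g * P = P * R' g := fun g => by
    rw [hR', ← mul_assoc, ← mul_assoc, Matrix.mul_nonsing_inv _ hPu, one_mul]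
  rcases upper_or_lower R' hyz with h1 | h1
  · refine ⟨u, hj₁, fun γ => ⟨R' γ 0 0, ?_⟩⟩
    have e := hRP γ
    ext i
    have e0 := congrFun (congrFun e i) 0
    simp only [Matrix.mul_apply, Fin.sum_univ_two, h1 γ, mul_zero, add_zero] at e0
    fin_cases i
    · simpa [P, Matrix.mulVec, dotProduct, Fin.sum_univ_two, mul_comm] using e0
    · simpa [P, Matrix.mulVec, dotProduct, Fin.sum_univ_two, mul_comm] using e0
  · refine ⟨v, hj₂, fun γ => ⟨R' γ 1 1, ?_⟩⟩
    have e := hRP γ
    ext i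
    have e0 := congrFun (congrFun e i) 1
    simp only [Matrix.mul_apply, Fin.sum_univ_two, h1 γ, mul_zero, zero_add] at e0
    fin_cases i
    · simpa [P, Matrix.mulVec, dotProduct, Fin.sum_univ_two, mul_comm] using e0
    · simpa [P, Matrix.mulVec, dotProduct, Fin.sum_univ_two, mul_comm] using e0

end Trace

section Fixed

variable {Γ J : Type*} [Group Γ] [AddCommGroup J] [DistribMulAction Γ J] {p : ℕ} [Fact p.Prime]

theorem pow_smul_of_unip {σ : Γ} {x : J} (h : σ • σ • x - (2 : ℤ) • σ • x + x = 0) (n : ℕ) :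
    σ ^ n • x = x + n • (σ • x - x) := by
  have h1 : σ • (σ • x - x) = σ • x - x := by
    rw [smul_sub]
    have : σ • σ • x - σ • x - (σ • x - x) = 0 := by rw [← h]; abel
    exact sub_eq_zero.mp this
  induction n with
  | zero => simp
  | succ n ih =>
    have h2 : σ • (n • (σ • x - x)) = n • (σ • (σ • x - x)) :=
      map_nsmul (DistribSMul.toAddMonoidHom J σ) n (σ • x - x)
    rw [pow_succ', mul_smul, ih, smul_add, h2, h1, succ_nsmul]
    abel

/-- a subgroup acting unipotently on a finite `p`-torsion module has a fixed vector. -/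
theorem exists_fixed (V : AddSubgroup J) [Finite V] (hp : ∀ x ∈ V, p • x = 0) (H : Subgroup Γ)
    (hstab : ∀ σ ∈ H, ∀ x ∈ V, σ • x ∈ V)
    (huni : ∀ σ ∈ H, ∀ x ∈ V, σ • σ • x - (2 : ℤ) • σ • x + x = 0)
    {x0 : J} (hx0 : x0 ∈ V) (h0 : x0 ≠ 0) : ∃ x ∈ V, x ≠ 0 ∧ ∀ σ ∈ H, σ • x = x := by
  let f : H →* Equiv.Perm V :=
    { toFun := fun h =>
        { toFun := fun v => ⟨(h : Γ) • (v : J), hstab h h.2 v v.2⟩
          invFun := fun v => ⟨(h : Γ)⁻¹ • (v : J), hstab _ (H.inv_mem h.2) v v.2⟩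
          left_inv := fun v => Subtype.ext (inv_smul_smul (h : Γ) (v : J))
          right_inv := fun v => Subtype.ext (smul_inv_smul (h : Γ) (v : J)) }
      map_one' := Equiv.ext fun v => Subtype.ext (one_smul Γ (v : J))
      map_mul' := fun h k => Equiv.ext fun v => Subtype.ext (mul_smul (h : Γ) (k : Γ) (v : J)) }
  have hf : ∀ (h : H) (v : V), ((f h v : V) : J) = (h : Γ) • (v : J) := fun _ _ => rfl
  have hP : IsPGroup p f.range := by
    rintro ⟨g, h, rfl⟩
    refine ⟨1, Subtype.ext ?_⟩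
    rw [pow_one, SubmonoidClass.coe_pow, ← map_pow]
    refine Equiv.ext fun v => Subtype.ext ?_
    rw [hf, SubmonoidClass.coe_pow, pow_smul_of_unip (huni h h.2 v v.2) p]
    have h1 : (h : Γ) • (v : J) - v ∈ V := V.sub_mem (hstab h h.2 v v.2) v.2
    rw [hp _ h1, add_zero]
    rfl
  have hx0' : (⟨x0, hx0⟩ : V) ≠ 0 := fun h => h0 (congrArg Subtype.val h)
  have hdvd : p ∣ Nat.card V := by
    have h1 : addOrderOf (⟨x0, hx0⟩ : V) = p :=
      addOrderOf_eq_prime (Subtype.ext (hp x0 hx0)) hx0'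
    rw [← h1]
    exact addOrderOf_dvd_natCard _
  obtain ⟨b, hb, hb0⟩ := hP.exists_fixed_point_of_prime_dvd_card_of_fixed_point V hdvd (a := 0)
    (by
      rintro ⟨g, h, rfl⟩
      apply Subtype.ext
      change (h : Γ) • (0 : J) = 0
      exact smul_zero _)
  refine ⟨b, b.2, fun h => hb0 (Subtype.ext h.symm), fun σ hσ => ?_⟩
  have h1 := hb ⟨f ⟨σ, hσ⟩, ⟨σ, hσ⟩, rfl⟩
  exact congrArg Subtype.val h1

end Fixed

end Fermat.Agent.MazurS
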