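import Mathlib

/-!
# Valuation theory for the field of `E[p]` at a multiplicative place, `p ∣ v_p(Δ)`
-/

set_option autoImplicit false

namespace Fermat.Agent.MazurS

theorem add_pow_prime_two {R : Type*} [CommRing R] {p : ℕ} (hp : p.Prime) (x y : R) :
    ∃ c : R, (x + y) ^ p = x ^ p + y ^ p + p * x * y * (x ^ (p - 2) + y * c) := by
  classical
  have h2 := hp.two_le
  rw [add_pow_prime_eq hp]
  have h1 : p - 1 ∈ Finset.Ioo 0 p := by rw [Finset.mem_Ioo]; omega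
  rw [← Finset.add_sum_erase _ _ h1]
  have h3 : ∀ k ∈ (Finset.Ioo 0 p).erase (p - 1),
      y ∣ x ^ (k - 1) * y ^ (p - k - 1) * ((p.choose k / p : ℕ) : R) := by
    intro k hk
    rw [Finset.mem_erase, Finset.mem_Ioo] at hk
    exact Dvd.dvd.mul_right (Dvd.dvd.mul_left (dvd_pow_self _ (by omega)) _) _
  obtain ⟨c, hc⟩ := Finset.dvd_sum h3
  refine ⟨c, ?_⟩
  rw [hc]
  have h4 : p.choose (p - 1) / p = 1 := by
    have h5 : p.choose (p - 1) = p := by
      obtain ⟨m, rfl⟩ : ∃ m, p = m + 1 := ⟨p - 1, by omega⟩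
      simp
    rw [h5, Nat.div_self hp.pos]
  have h6 : p - (p - 1) - 1 = 0 := by omega
  have h7 : p - 1 - 1 = p - 2 := by omega
  rw [h4, h6, h7]
  simp

section Abs

variable {K Γ : Type*} [Field K] [LinearOrderedCommGroupWithZero Γ] (v : Valuation K Γ) {p : ℕ}

/-- values of `ζ - ζ'` for `p`-th roots of unity -/
theorem v_sub_roots (hp : p.Prime) {T : Γ}
    (hT : ∀ ζ : K, ζ ^ p = 1 → ζ ≠ 1 → v (1 - ζ) = T) {ζ ζ' : K} (hζ : ζ ^ p = 1)
    (hζ' : ζ' ^ p = 1) (hne : ζ ≠ ζ') : v (ζ - ζ') = T := by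
  have h0 : ζ ≠ 0 := by rintro rfl; rw [zero_pow hp.ne_zero] at hζ; exact zero_ne_one hζ
  have h1 : v ζ = 1 := by
    have h2 := congrArg v hζ
    rw [map_pow, map_one] at h2
    exact (pow_eq_one_iff.mp h2).resolve_right hp.ne_zero
  have h3 : ζ - ζ' = ζ * (1 - ζ' / ζ) := by field_simp
  rw [h3, map_mul, h1, one_mul]
  refine hT _ (by rw [div_pow, hζ, hζ', div_one]) ?_
  intro h4
  rw [div_eq_one_iff_eq h0] at h4
  exact hne h4.symm

/-- approximation of `ω` by a root of unity -/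
theorem exists_root_near (hp : p.Prime) {ζ₀ : K} (hζ₀ : IsPrimitiveRoot ζ₀ p) {T : Γ}
    (hT0 : T ≠ 0) (hT : ∀ ζ : K, ζ ^ p = 1 → ζ ≠ 1 → v (1 - ζ) = T) {ω : K}
    (hω : v (ω ^ p - 1) ≤ (T ^ (p - 1)) ^ 2) :
    ∃ ζ : K, ζ ^ p = 1 ∧ v (ω - ζ) ≤ T ^ (p - 1) := by
  classical
  set S := Polynomial.nthRootsFinset p (1 : K) with hS
  have hmem : ∀ ζ, ζ ∈ S ↔ ζ ^ p = 1 := fun ζ => by
    rw [hS, Polynomial.mem_nthRootsFinset hp.pos]
  have hcard : S.card = p := hζ₀.card_nthRootsFinset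
  have hne : S.Nonempty := ⟨1, by rw [hmem, one_pow]⟩
  obtain ⟨ζ, hζS, hmin⟩ := Finset.exists_min_image S (fun ζ => v (ω - ζ)) hne
  have hζ := (hmem ζ).1 hζS
  refine ⟨ζ, hζ, ?_⟩
  have h1 : ω ^ p - 1 = ∏ ζ ∈ S, (ω - ζ) := by
    have h2 := congrArg (Polynomial.eval ω) (Polynomial.X_pow_sub_one_eq_prod hp.pos hζ₀)
    rw [Polynomial.eval_prod] at h2
    simpa using h2
  rw [h1, map_prod, ← Finset.mul_prod_erase _ _ hζS] at hω
  have h3 : T ^ (p - 1) ≤ ∏ ζ' ∈ S.erase ζ, v (ω - ζ') := by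
    have h4 : (S.erase ζ).card = p - 1 := by rw [Finset.card_erase_of_mem hζS, hcard]
    rw [← h4, ← Finset.prod_const]
    refine Finset.prod_le_prod' fun ζ' hζ' => ?_
    rw [Finset.mem_erase] at hζ'
    rw [← v_sub_roots v hp hT hζ ((hmem _).1 hζ'.2) (Ne.symm hζ'.1)]
    have h5 : ζ - ζ' = (ω - ζ') - (ω - ζ) := by ring
    rw [h5]
    exact (v.map_sub _ _).trans (max_le le_rfl (hmin _ hζ'.2))
  have h6 : v (ω - ζ) * T ^ (p - 1) ≤ (T ^ (p - 1)) ^ 2 :=
    (mul_le_mul_right h3 _).trans hω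
  rw [sq] at h6
  exact le_of_mul_le_mul_right h6 (zero_lt_iff.2 (pow_ne_zero _ hT0))

end Abs

section CaseA

variable {K : Type*} [Field K] {A : ValuationSubring K} {p : ℕ}

theorem v_add_le {x y : K} {T : A.ValueGroup} (hx : A.valuation x ≤ T) (hy : A.valuation y ≤ T) :
    A.valuation (x + y) ≤ T := (A.valuation.map_add x y).trans (max_le hx hy)

theorem v_sub_le {x y : K} {T : A.ValueGroup} (hx : A.valuation x ≤ T) (hy : A.valuation y ≤ T) :
    A.valuation (x - y) ≤ T := (A.valuation.map_sub x y).trans (max_le hx hy)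

theorem v_mul_le {x y : K} {T : A.ValueGroup} (hx : A.valuation x ≤ T) (hy : A.valuation y ≤ 1) :
    A.valuation (x * y) ≤ T := by
  rw [map_mul]; exact mul_le_of_le_of_le_one hx hy

theorem v_pow_sub_one {x : K} {T : A.ValueGroup} (hx1 : A.valuation x ≤ 1)
    (hx : A.valuation (x - 1) ≤ T) (r : ℕ) : A.valuation (x ^ r - 1) ≤ T := by
  rw [← geom_sum_mul, mul_comm]
  refine v_mul_le hx ?_
  rw [A.valuation_le_one_iff]
  exact sum_mem fun i _ => pow_mem ((A.valuation_le_one_iff _).1 hx1) _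

/-- **Case A** -/
theorem caseA (hp : p.Prime) {K₀ L : Subfield K} (hKL : K₀ ≤ L) {T : A.ValueGroup}
    (hK₀ : ∀ x ∈ K₀, x ≠ 0 → ∃ j : ℤ, A.valuation x = A.valuation (p : K) ^ j)
    (hL : ∀ e ∈ L, A.valuation e < 1 → A.valuation e ^ p ≤ T)
    (hlift : ∀ x : K, A.valuation x ≤ 1 → ∃ x₀ ∈ K₀, A.valuation (x - x₀) < 1)
    (hp0 : (p : K) ≠ 0) (hP1 : A.valuation (p : K) < 1)
    (hT : T ^ (p - 1) = A.valuation (p : K))
    {w u w₀ : K} (hw : w ∈ L) (hwu : A.valuation w = 1) (hu : u ∈ K₀)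
    (hwp : A.valuation (w ^ p - u) ≤ A.valuation (p : K) ^ 2)
    (hw₀ : w₀ ∈ K₀) (hww₀ : A.valuation (w - w₀) < 1)
    (hD : A.valuation (u - w₀ ^ p) = A.valuation (p : K))
    {a η ε : K} {m : ℤ} (ha0 : a ≠ 0) (ha : a ∈ L) (hη : η ∈ K₀) (hη1 : A.valuation η = 1)
    (hε : A.valuation (ε - 1) ≤ T) (haη : a ^ p = (p : K) ^ m * η * ε) : (p : ℤ) ∣ m := by
  by_contra hpm
  have : Fact p.Prime := ⟨hp⟩
  obtain ⟨v, hv⟩ : ∃ v, v = A.valuation := ⟨_, rfl⟩
  set P := A.valuation (p : K) with hP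
  have hP0 : P ≠ 0 := by rw [hP, Ne, map_eq_zero]; exact hp0
  have h2 := hp.two_le
  have hT0 : T ≠ 0 := by
    rintro rfl
    rw [zero_pow (by omega)] at hT
    exact hP0 hT.symm
  have hT1 : T < 1 := by
    by_contra h
    push Not at h
    have h1 := one_le_pow₀ (n := p - 1) h
    rw [hT] at h1
    exact absurd hP1 (not_lt.2 h1)
  have hPT : P ≤ T := by
    rw [← hT]; exact pow_le_of_le_one zero_le hT1.le (by omega)
  have hεu : A.valuation ε = 1 := by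
    have h1 : ε = 1 + (ε - 1) := by ring
    rw [h1]
    exact A.valuation.map_one_add_of_lt (hε.trans_lt hT1)
  -- reduction to `m = 1`
  obtain ⟨r, s, hrs⟩ : ∃ (r : ℕ) (s : ℤ), (r : ℤ) * m = 1 + p * s := by
    have h1 : ((m : ℤ) : ZMod p) ≠ 0 := by
      rw [Ne, ZMod.intCast_zmod_eq_zero_iff_dvd]; exact hpm
    refine ⟨((m : ZMod p)⁻¹).val, ?_⟩
    have h3 : (((((m : ZMod p)⁻¹).val : ℤ) * m - 1 : ℤ) : ZMod p) = 0 := by
      push_cast
      rw [ZMod.natCast_zmod_val, inv_mul_cancel₀ h1, sub_self]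
    rw [ZMod.intCast_zmod_eq_zero_iff_dvd] at h3
    obtain ⟨s, hs⟩ := h3
    exact ⟨s, by linarith⟩
  set a' := a ^ r * (p : K) ^ (-s) with ha'
  have ha'L : a' ∈ L := mul_mem (pow_mem ha r) (zpow_mem (natCast_mem L p) _)
  have ha'0 : a' ≠ 0 := mul_ne_zero (pow_ne_zero _ ha0) (zpow_ne_zero _ hp0)
  have ha'p : a' ^ p = p * η ^ r * ε ^ r := by
    have e1 : a' ^ p = (a ^ p) ^ r * ((p : K) ^ (-s)) ^ p := by
      rw [ha', mul_pow, ← pow_mul, ← pow_mul, mul_comm r p]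
    have e2 : ((p : K) ^ m) ^ r * ((p : K) ^ (-s)) ^ p = p := by
      rw [← zpow_natCast, ← zpow_natCast, ← zpow_mul, ← zpow_mul, ← zpow_add₀ hp0,
        show m * (r : ℤ) + -s * (p : ℤ) = 1 by linarith, zpow_one]
    rw [e1, haη, mul_pow, mul_pow]
    linear_combination η ^ r * ε ^ r * e2
  have hη' : A.valuation (η ^ r) = 1 := by rw [map_pow, hη1, one_pow]
  have hε'u : A.valuation (ε ^ r) = 1 := by rw [map_pow, hεu, one_pow]
  have hε' : A.valuation (ε ^ r - 1) ≤ T := v_pow_sub_one hεu.le hε r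
  have hη'K : η ^ r ∈ K₀ := pow_mem hη r
  generalize η ^ r = η' at *
  generalize ε ^ r = ε' at *
  clear_value a'
  set B := A.valuation a' with hB
  have hBp : B ^ p = P := by
    rw [hB, ← map_pow, ha'p, map_mul, map_mul, hη', hε'u, mul_one, mul_one]
  have hB0 : B ≠ 0 := by rw [hB, Ne, map_eq_zero]; exact ha'0
  have hB1 : B < 1 := by
    by_contra h
    push Not at h
    have h1 := one_le_pow₀ (n := p) h
    rw [hBp] at h1
    exact absurd hP1 (not_lt.2 h1)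
  have hTB : T < B := by
    by_contra h
    push Not at h
    have h1 : P ≤ B * P := by
      conv_lhs => rw [← hBp]
      obtain ⟨k, rfl⟩ : ∃ k, p = k + 1 := ⟨p - 1, by omega⟩
      rw [pow_succ', ← hT]
      exact mul_le_mul_right (pow_le_pow_left₀ zero_le h _) _
    have h3 : B * P < 1 * P := mul_lt_mul_of_pos_right hB1 (zero_lt_iff.2 hP0)
    rw [one_mul] at h3
    exact absurd h3 (not_lt.2 h1)
  have hBT : B ^ 2 ≤ T := by
    refine le_of_pow_le_pow_left₀ (n := p - 1) (by omega) zero_le ?_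
    rw [hT, ← hBp, ← pow_mul]
    exact pow_le_pow_of_le_one zero_le hB1.le (by omega)
  -- the element `β`
  have hw₀1 : A.valuation w₀ = 1 := by
    have h1 : w₀ = w - (w - w₀) := by ring
    rw [h1, ← hwu]
    exact Valuation.map_sub_eq_of_lt_left _ (by rw [hwu]; exact hww₀)
  obtain ⟨β, hβ⟩ : ∃ β, β = w - w₀ := ⟨_, rfl⟩
  rw [← hβ] at hww₀
  have hβL : β ∈ L := by rw [hβ]; exact sub_mem hw (hKL hw₀)
  obtain ⟨c, hc, hwc⟩ : ∃ c : K, A.valuation c ≤ 1 ∧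
      w ^ p = w₀ ^ p + β ^ p + p * w₀ * β * (w₀ ^ (p - 2) + β * c) := by
    obtain ⟨c, hc⟩ := add_pow_prime_two (R := A) hp ⟨w₀, (A.valuation_le_one_iff _).1 hw₀1.le⟩
      ⟨β, (A.valuation_le_one_iff _).1 hww₀.le⟩
    refine ⟨c, (A.valuation_le_one_iff _).2 c.2, ?_⟩
    have h1 := congrArg Subtype.val hc
    push_cast at h1
    rw [← h1, hβ]
    congr 1
    ring
  have hβ1 : A.valuation β ≤ 1 := hww₀.le
  have hr1 : A.valuation (w₀ ^ (p - 2) + β * c) ≤ 1 :=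
    v_add_le (by rw [map_pow, hw₀1, one_pow]) (v_mul_le hβ1 hc)
  have hβp : A.valuation β ^ p = P := by
    have e1 : β ^ p = (u - w₀ ^ p) + ((w ^ p - u) - p * (β * (w₀ * (w₀ ^ (p - 2) + β * c)))) := by
      linear_combination -hwc
    have hPP : P ^ 2 < P := by
      rw [sq]
      conv_rhs => rw [← one_mul P]
      exact mul_lt_mul_of_pos_right hP1 (zero_lt_iff.2 hP0)
    have e2 : A.valuation ((w ^ p - u) - p * (β * (w₀ * (w₀ ^ (p - 2) + β * c)))) < P := by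
      refine (A.valuation.map_sub _ _).trans_lt (max_lt (hwp.trans_lt hPP) ?_)
      rw [map_mul]
      conv_rhs => rw [← mul_one P]
      refine mul_lt_mul_of_pos_left ?_ (zero_lt_iff.2 hP0)
      exact (v_mul_le le_rfl (v_mul_le hw₀1.le hr1)).trans_lt hww₀
    rw [← map_pow, e1, A.valuation.map_add_eq_of_lt_left (by rw [hD]; exact e2), hD]
  have hβB : A.valuation β = B := by
    rw [← hBp] at hβp
    exact (pow_left_inj₀ zero_le zero_le hp.ne_zero).1 hβp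
  -- the quotient
  obtain ⟨b, hb⟩ : ∃ b, b = β / a' := ⟨_, rfl⟩
  have hbL : b ∈ L := by rw [hb]; exact div_mem hβL ha'L
  have hb1 : A.valuation b = 1 := by rw [hb, map_div₀, hβB, div_self hB0]
  have hbp : b ^ p * (p * η' * ε') = β ^ p := by
    rw [hb, div_pow, ← ha'p, div_mul_cancel₀ _ (pow_ne_zero _ ha'0)]
  obtain ⟨b₀, hb₀, hbb₀⟩ := hlift b hb1.le
  have hb₀1 : A.valuation b₀ ≤ 1 := by
    have h1 : b₀ = b - (b - b₀) := by ring
    rw [h1]
    exact v_sub_le hb1.le hbb₀.le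
  have hbT : A.valuation (b ^ p - b₀ ^ p) ≤ T := by
    obtain ⟨c', hc'⟩ := exists_add_pow_prime_eq (R := A) hp ⟨b₀, (A.valuation_le_one_iff _).1 hb₀1⟩
      ⟨b - b₀, (A.valuation_le_one_iff _).1 hbb₀.le⟩
    have h1 := congrArg Subtype.val hc'
    push_cast at h1
    have h3 : b ^ p - b₀ ^ p = (b - b₀) ^ p + p * (b₀ * ((b - b₀) * c')) := by
      have h4 : b₀ + (b - b₀) = b := by ring
      rw [h4] at h1
      linear_combination h1
    rw [h3]
    refine v_add_le ?_ ?_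
    · rw [map_pow]
      exact hL _ (sub_mem hbL (hKL hb₀)) hbb₀
    · exact v_mul_le hPT (v_mul_le hb₀1 (v_mul_le hbb₀.le ((A.valuation_le_one_iff _).2 c'.2)))
  -- the element of `K₀`
  obtain ⟨z, hz⟩ : ∃ z, z = η' * b₀ ^ p - (u - w₀ ^ p) / p := ⟨_, rfl⟩
  have hzK : z ∈ K₀ := by
    rw [hz]
    exact sub_mem (mul_mem hη'K (pow_mem hb₀ p))
      (div_mem (sub_mem hu (pow_mem hw₀ p)) (natCast_mem K₀ p))
  have hw₀p : w₀ * w₀ ^ (p - 2) = w₀ ^ (p - 1) := by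
    rw [← pow_succ']; congr 1; omega
  have hzβ : A.valuation (z + w₀ ^ (p - 1) * β) ≤ T := by
    have e1 : z + w₀ ^ (p - 1) * β = (b ^ p - b₀ ^ p) * (-η') + (ε' - 1) * (-(η' * b ^ p)) +
        ((w ^ p - u) / p - β ^ 2 * (w₀ * c)) := by
      have e2 : η' * ε' * b ^ p = β ^ p / p := by
        rw [← hbp]
        field_simp
      have e3 : β ^ p / p = (w ^ p - u) / p + (u - w₀ ^ p) / p -
          w₀ * β * (w₀ ^ (p - 2) + β * c) := by
        rw [hwc]
        field_simp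
        ring
      rw [hz, ← hw₀p]
      linear_combination e2 + e3
    rw [e1]
    refine v_add_le (v_add_le (v_mul_le hbT ?_) (v_mul_le hε' ?_)) (v_sub_le ?_ (v_mul_le ?_ ?_))
    · rw [A.valuation.map_neg, hη']
    · rw [A.valuation.map_neg, map_mul, hη', map_pow, hb1, one_pow, one_mul]
    · rw [map_div₀]
      refine le_trans ?_ hPT
      rw [div_le_iff₀ (zero_lt_iff.2 hP0), ← sq]
      exact hwp
    · rw [map_pow, hβB]; exact hBT
    · exact v_mul_le hw₀1.le hc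
  have hvz : A.valuation z = B := by
    have h1 : A.valuation (w₀ ^ (p - 1) * β) = B := by
      rw [map_mul, map_pow, hw₀1, one_pow, one_mul, hβB]
    have h3 : z = (z + w₀ ^ (p - 1) * β) - w₀ ^ (p - 1) * β := by ring
    rw [h3, A.valuation.map_sub_eq_of_lt_right (by rw [h1]; exact hzβ.trans_lt hTB), h1]
  have hz0 : z ≠ 0 := by
    rintro h0
    rw [h0, map_zero] at hvz
    exact hB0 hvz.symm
  obtain ⟨j, hj⟩ := hK₀ z hzK hz0
  rw [hvz] at hj
  rw [hj, ← zpow_natCast, ← zpow_mul] at hBp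
  have h5 : j * (p : ℤ) = 1 := by
    have := zpow_right_injective₀ (zero_lt_iff.2 hP0) hP1.ne
      (show P ^ (j * (p : ℤ)) = P ^ (1 : ℤ) by rw [hBp, zpow_one])
    exact this
  have h6 : (p : ℤ) ∣ 1 := ⟨j, by rw [← h5]; ring⟩
  have h7 : p ∣ 1 := by exact_mod_cast h6
  exact hp.one_lt.ne' (Nat.dvd_one.1 h7)

end CaseA

end Fermat.Agent.MazurS
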