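import Fermat.Agent.MazurS.PeuAbs
import Fermat.Agent.Peu.Gal
import Fermat.Agent.MazurP.Slopes
import Fermat.Agent.QComp.Inert

/-!
# The field of `E[p]` is peu ramifiée at a multiplicative place with `p ∣ v_p(Δ)`
-/

set_option autoImplicit false
set_option linter.unusedSectionVars false
set_option linter.style.haveILetI false

namespace Fermat.Agent.MazurS

open WeierstrassCurve WeierstrassCurve.Affine Fermat.Agent.DivPoly Fermat.Agent.Wp
open Fermat.Agent.Pts Fermat.Agent.ModFn Fermat.Agent.EC Fermat.Agent.MazurP Fermat.Agent.Peu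
open Polynomial
open scoped Pointwise

local notation "Qb" => AlgebraicClosure ℚ
local notation "Γℚ" => (AlgebraicClosure ℚ ≃ₐ[ℚ] AlgebraicClosure ℚ)

theorem card_torsion_le {G : Type*} [AddCommGroup G] {p : ℕ} (hp : 0 < p) {P₀ : G}
    (hpP₀ : p • P₀ = 0) (h : ∀ Q : G, p • Q = 0 → ∃ k : ℤ, Q = k • P₀) :
    Nat.card {Q : G // p • Q = 0} ≤ p := by
  let f : Fin p → {Q : G // p • Q = 0} := fun i =>
    ⟨(i : ℕ) • P₀, by rw [smul_comm, hpP₀, smul_zero]⟩
  have hf : Function.Surjective f := by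
    rintro ⟨Q, hQ⟩
    obtain ⟨k, hk⟩ := h Q hQ
    have hp0 : (p : ℤ) ≠ 0 := by exact_mod_cast hp.ne'
    have h2 := Int.emod_nonneg k hp0
    have h3 := Int.emod_lt_of_pos k (by exact_mod_cast hp : (0 : ℤ) < p)
    refine ⟨⟨(k % p).toNat, by omega⟩, Subtype.ext ?_⟩
    change (k % p).toNat • P₀ = Q
    have h4 : ((k % p).toNat : ℤ) • P₀ = k • P₀ := by
      rw [Int.toNat_of_nonneg h2]
      conv_rhs => rw [← Int.emod_add_mul_ediv k p, add_smul, mul_comm, mul_smul, natCast_zsmul,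
        hpP₀, smul_zero, add_zero]
    rw [natCast_zsmul] at h4
    rw [h4, hk]
  have h2 := Nat.card_le_card_of_surjective f hf
  rwa [Nat.card_eq_fintype_card (α := Fin p), Fintype.card_fin] at h2

section Gen

variable {A : ValuationSubring Qb} {p : ℕ} [hpF : Fact p.Prime]

theorem v_of_AU {x : Qb} (hx : x ≠ 0) (h : AU A x) : A.valuation x = 1 := by
  apply le_antisymm ((A.valuation_le_one_iff _).2 h.1)
  have h1 := (A.valuation_le_one_iff _).2 h.2
  rw [map_inv₀] at h1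
  have h2 : A.valuation x ≠ 0 := by rw [Ne, map_eq_zero]; exact hx
  exact (inv_le_one₀ (zero_lt_iff.2 h2)).1 h1

/-- values on the fixed field of inertia -/
theorem exists_zpow_K₀ (hA : A.LiesOverPrime p) {x : Qb} (hx : x ≠ 0)
    (h : ∀ σ ∈ A.inertiaSubgroupIn ℚ, σ x = x) :
    ∃ j : ℤ, A.valuation x = A.valuation (p : Qb) ^ j := by
  have hp0 : (p : Qb) ≠ 0 := by exact_mod_cast hpF.out.ne_zero
  obtain ⟨j, h1, h2⟩ := CFT.Loc.exists_zpow_of_inertia hpF.out hA hx h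
  refine ⟨j, ?_⟩
  have h3 := v_of_AU (A := A) (mul_ne_zero hx (zpow_ne_zero _ hp0)) ⟨h1, h2⟩
  rw [map_mul, map_zpow₀, zpow_neg] at h3
  have h4 : A.valuation (p : Qb) ^ j ≠ 0 := zpow_ne_zero _ (by rw [Ne, map_eq_zero]; exact hp0)
  exact (mul_inv_eq_one₀ h4).1 h3

theorem exists_zpow_index (hA : A.LiesOverPrime p) {U : Subgroup Γℚ}
    (hfin : (U.subgroupOf (A.inertiaSubgroupIn ℚ)).FiniteIndex) {x : Qb} (hx : x ≠ 0)
    (h : ∀ σ ∈ U, σ x = x) :
    ∃ j : ℤ, A.valuation x ^ (U.subgroupOf (A.inertiaSubgroupIn ℚ)).index =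
      A.valuation (p : Qb) ^ j := by
  have hp0 : (p : Qb) ≠ 0 := by exact_mod_cast hpF.out.ne_zero
  obtain ⟨j, hj⟩ := exists_zpow_of_finiteIndex hA hfin hx h
  refine ⟨j, ?_⟩
  have h3 := v_of_AU (A := A) (mul_ne_zero (pow_ne_zero _ hx) (zpow_ne_zero _ hp0)) hj
  rw [map_mul, map_zpow₀, zpow_neg, map_pow] at h3
  have h4 : A.valuation (p : Qb) ^ j ≠ 0 := zpow_ne_zero _ (by rw [Ne, map_eq_zero]; exact hp0)
  exact (mul_inv_eq_one₀ h4).1 h3

/-- the value of `1 - ζ` -/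
theorem v_one_sub_root {ζ : Qb} (hζ1 : ζ ^ p = 1) (hζ2 : ζ ≠ 1) :
    A.valuation (1 - ζ) ^ (p - 1) = A.valuation (p : Qb) := by
  classical
  haveI : NeZero p := ⟨hpF.out.ne_zero⟩
  have hp0 : (p : Qb) ≠ 0 := by exact_mod_cast hpF.out.ne_zero
  have hζ : IsPrimitiveRoot ζ p := by
    rw [IsPrimitiveRoot.iff_orderOf]
    exact orderOf_eq_prime hζ1 hζ2
  have h0 : (1 : Qb) - ζ ≠ 0 := fun h => hζ2 (sub_eq_zero.1 h).symm
  have h1 : (p : Qb) = ∏ μ ∈ primitiveRoots p Qb, (1 - μ) := by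
    have h2 := congrArg (Polynomial.eval 1) (cyclotomic_eq_prod_X_sub_primitiveRoots hζ)
    rw [Polynomial.eval_one_cyclotomic_prime] at h2
    rw [h2, Polynomial.eval_prod]
    refine Finset.prod_congr rfl fun μ _ => ?_
    simp
  have hcard : (primitiveRoots p Qb).card = p - 1 := by
    rw [hζ.card_primitiveRoots, Nat.totient_prime hpF.out]
  have h3 : AU A (∏ μ ∈ primitiveRoots p Qb, ((1 - μ) / (1 - ζ))) := by
    refine AU.prod fun μ hμ => ?_
    have hμ' := isPrimitiveRoot_of_mem_primitiveRoots hμ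
    exact ⟨au_div_root hζ hμ', by rw [inv_div]; exact au_div_root hμ' hζ⟩
  rw [Finset.prod_div_distrib, Finset.prod_const, hcard, ← h1] at h3
  have h4 := v_of_AU (div_ne_zero hp0 (pow_ne_zero _ h0)) h3
  rw [map_div₀, map_pow] at h4
  have h5 : A.valuation (1 - ζ) ^ (p - 1) ≠ 0 := pow_ne_zero _ (by rw [Ne, map_eq_zero]; exact h0)
  exact ((div_eq_one_iff_eq h5).1 h4).symm

/-- the subgroup of inertia acting trivially on `μ_p` has index prime to `p` -/
theorem exists_mu_subgroup (A : ValuationSubring Qb) (p : ℕ) [hpF : Fact p.Prime] :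
    ∃ V : Subgroup Γℚ, (∀ σ, σ ∈ V → σ ∈ A.inertiaSubgroupIn ℚ ∧ ∀ ζ : Qb, ζ ^ p = 1 → σ ζ = ζ) ∧
      (V.subgroupOf (A.inertiaSubgroupIn ℚ)).FiniteIndex ∧
      ¬ p ∣ (V.subgroupOf (A.inertiaSubgroupIn ℚ)).index := by
  classical
  haveI : NeZero p := ⟨hpF.out.ne_zero⟩
  haveI : NeZero (p : Qb) := ⟨by exact_mod_cast hpF.out.ne_zero⟩
  obtain ⟨ζ₀, hζ₀⟩ := HasEnoughRootsOfUnity.exists_primitiveRoot Qb p
  let f : A.inertiaSubgroupIn ℚ →* (ZMod p)ˣ :=
    (hζ₀.autToPow ℚ).comp (A.inertiaSubgroupIn ℚ).subtype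
  let V : Subgroup Γℚ := f.ker.map (A.inertiaSubgroupIn ℚ).subtype
  have hV : V.subgroupOf (A.inertiaSubgroupIn ℚ) = f.ker := by
    ext x
    rw [Subgroup.mem_subgroupOf]
    constructor
    · rintro ⟨y, hy, hyx⟩
      have : y = x := Subtype.ext hyx
      rwa [← this]
    · intro hx
      exact ⟨x, hx, rfl⟩
  have hidx : f.ker.index ∣ p - 1 := by
    rw [Subgroup.index_ker]
    have h1 := Subgroup.card_subgroup_dvd_card f.range
    rwa [Nat.card_eq_fintype_card (α := (ZMod p)ˣ), ZMod.card_units] at h1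
  have h2 := hpF.out.two_le
  refine ⟨V, ?_, ?_, ?_⟩
  · rintro σ ⟨y, hy, rfl⟩
    refine ⟨y.2, fun ζ hζ => ?_⟩
    have h1 : hζ₀.autToPow ℚ (y : Γℚ) = 1 := hy
    have h3 := hζ₀.autToPow_spec ℚ (y : Γℚ)
    rw [h1] at h3
    have h4 : (y : Γℚ) ζ₀ = ζ₀ := by
      rw [← h3, Units.val_one]
      haveI : Fact (1 < p) := ⟨hpF.out.one_lt⟩
      rw [ZMod.val_one, pow_one]
    obtain ⟨i, -, rfl⟩ := hζ₀.eq_pow_of_pow_eq_one hζ
    show (y : Γℚ) (ζ₀ ^ i) = ζ₀ ^ i
    rw [_root_.map_pow, h4]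
  · rw [hV]
    exact ⟨fun h0 => by
      rw [h0] at hidx
      have := Nat.eq_zero_of_zero_dvd hidx
      omega⟩
  · rw [hV]
    intro h
    have := Nat.le_of_dvd (by omega) (h.trans hidx)
    omega

theorem v_le_of_inertia {σ : Γℚ} (hσ : σ ∈ A.inertiaSubgroupIn ℚ) {x : Qb} :
    A.valuation (σ x) = A.valuation x := by
  rcases eq_or_ne x 0 with rfl | hx
  · rw [_root_.map_zero]
  have h1 := QVal.decomp_div_mem (A := A) (σ := σ) (mem_decomp_of_inertia hσ) hx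
  have hσx : σ x ≠ 0 := by simpa using hx
  have h3 := v_of_AU (div_ne_zero hσx hx) ⟨h1.1, by rw [inv_div]; exact h1.2⟩
  rw [map_div₀] at h3
  exact (div_eq_one_iff_eq (by rw [Ne, _root_.map_eq_zero]; exact hx)).1 h3

/-- the elements of the fixed field of `U` have small value -/
theorem v_pow_le (hA : A.LiesOverPrime p) {U : Subgroup Γℚ}
    (hfin : (U.subgroupOf (A.inertiaSubgroupIn ℚ)).FiniteIndex)
    (hidx : (U.subgroupOf (A.inertiaSubgroupIn ℚ)).index ≤ p * (p - 1)) {T : A.ValueGroup}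
    (hT : T ^ (p - 1) = A.valuation (p : Qb)) {e : Qb} (he : ∀ σ ∈ U, σ e = e)
    (he1 : A.valuation e < 1) : A.valuation e ^ p ≤ T := by
  have hp := hpF.out
  have h2 := hp.two_le
  rcases eq_or_ne e 0 with rfl | he0
  · rw [_root_.map_zero, zero_pow hp.ne_zero]
    exact zero_le
  obtain ⟨j, hj⟩ := exists_zpow_index hA hfin he0 he
  set n := (U.subgroupOf (A.inertiaSubgroupIn ℚ)).index with hn
  have hn0 : n ≠ 0 := hfin.index_ne_zero
  have hP1 : A.valuation (p : Qb) < 1 := v_lt_one_of_lies hA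
  have hP0 : 0 < A.valuation (p : Qb) := by
    rw [zero_lt_iff, Ne, _root_.map_eq_zero]
    exact_mod_cast hp.ne_zero
  have hj1 : A.valuation (p : Qb) ^ j < 1 := by
    rw [← hj]
    exact pow_lt_one₀ zero_le he1 hn0
  have hj0 : 1 ≤ j := by
    by_contra hcon
    have h3 : j ≤ 0 := by omega
    have h4 : 1 ≤ A.valuation (p : Qb) ^ j := by
      have := zpow_le_zpow_right_of_le_one₀ hP0 hP1.le h3
      rwa [zpow_zero] at this
    exact absurd hj1 (not_lt.2 h4)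
  have h5 : A.valuation e ^ n ≤ A.valuation (p : Qb) := by
    rw [hj]
    have := zpow_le_zpow_right_of_le_one₀ hP0 hP1.le hj0
    rwa [zpow_one] at this
  refine le_of_pow_le_pow_left₀ (n := p - 1) (by omega) zero_le ?_
  rw [hT, ← pow_mul]
  exact (pow_le_pow_of_le_one zero_le he1.le hidx).trans h5

end Gen

section Main

variable {p : ℕ} [hpF : Fact p.Prime] {W : WeierstrassCurve ℤ} {A : ValuationSubring Qb} {n : ℕ}
  {u : Qb}

theorem residue_zero_iff (A : ValuationSubring Qb) (a : A) :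
    IsLocalRing.residue A a = 0 ↔ ¬ IsUnit a := by
  rw [IsLocalRing.residue_eq_zero_iff, IsLocalRing.mem_maximalIdeal, mem_nonunits_iff]

/-- existence of non-canonical points -/
theorem exists_nonCan {E : Affine ℚ} (h : Setup E A p n u) : ∃ P, NonCan E A p P := by
  classical
  have hp := hpF.out
  by_contra hcon
  push Not at hcon
  obtain ⟨P₀, hP₀, hpP₀, h1⟩ := h.exists_canonical
  have hΔK : (E⁄Qb).Δ ≠ 0 := by
    rw [bc_Δ]
    exact (_root_.map_ne_zero _).mpr h.hΔ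
  have hcard := natCard_torsion hΔK p hp.ne_zero
  have h2 := card_torsion_le hp.pos hpP₀ fun Q hQ => by
    by_cases hQ0 : Q = 0
    · exact ⟨0, by rw [hQ0, zero_zsmul]⟩
    · exact (h1 Q hQ0 hQ).1.mpr (hcon Q)
  rw [hcard, sq] at h2
  have := hp.two_le
  nlinarith

/-- **The field of `E[p]` is peu ramifiée**. -/
theorem peu_of_setup (h : Setup (WQ W) A p n u) (hpΔ : (p : ℤ) ∣ W.Δ) (hc : ¬ (p : ℤ) ∣ W.c₄)
    (hu : ∀ σ ∈ A.inertiaSubgroupIn ℚ, σ u = u) {U : Subgroup Γℚ}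
    (hU : ∀ σ, σ ∈ U ↔ σ ∈ A.inertiaSubgroupIn ℚ ∧
      ∀ Q : ((WQ W)⁄Qb).Point, p • Q = 0 → σ • Q = Q)
    (hfin : (U.subgroupOf (A.inertiaSubgroupIn ℚ)).FiniteIndex)
    (hidx : (U.subgroupOf (A.inertiaSubgroupIn ℚ)).index ≤ p * (p - 1)) {t : A} (ht0 : t ≠ 0)
    (htp : AU A ((t : Qb) ^ (p - 1) / (p : Qb))) : PEU A p U t := by
  classical
  have hp := hpF.out
  have h2 := hp.two_le
  have hA := h.hA
  have hp0 : (p : Qb) ≠ 0 := by exact_mod_cast hp.ne_zero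
  have ht0' : (t : Qb) ≠ 0 := by simpa using ht0
  have hP1 : A.valuation (p : Qb) < 1 := v_lt_one_of_lies hA
  have hP0 : 0 < A.valuation (p : Qb) := by
    rw [zero_lt_iff, Ne, _root_.map_eq_zero]
    exact hp0
  have hT : A.valuation (t : Qb) ^ (p - 1) = A.valuation (p : Qb) := by
    have h3 := v_of_AU (div_ne_zero (pow_ne_zero _ ht0') hp0) htp
    rw [map_div₀, _root_.map_pow] at h3
    exact (div_eq_one_iff_eq hP0.ne').1 h3
  have hT0 : A.valuation (t : Qb) ≠ 0 := by rw [Ne, _root_.map_eq_zero]; exact ht0'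
  obtain ⟨P, hP⟩ := exists_nonCan h
  obtain ⟨hw1, e, he, hwp⟩ := h.wP_spec hP
  obtain ⟨w, hw⟩ : ∃ w, w = wP (WQ W) p n P := ⟨_, rfl⟩
  rw [← hw] at hw1 hwp
  have hwU : ∀ σ ∈ U, σ w = w := by
    intro σ hσ
    rw [hw, ← wP_gal, ((hU σ).1 hσ).2 P hP.2.1]
  -- the equation
  have hwv : A.valuation (w ^ p - u) ≤ A.valuation (p : Qb) ^ 2 := by
    have h3 : w ^ p - u = (p : Qb) ^ 2 * (u * ((p : Qb) ^ (n - 1) * e)) := by
      have h4 : (p : Qb) ^ (n + 1) = (p : Qb) ^ 2 * (p : Qb) ^ (n - 1) := by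
        rw [← pow_add]
        congr 1
        have := h.hn
        omega
      rw [hwp, h4]
      ring
    rw [h3]
    refine v_mul_le (by rw [_root_.map_pow]) (v_mul_le h.hu.le (v_mul_le ?_ ?_))
    · rw [_root_.map_pow]
      exact pow_le_one₀ zero_le hP1.le
    · exact (A.valuation_le_one_iff _).2 he
  -- lifts
  have hlift : ∀ x : Qb, A.valuation x ≤ 1 → ∃ x₀ : Qb, (∀ σ ∈ A.inertiaSubgroupIn ℚ, σ x₀ = x₀) ∧
      A.valuation (x - x₀) < 1 := by
    intro x hx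
    have hxA := (A.valuation_le_one_iff _).1 hx
    obtain ⟨a, ha, hfix⟩ := QComp.exists_fixed_lift hA (residue_zero_iff A)
      IsLocalRing.residue_surjective (IsLocalRing.residue A ⟨x, hxA⟩)
    refine ⟨a, hfix, ?_⟩
    have h3 : IsLocalRing.residue A (⟨x, hxA⟩ - a) = 0 := by rw [_root_.map_sub, ha, sub_self]
    rw [IsLocalRing.residue_eq_zero_iff] at h3
    exact (A.valuation_lt_one_iff _).1 h3
  obtain ⟨w₀, hw₀, hww₀⟩ := hlift w hw1.le
  have hw₀1 : A.valuation w₀ = 1 := by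
    have h1 : w₀ = w - (w - w₀) := by ring
    rw [h1, ← hw1]
    exact A.valuation.map_sub_eq_of_lt_left (by rw [hw1]; exact hww₀)
  have hw₀0 : w₀ ≠ 0 := by
    rintro rfl
    rw [_root_.map_zero] at hw₀1
    exact zero_ne_one hw₀1
  -- the subfields
  let K₀ : Subfield Qb := (IntermediateField.fixedField (A.inertiaSubgroupIn ℚ)).toSubfield
  let L : Subfield Qb := (IntermediateField.fixedField U).toSubfield
  have hK₀ : ∀ x, x ∈ K₀ ↔ ∀ σ ∈ A.inertiaSubgroupIn ℚ, σ x = x := fun x =>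
    IntermediateField.mem_fixedField_iff _ _
  have hL : ∀ x, x ∈ L ↔ ∀ σ ∈ U, σ x = x := fun x => IntermediateField.mem_fixedField_iff _ _
  have hKL : K₀ ≤ L := fun x hx => (hL x).2 fun σ hσ => (hK₀ x).1 hx σ ((hU σ).1 hσ).1
  intro a m η α ha0 haU hη hηI haη
  have hη1 : A.valuation (η : Qb) = 1 := (A.valuation_eq_one_iff η).1 hη
  have hε : A.valuation ((1 + (t : Qb) * α) - 1) ≤ A.valuation (t : Qb) := by
    rw [add_sub_cancel_left]
    exact v_mul_le le_rfl ((A.valuation_le_one_iff _).2 α.2)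
  by_cases hD : A.valuation (u - w₀ ^ p) = A.valuation (p : Qb)
  · exact caseA hp hKL (fun x hx hx0 => exists_zpow_K₀ hA hx0 ((hK₀ x).1 hx))
      (fun e he he1 => v_pow_le hA hfin hidx hT ((hL e).1 he) he1)
      (fun x hx => by
        obtain ⟨x₀, h3, h4⟩ := hlift x hx
        exact ⟨x₀, (hK₀ x₀).2 h3, h4⟩) hp0 hP1 hT ((hL w).2 hwU) hw1 ((hK₀ u).2 hu) hwv
      ((hK₀ w₀).2 hw₀) hww₀ hD ha0 ((hL a).2 haU) ((hK₀ _).2 hηI) hη1 hε haη
  -- case B
  have hD2 : A.valuation (u - w₀ ^ p) ≤ A.valuation (p : Qb) ^ 2 := by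
    by_cases hD0 : u - w₀ ^ p = 0
    · rw [hD0, _root_.map_zero]
      exact zero_le
    obtain ⟨j, hj⟩ := exists_zpow_K₀ hA hD0 (fun σ hσ => by
      rw [_root_.map_sub, _root_.map_pow, hu σ hσ, hw₀ σ hσ])
    have hD1 : A.valuation (u - w₀ ^ p) < 1 := by
      have h3 : u - w₀ ^ p = (w ^ p - w₀ ^ p) - (w ^ p - u) := by ring
      rw [h3]
      refine (A.valuation.map_sub _ _).trans_lt (max_lt ?_ ?_)
      · rw [← Commute.geom_sum₂_mul (Commute.all w w₀), mul_comm]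
        refine (v_mul_le le_rfl ?_).trans_lt hww₀
        rw [A.valuation_le_one_iff]
        exact sum_mem fun i _ => mul_mem (pow_mem ((A.valuation_le_one_iff _).1 hw1.le) _)
          (pow_mem ((A.valuation_le_one_iff _).1 hw₀1.le) _)
      · refine hwv.trans_lt ?_
        exact pow_lt_one₀ zero_le hP1 two_ne_zero
    have hj2 : 2 ≤ j := by
      by_contra hcon
      have h3 : j ≤ 1 := by omega
      rcases h3.lt_or_eq with h4 | h4
      · have h5 : 1 ≤ A.valuation (p : Qb) ^ j := by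
          have := zpow_le_zpow_right_of_le_one₀ hP0 hP1.le (show j ≤ 0 by omega)
          rwa [zpow_zero] at this
        rw [hj] at hD1
        exact absurd hD1 (not_lt.2 h5)
      · rw [h4, zpow_one] at hj
        exact hD hj
    rw [hj]
    have := zpow_le_zpow_right_of_le_one₀ hP0 hP1.le hj2
    exact_mod_cast this
  -- the root of unity
  haveI : NeZero p := ⟨hp.ne_zero⟩
  haveI : NeZero (p : Qb) := ⟨hp0⟩
  obtain ⟨ζ₀, hζ₀⟩ := HasEnoughRootsOfUnity.exists_primitiveRoot Qb p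
  have hTr : ∀ ζ : Qb, ζ ^ p = 1 → ζ ≠ 1 → A.valuation (1 - ζ) = A.valuation (t : Qb) := by
    intro ζ h3 h4
    have h5 := v_one_sub_root (A := A) h3 h4
    rw [← hT] at h5
    exact (pow_left_inj₀ zero_le zero_le (by omega)).1 h5
  obtain ⟨ζ, hζ, hζw⟩ := exists_root_near A.valuation hp hζ₀ hT0 hTr (ω := w / w₀) (by
    rw [hT]
    have h3 : (w / w₀) ^ p - 1 = ((w ^ p - u) + (u - w₀ ^ p)) / w₀ ^ p := by
      rw [div_pow]
      field_simp
      ring
    rw [h3, map_div₀, _root_.map_pow A.valuation w₀, hw₀1, one_pow, div_one]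
    exact v_add_le hwv hD2)
  rw [hT] at hζw
  have hwζ : A.valuation (w - ζ * w₀) ≤ A.valuation (p : Qb) := by
    have h3 : w - ζ * w₀ = (w / w₀ - ζ) * w₀ := by field_simp
    rw [h3]
    exact v_mul_le hζw hw₀1.le
  obtain ⟨V, hV, hVfin, hVidx⟩ := exists_mu_subgroup A p
  have hVU : V ≤ U := by
    intro σ hσ
    obtain ⟨hσI, hσμ⟩ := hV σ hσ
    rw [hU]
    refine ⟨hσI, ?_⟩
    have h3 : σ w - w = σ (w - ζ * w₀) - (w - ζ * w₀) := by
      rw [_root_.map_sub, _root_.map_mul, hσμ ζ hζ, hw₀ σ hσI]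
      ring
    have h4 : A.valuation (σ w - w) ≤ A.valuation (p : Qb) := by
      rw [h3]
      exact v_sub_le (by rw [v_le_of_inertia hσI]; exact hwζ) hwζ
    have h5 : (σ w - w) / (p : Qb) ∈ A := by
      rw [← A.valuation_le_one_iff, map_div₀]
      exact (div_le_one₀ hP0).2 h4
    have h6 := h.line_of_w (decomp_of_inertia hσI) hP (δ := (σ w - w) / (p : Qb)) h5 (by
      rw [← hw]
      field_simp)
    exact fun Q hQ => h.trivial_of_fixed hpΔ hc hσI hσμ hP h6 Q hQ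
  obtain ⟨m', hm'⟩ := exists_zpow_index hA hVfin ha0 fun σ hσ => haU σ (hVU hσ)
  have hεu : A.valuation (1 + (t : Qb) * α) = 1 := by
    have hT1 : A.valuation (t : Qb) < 1 := by
      by_contra hcon
      push Not at hcon
      have h3 := one_le_pow₀ (n := p - 1) hcon
      rw [hT] at h3
      exact absurd hP1 (not_lt.2 h3)
    refine A.valuation.map_one_add_of_lt ?_
    exact (v_mul_le le_rfl ((A.valuation_le_one_iff _).2 α.2)).trans_lt hT1
  have hva : A.valuation a ^ p = A.valuation (p : Qb) ^ m := by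
    have h3 := congrArg A.valuation haη
    rwa [_root_.map_pow, _root_.map_mul, _root_.map_mul, hη1, hεu, mul_one, mul_one,
      map_zpow₀] at h3
  set N := (V.subgroupOf (A.inertiaSubgroupIn ℚ)).index with hN
  have h3 : A.valuation (p : Qb) ^ (m * (N : ℤ)) = A.valuation (p : Qb) ^ (m' * (p : ℤ)) := by
    rw [zpow_mul, zpow_mul, ← hva, ← hm', zpow_natCast, zpow_natCast, ← pow_mul, ← pow_mul,
      mul_comm]
  have h4 : m * (N : ℤ) = m' * (p : ℤ) := zpow_right_injective₀ hP0 hP1.ne h3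
  have h5 : (p : ℤ) ∣ m * (N : ℤ) := ⟨m', by rw [h4]; ring⟩
  rcases (Nat.prime_iff_prime_int.1 hp).dvd_or_dvd h5 with h6 | h6
  · exact h6
  · exact absurd (by exact_mod_cast h6) hVidx

/-- **The field of `E[p]` is peu ramifiée at a multiplicative place `p` with `p ∣ v_p(Δ)`**. -/
theorem peu_of_mult (hp3 : 3 ≤ p) (hΔ : W.Δ ≠ 0) (hpΔ : (p : ℤ) ∣ W.Δ) (hc : ¬ (p : ℤ) ∣ W.c₄)
    (hv : p ∣ padicValInt p W.Δ) (hA : A.LiesOverPrime p) {U : Subgroup Γℚ}
    (hU : ∀ σ, σ ∈ U ↔ σ ∈ A.inertiaSubgroupIn ℚ ∧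
      ∀ Q : ((WQ W)⁄Qb).Point, p • Q = 0 → σ • Q = Q)
    (hfin : (U.subgroupOf (A.inertiaSubgroupIn ℚ)).FiniteIndex)
    (hidx : (U.subgroupOf (A.inertiaSubgroupIn ℚ)).index ≤ p * (p - 1)) {t : A} (ht0 : t ≠ 0)
    (htp : AU A ((t : Qb) ^ (p - 1) / (p : Qb))) : PEU A p U t := by
  obtain ⟨n, u, -, -, h⟩ := exists_setup hp3 hΔ hpΔ hc hv hA
  exact peu_of_setup h hpΔ hc (fun σ _ => σ.commutes u) hU hfin hidx ht0 htp

end Main

end Fermat.Agent.MazurS
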