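import Fermat.Agent.MazurS.RedKill
import Fermat.Agent.Red.JHecke

/-!
# Hecke polynomials killing the torsion of `J₀(N)` kill the reduction of `J₀(N)`
-/

set_option autoImplicit false
set_option linter.unusedSectionVars false
set_option linter.style.haveILetI false

noncomputable section

open AlgebraicCurve IntermediateField Module ModularCurve

namespace Fermat.Agent.MazurS

open Fermat.Agent.FF Fermat.Agent.Red Fermat.Agent.RepTwo Fermat.Agent.Top Fermat.Agent.QComp

local notation "Qb" => AlgebraicClosure ℚ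
local notation "Γℚ" => (AlgebraicClosure ℚ ≃ₐ[ℚ] AlgebraicClosure ℚ)

variable {N : ℕ} [NeZero N] {ℓ : ℕ} [hℓ : Fact ℓ.Prime] {N' : ℕ} {S' : Set ℕ}

theorem evalEnd_mod {σ V : Type*} [AddCommGroup V] {T : σ → Module.End ℤ V}
    (hT : ∀ i j, T i * T j = T j * T i) (H : AddSubgroup V) (hH : ∀ i, ∀ y ∈ H, T i y ∈ H)
    (a : σ → ℤ) (y : V) (hy : ∀ i, T i y - a i • y ∈ H) (p : MvPolynomial σ ℤ) :
    (∀ z ∈ H, evalEnd T hT p z ∈ H) ∧
      evalEnd T hT p y - MvPolynomial.aeval a p • y ∈ H := by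
  induction p using MvPolynomial.induction_on with
  | C b =>
    refine ⟨fun z hz => ?_, ?_⟩
    · rw [evalEnd_C_apply]
      exact zsmul_mem hz _
    · rw [evalEnd_C_apply, MvPolynomial.aeval_C, algebraMap_int_eq, eq_intCast, Int.cast_id,
        sub_self]
      exact zero_mem _
  | add p q hp hq =>
    refine ⟨fun z hz => ?_, ?_⟩
    · rw [map_add, LinearMap.add_apply]
      exact add_mem (hp.1 z hz) (hq.1 z hz)
    · rw [map_add, map_add, LinearMap.add_apply, add_smul, add_sub_add_comm]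
      exact add_mem hp.2 hq.2
  | mul_X p i hp =>
    refine ⟨fun z hz => ?_, ?_⟩
    · rw [map_mul, evalEnd_X, Module.End.mul_apply]
      exact hp.1 _ (hH i z hz)
    · rw [map_mul, map_mul, evalEnd_X, Module.End.mul_apply, MvPolynomial.aeval_X]
      have h1 := hp.1 _ (hy i)
      rw [map_sub, map_zsmul] at h1
      have h2 := zsmul_mem hp.2 (a i)
      have h3 := add_mem h1 h2
      rw [smul_sub, sub_add_sub_cancel, smul_smul, mul_comm (a i)] at h3
      exact h3

section Def

variable (k : Type*) [Field k] [CharP k ℓ] [IsAlgClosed k]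

/-- the Hecke operators on `J₀(N)` in characteristic `ℓ` -/
def opC (hN : ¬ ℓ ∣ N) (hS : ∀ i : GoodPrime N' S', ¬ ℓ ∣ N * i) (i : GoodPrime N' S') :
    Module.End ℤ (JZeroC k N) :=
  haveI : NeZero (i : ℕ) := ⟨i.2.1.ne_zero⟩
  haveI := isFnField_fullC (k := k) N ℓ hN
  haveI := isFnField_fullC (k := k) (N * i) ℓ (hS i)
  (heckeC k N i (hS i)).toIntLinearMap

end Def

variable {A : ValuationSubring (AlgebraicClosure ℚ)} {k : Type*} [Field k] {π : A →+* k}
  (hA : A.LiesOverPrime ℓ)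
  (hπ : ∀ a : A, π a = 0 ↔ ¬ IsUnit a) (hs : Function.Surjective π) (hN : ¬ ℓ ∣ N)
  [CharP k ℓ] [IsAlgClosed k] (hS : ∀ i : GoodPrime N' S', ¬ ℓ ∣ N * i)

theorem redJ_opsJ_T (i : GoodPrime N' S') (x : JZero N) :
    redJ hA hπ hs hN ((opsJ N N' S').T i x) = opC k hN hS i (redJ hA hπ hs hN x) := by
  haveI : NeZero (i : ℕ) := ⟨i.2.1.ne_zero⟩
  haveI := isFnField_fullC (k := k) N ℓ hN
  haveI := isFnField_fullC (k := k) (N * i) ℓ (hS i)
  exact redJ_hecke hA hπ hs hN (i : ℕ) (hS i) x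

include hA hπ hs in
/-- the Hecke operators of `J₀(N)` in characteristic `ℓ` commute -/
theorem opC_comm (i j : GoodPrime N' S') :
    opC k hN hS i * opC k hN hS j = opC k hN hS j * opC k hN hS i := by
  refine LinearMap.ext fun y => ?_
  obtain ⟨x, rfl⟩ := redJ_surjective hA hπ hs hN y
  change opC k hN hS i (opC k hN hS j _) = opC k hN hS j (opC k hN hS i _)
  rw [← redJ_opsJ_T, ← redJ_opsJ_T, ← redJ_opsJ_T, ← redJ_opsJ_T]
  exact congrArg _ (LinearMap.congr_fun ((opsJ N N' S').comm i j) x)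

/-- the reduction commutes with Hecke polynomials -/
theorem redJ_ev (t : HeckePoly N' S') (x : JZero N) :
    redJ hA hπ hs hN ((opsJ N N' S').ev t x) =
      evalEnd (opC k hN hS) (opC_comm hA hπ hs hN hS) t (redJ hA hπ hs hN x) :=
  evalEnd_natural (opsJ N N' S').comm (opC_comm hA hπ hs hN hS) (redJ hA hπ hs hN)
    (redJ_opsJ_T hA hπ hs hN hS) t x

/-- **(R3)** Hecke polynomials killing the torsion of `J₀(N)` kill `J₀(N)` in characteristic
`ℓ`. -/
theorem evC_eq_zero (t : HeckePoly N' S')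
    (ht : ∀ (x : JZero N) (n : ℕ), n ≠ 0 → n • x = 0 → (opsJ N N' S').ev t x = 0)
    (y : JZeroC k N) :
    evalEnd (opC k hN hS) (opC_comm hA hπ hs hN hS) t y = 0 :=
  kill_C hA hπ hs hN ((opsJ N N' S').ev t).toAddMonoidHom
    (fun σ x => (opsJ N N' S').ev_gal t σ x) ht
    (evalEnd (opC k hN hS) (opC_comm hA hπ hs hN hS) t).toAddMonoidHom
    (redJ_ev hA hπ hs hN hS t) y

include hA hπ hs in
/-- **(R3)**, in terms of eigenvectors: if the class `y` in characteristic `ℓ` is an eigenvector of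
all the Hecke operators modulo a subgroup stable under them, then the value at the
eigenvalues of a polynomial killing the torsion maps `y` into the subgroup. -/
theorem aeval_smul_mem (t : HeckePoly N' S')
    (ht : ∀ (x : JZero N) (n : ℕ), n ≠ 0 → n • x = 0 → (opsJ N N' S').ev t x = 0)
    (H : AddSubgroup (JZeroC k N)) (hH : ∀ i, ∀ y ∈ H, opC k hN hS i y ∈ H)
    (a : GoodPrime N' S' → ℤ) (y : JZeroC k N) (hy : ∀ i, opC k hN hS i y - a i • y ∈ H) :
    MvPolynomial.aeval a t • y ∈ H := by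
  have h := (evalEnd_mod (opC_comm hA hπ hs hN hS) H hH a y hy t).2
  rw [evC_eq_zero hA hπ hs hN hS t ht, zero_sub] at h
  exact neg_mem_iff.1 h

end Fermat.Agent.MazurS
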